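/-
GATE-F (S40) / node GF-F2-ASM, file 4 (helper31): **the field `econst` of `Skeleton.Chain`
from the cover frame, hypothesis form.**

`Φ : CoverFrame p Γ F' C` (`GF/KCover/Frame.lean`).  For one class `x` with tropical vector
`mx : ι → ZMod p`, a *cover datum* is the list of binders of `CoverFrame.dvd_val_c₁`
(KUM-DESC: `f a u h c₁ m`; SHAPE: `κ`, `hκ`; E-PEU: `hpeu`) together with the NODE RELATION in its
mod-`p` form (GF-KCOVER-INST, helper84's NR):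

  `hNR : ∀ s j, ((w₂ (j + bs s) f − w₁ (j + as s) f : ℤ) : ZMod p) = E s * mx s`,

`E s` the thickness of the node `s` in the unit of `vK` (`E s = (p − 1) e_s` in `ϖ`-units).

* `exists_const_of_nodeRel` : `∃ Cst, ∀ s, E s * mx s = Cst`;
* `IsCoverDatum`, `econst_of_coverDatum` : `Skeleton.EConst E mx`;
* `econst_of_forall` : the field `econst : ∀ x ∈ Y₀, EConst E (trop x)` from a cover datum for
  every `x ∈ Y₀`.
-/
import Fermat.Agent.GF.KCover.Frame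
import Fermat.Agent.GF.Top.Skeleton

set_option autoImplicit false
set_option linter.unusedSectionVars false

namespace Fermat.Agent.GF.F2Asm.Asm

open Fermat.Agent.GF.KCover Fermat.Agent.GF.Top.Skeleton

variable {p : ℕ} [Fact p.Prime] {Γ : Type*} [Group Γ] {F' : Type*} [Field F']
  [MulSemiringAction Γ F'] {C : Subfield F'} (Φ : CoverFrame p Γ F' C)

/-- **S4 with the node relation modulo `p`.** -/
theorem exists_const_of_nodeRel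
    {f c₁ m : fixedUnits Γ F'} {a u h : F'} (ha : a ∈ C) (ha0 : a ≠ 0) (hu0 : u ≠ 0)
    (hh0 : h ≠ 0) (hc₁ : ((c₁ : F'ˣ) : F') ∈ C) (hδu : Φ.δ u = u)
    (hf : ((f : F'ˣ) : F') = a * u * h ^ p) (hδf : Φ.δU f = f * c₁ * m ^ p)
    (κ : Γ → ℕ)
    (hκ : ∀ ρ : Γ, ∃ b hr : F', b ∈ C ∧ b ≠ 0 ∧ Φ.δ hr = hr ∧ hr ≠ 0 ∧
      ρ • u = b * u * Φ.G ^ (p * κ ρ) * hr ^ p)
    (hpeu : ∀ c : fixedUnits Γ F', ((c : F'ˣ) : F') ∈ C → ∀ t ∈ C, t ^ p = ((c : F'ˣ) : F') →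
      (∀ ρ : Γ, ρ • t * Φ.ζ ^ κ ρ = t) → (p : ℤ) ∣ Φ.vK c)
    {ι : Type*} (as bs : ι → ZMod p) (E mx : ι → ZMod p)
    (hNR : ∀ s j, (((Φ.w₂ (j + bs s) f - Φ.w₁ (j + as s) f : ℤ)) : ZMod p) = E s * mx s) :
    ∃ Cst : ZMod p, ∀ s, E s * mx s = Cst := by
  obtain ⟨Cst, hC⟩ := Φ.exists_tropical_const ha ha0 hu0 hh0 hc₁ hδu hf hδf κ hκ hpeu as bs
    (fun _ => 1) (fun s j => Φ.w₂ (j + bs s) f - Φ.w₁ (j + as s) f)
    (fun s j => (one_mul _).symm) (fun s => E s * mx s) hNR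
  exact ⟨Cst, fun s => by simpa using hC s⟩

/-- **a cover datum** for a class with tropical vector `mx` (all binders of S4 in one `Prop`). -/
def IsCoverDatum {ι : Type*} (E mx : ι → ZMod p) : Prop :=
  ∃ (f c₁ m : fixedUnits Γ F') (a u h : F') (κ : Γ → ℕ) (as bs : ι → ZMod p),
    a ∈ C ∧ a ≠ 0 ∧ u ≠ 0 ∧ h ≠ 0 ∧ ((c₁ : F'ˣ) : F') ∈ C ∧ Φ.δ u = u ∧
    ((f : F'ˣ) : F') = a * u * h ^ p ∧ Φ.δU f = f * c₁ * m ^ p ∧
    (∀ ρ : Γ, ∃ b hr : F', b ∈ C ∧ b ≠ 0 ∧ Φ.δ hr = hr ∧ hr ≠ 0 ∧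
      ρ • u = b * u * Φ.G ^ (p * κ ρ) * hr ^ p) ∧
    (∀ c : fixedUnits Γ F', ((c : F'ˣ) : F') ∈ C → ∀ t ∈ C, t ^ p = ((c : F'ˣ) : F') →
      (∀ ρ : Γ, ρ • t * Φ.ζ ^ κ ρ = t) → (p : ℤ) ∣ Φ.vK c) ∧
    ∀ s j, (((Φ.w₂ (j + bs s) f - Φ.w₁ (j + as s) f : ℤ)) : ZMod p) = E s * mx s

theorem econst_of_coverDatum {ι : Type*} {E mx : ι → ZMod p} (H : IsCoverDatum Φ E mx) :
    EConst E mx := by
  obtain ⟨f, c₁, m, a, u, h, κ, as, bs, ha, ha0, hu0, hh0, hc₁, hδu, hf, hδf, hκ, hpeu, hNR⟩ := H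
  exact exists_const_of_nodeRel Φ ha ha0 hu0 hh0 hc₁ hδu hf hδf κ hκ hpeu as bs E mx hNR

/-- `EConst` is insensitive to a unit rescaling of the thickness vector. -/
theorem econst_smul {ι : Type*} {E mx : ι → ZMod p} (c : ZMod p) (H : EConst E mx) :
    EConst (fun s => c * E s) mx := by
  obtain ⟨d, hd⟩ := H
  exact ⟨c * d, fun s => by rw [mul_assoc, hd s]⟩

/-- **the field `econst`** : a cover datum for every class of `Y₀`. -/
theorem econst_of_forall {V : Type*} [AddCommGroup V] [Module (ZMod p) V] {ι : Type*}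
    (Y₀ : Submodule (ZMod p) V) (trop : V →+ (ι → ZMod p)) (E : ι → ZMod p)
    (H : ∀ x ∈ Y₀, IsCoverDatum Φ E (trop x)) : ∀ x ∈ Y₀, EConst E (trop x) :=
  fun x hx => econst_of_coverDatum Φ (H x hx)

end Fermat.Agent.GF.F2Asm.Asm
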