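/-
GATE-F (S40) / node GF-F2-ASM, file 1 (helper31): **the concrete Kummer cover field**
`F' = F(G)`, `G ^ p = g₀`, generic in `(K, F)`; Mathlib + the prelude `SemilinearAut` + `S24.IsGen`.

`F` a field over `K`, `g₀ : F` not a `p`-th power, `F' := KExt p g₀ = AdjoinRoot (X ^ p − g₀)`:

* `Field`, `Algebra K F'`, `Algebra F F'`, tower, `FiniteDimensional F F'` (instances, the first one
  under `[Fact (Irreducible (kpoly p g₀))]`, supplied by `irreducible_kpoly`);
* `gen p g₀ = G`, `gen_pow : G ^ p = g₀`, `gen_ne_zero`;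
* `delta p g₀ ζ hζ : F' ≃ₐ[F] F'` with `δ G = ζ G` (`ζ : F`, `ζ ^ p = 1`);
* `Stab g₀ ζ ≤ SemilinearAut K F` (the semilinear automorphisms fixing `g₀` and `ζ`) and
  **`lift p g₀ ζ : Stab g₀ ζ →* SemilinearAut K F'`** : `σ' G = G`, `σ' | F = σ`, same base
  automorphism, commuting with `δ` (`lift_delta`);
* `constants p g₀ : Subfield F'` (the image of `K`), with the four constant-fields of
  `GF/KCover/Frame.CoverFrame` : `delta_const`, `const_root` (`K` algebraically closed),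
  `const_stable`, and `lift_delta` (`δ_comm`);
* `isGen_algebraMap : IsGen K x → IsGen K (algebraMap F F' x)` (the generic RR package applies to
  `F'`).
-/
import Mathlib
import Fermat.Prelude.Def_AlgebraicCurve_BaseChangeGalois
import Fermat.Agent.DS.P4.GenTower

set_option autoImplicit false
set_option linter.unusedSectionVars false

noncomputable section

namespace Fermat.Agent.GF.F2Asm.KummerExt

open Polynomial AlgebraicCurve Fermat.Agent.S24

variable {K F : Type*} [Field K] [Field F] [Algebra K F]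

/-- the Kummer polynomial `X ^ p − g₀` -/
def kpoly (p : ℕ) (g₀ : F) : F[X] := X ^ p - C g₀

theorem irreducible_kpoly {p : ℕ} (hp : p.Prime) {g₀ : F} (h : ∀ b : F, b ^ p ≠ g₀) :
    Irreducible (kpoly p g₀) :=
  X_pow_sub_C_irreducible_of_prime hp h

theorem monic_kpoly {p : ℕ} (hp : p ≠ 0) (g₀ : F) : (kpoly p g₀).Monic :=
  monic_X_pow_sub_C g₀ hp

theorem kpoly_map (p : ℕ) (g₀ : F) (σ : F →+* F) : (kpoly p g₀).map σ = kpoly p (σ g₀) := by
  simp [kpoly]

/-- **the Kummer extension `F(g₀^{1/p})`** -/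
abbrev KExt (p : ℕ) (g₀ : F) : Type _ := AdjoinRoot (kpoly p g₀)

variable (p : ℕ) (g₀ : F)

/-- the Kummer generator `G` -/
def gen : KExt p g₀ := AdjoinRoot.root (kpoly p g₀)

theorem gen_pow : gen p g₀ ^ p = algebraMap F (KExt p g₀) g₀ := by
  have h : AdjoinRoot.mk (kpoly p g₀) (X ^ p - C g₀) = 0 := AdjoinRoot.mk_self
  rw [map_sub, map_pow, AdjoinRoot.mk_X, AdjoinRoot.mk_C, sub_eq_zero] at h
  exact h

theorem algebraMap_K (a : K) :
    algebraMap K (KExt p g₀) a = algebraMap F (KExt p g₀) (algebraMap K F a) :=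
  IsScalarTower.algebraMap_apply K F (KExt p g₀) a

instance finiteDimensional [NeZero p] : FiniteDimensional F (KExt p g₀) :=
  (monic_kpoly (NeZero.ne p) g₀).finite_adjoinRoot

section Field

variable [hirr : Fact (Irreducible (kpoly p g₀))]

theorem algebraMap_injective : Function.Injective (algebraMap F (KExt p g₀)) :=
  (algebraMap F (KExt p g₀)).injective

theorem gen_ne_zero (hg₀ : g₀ ≠ 0) : gen p g₀ ≠ 0 := by
  intro h
  have h1 := gen_pow p g₀
  rw [h] at h1
  by_cases hp : p = 0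
  · subst hp
    have hdeg : (kpoly 0 g₀).natDegree = 0 := by
      have : kpoly 0 g₀ = C (1 - g₀) := by
        unfold kpoly
        rw [pow_zero, C_sub, C_1]
      rw [this]
      exact natDegree_C _
    have := hirr.out.natDegree_pos
    omega
  · rw [zero_pow hp] at h1
    exact hg₀ ((map_eq_zero_iff _ (algebraMap_injective p g₀)).mp h1.symm)

/-- the image of `x` generates `F'` as a function field in one variable. -/
theorem isGen_algebraMap [NeZero p] (x : F) [IsGen K x] : IsGen K (algebraMap F (KExt p g₀) x) :=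
  Fermat.Agent.DS.P4.GenTower.isGen_algebraMap_of_finite x

end Field

/-! ### the deck transformation `δ` -/

section Delta

variable (ζ : F) [NeZero p]

omit [NeZero p] in
theorem zeta_ne_zero_of_pow (hp : p ≠ 0) {ζ : F} (hζ : ζ ^ p = 1) : ζ ≠ 0 := by
  rintro rfl
  rw [zero_pow hp] at hζ
  exact zero_ne_one hζ

omit [NeZero p] in
theorem eval₂_zeta_gen (hζ : ζ ^ p = 1) :
    (kpoly p g₀).eval₂ ((Algebra.ofId F (KExt p g₀) : F →ₐ[F] KExt p g₀) : F →+* KExt p g₀)
      (algebraMap F (KExt p g₀) ζ * gen p g₀) = 0 := by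
  show (X ^ p - C g₀ : F[X]).eval₂ _ _ = 0
  rw [eval₂_sub, eval₂_pow, eval₂_X, eval₂_C, mul_pow, gen_pow, ← map_pow, hζ, map_one,
    one_mul]
  exact sub_self _

omit [NeZero p] in
/-- `δ` as an algebra endomorphism : `G ↦ ζ G`. -/
def deltaHom (hζ : ζ ^ p = 1) : KExt p g₀ →ₐ[F] KExt p g₀ :=
  AdjoinRoot.liftAlgHom (kpoly p g₀) (Algebra.ofId F (KExt p g₀))
    (algebraMap F (KExt p g₀) ζ * gen p g₀) (eval₂_zeta_gen p g₀ ζ hζ)

omit [NeZero p] in
theorem deltaHom_gen (hζ : ζ ^ p = 1) :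
    deltaHom p g₀ ζ hζ (gen p g₀) = algebraMap F (KExt p g₀) ζ * gen p g₀ :=
  AdjoinRoot.liftAlgHom_root _ _ _ _

omit [NeZero p] in
theorem inv_pow_eq_one {ζ : F} (hζ : ζ ^ p = 1) : ζ⁻¹ ^ p = 1 := by
  rw [inv_pow, hζ, inv_one]

/-- **the deck transformation** `δ : F' ≃ₐ[F] F'`, `δ G = ζ G`. -/
def delta (hζ : ζ ^ p = 1) : KExt p g₀ ≃ₐ[F] KExt p g₀ :=
  AlgEquiv.ofAlgHom (deltaHom p g₀ ζ hζ) (deltaHom p g₀ ζ⁻¹ (inv_pow_eq_one p hζ))
    (by
      have hζ0 : ζ ≠ 0 := zeta_ne_zero_of_pow p (NeZero.ne p) hζ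
      apply AdjoinRoot.algHom_ext
      show deltaHom p g₀ ζ hζ (deltaHom p g₀ ζ⁻¹ (inv_pow_eq_one p hζ) (gen p g₀)) = gen p g₀
      rw [deltaHom_gen, map_mul, AlgHom.commutes, deltaHom_gen, ← mul_assoc, ← map_mul,
        inv_mul_cancel₀ hζ0, map_one, one_mul])
    (by
      have hζ0 : ζ ≠ 0 := zeta_ne_zero_of_pow p (NeZero.ne p) hζ
      apply AdjoinRoot.algHom_ext
      show deltaHom p g₀ ζ⁻¹ (inv_pow_eq_one p hζ) (deltaHom p g₀ ζ hζ (gen p g₀)) = gen p g₀
      rw [deltaHom_gen, map_mul, AlgHom.commutes, deltaHom_gen, ← mul_assoc, ← map_mul,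
        mul_inv_cancel₀ hζ0, map_one, one_mul])

theorem delta_gen (hζ : ζ ^ p = 1) :
    delta p g₀ ζ hζ (gen p g₀) = algebraMap F (KExt p g₀) ζ * gen p g₀ :=
  deltaHom_gen p g₀ ζ hζ

theorem delta_algebraMap (hζ : ζ ^ p = 1) (y : F) :
    delta p g₀ ζ hζ (algebraMap F (KExt p g₀) y) = algebraMap F (KExt p g₀) y :=
  (delta p g₀ ζ hζ).commutes y

end Delta

/-! ### the lift of the semilinear automorphisms fixing `g₀` and `ζ` -/

section Lift

variable (ζ : F) [Fact (Irreducible (kpoly p g₀))]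

/-- the semilinear automorphisms of `F / K` fixing `g₀` and `ζ`. -/
def Stab : Subgroup (SemilinearAut K F) :=
  MulAction.stabilizer (SemilinearAut K F) g₀ ⊓ MulAction.stabilizer (SemilinearAut K F) ζ

variable {g₀ ζ}

theorem mem_Stab {σ : SemilinearAut K F} : σ ∈ Stab (K := K) g₀ ζ ↔ σ • g₀ = g₀ ∧ σ • ζ = ζ :=
  Iff.rfl

variable (g₀)

/-- the lift of a ring automorphism of `F` fixing `g₀` : the identity on `G`. -/
def liftEquiv (σ : F ≃+* F) (hσ : σ g₀ = g₀) : KExt p g₀ ≃+* KExt p g₀ :=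
  AdjoinRoot.mapRingEquiv σ (kpoly p g₀) (kpoly p g₀) (by
    have : (kpoly p g₀).map (σ : F →+* F) = kpoly p g₀ := by
      rw [kpoly_map]
      show kpoly p (σ g₀) = kpoly p g₀
      rw [hσ]
    show Associated ((kpoly p g₀).map (σ : F →+* F)) (kpoly p g₀)
    rw [this])

theorem liftEquiv_algebraMap (σ : F ≃+* F) (hσ : σ g₀ = g₀) (y : F) :
    liftEquiv p g₀ σ hσ (algebraMap F (KExt p g₀) y) = algebraMap F (KExt p g₀) (σ y) := by
  show AdjoinRoot.mapRingEquiv σ _ _ _ (AdjoinRoot.of _ y) = AdjoinRoot.of _ (σ y)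
  rw [AdjoinRoot.coe_mapRingEquiv]
  exact AdjoinRoot.map_of _ _ _ _ _

theorem liftEquiv_gen (σ : F ≃+* F) (hσ : σ g₀ = g₀) :
    liftEquiv p g₀ σ hσ (gen p g₀) = gen p g₀ := by
  show AdjoinRoot.mapRingEquiv σ _ _ _ (AdjoinRoot.root _) = AdjoinRoot.root _
  rw [AdjoinRoot.coe_mapRingEquiv]
  exact AdjoinRoot.map_root _ _ _ _

/-- two ring homomorphisms out of `F'` agreeing on `F` and on `G` are equal. -/
theorem ringHom_ext' {T : Type*} [Semiring T] {f g : KExt p g₀ →+* T}
    (h1 : ∀ y : F, f (algebraMap F (KExt p g₀) y) = g (algebraMap F (KExt p g₀) y))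
    (h2 : f (gen p g₀) = g (gen p g₀)) : f = g :=
  AdjoinRoot.ringHom_ext (RingHom.ext h1) h2

/-- the lift as a semilinear automorphism of `F' / K`. -/
def liftAut (σ : SemilinearAut K F) (hσ : σ • g₀ = g₀) : SemilinearAut K (KExt p g₀) :=
  ⟨(liftEquiv p g₀ (SemilinearAut.toRingAut σ) hσ, SemilinearAut.baseAut σ), fun a => by
    show liftEquiv p g₀ (SemilinearAut.toRingAut σ) hσ (algebraMap K (KExt p g₀) a) =
      algebraMap K (KExt p g₀) (SemilinearAut.baseAut σ a)
    rw [algebraMap_K, liftEquiv_algebraMap, SemilinearAut.commutes, ← algebraMap_K]⟩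

theorem liftAut_smul_algebraMap (σ : SemilinearAut K F) (hσ : σ • g₀ = g₀) (y : F) :
    liftAut p g₀ σ hσ • algebraMap F (KExt p g₀) y = algebraMap F (KExt p g₀) (σ • y) :=
  liftEquiv_algebraMap p g₀ _ hσ y

theorem liftAut_smul_gen (σ : SemilinearAut K F) (hσ : σ • g₀ = g₀) :
    liftAut p g₀ σ hσ • gen p g₀ = gen p g₀ :=
  liftEquiv_gen p g₀ _ hσ

theorem baseAut_liftAut (σ : SemilinearAut K F) (hσ : σ • g₀ = g₀) :
    SemilinearAut.baseAut (liftAut p g₀ σ hσ) = SemilinearAut.baseAut σ := rfl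

/-- a semilinear automorphism of `F'` is determined by its base automorphism and its values on
`F` and `G`. -/
theorem semilinearAut_ext {σ τ : SemilinearAut K (KExt p g₀)}
    (hb : SemilinearAut.baseAut σ = SemilinearAut.baseAut τ)
    (h1 : ∀ y : F, σ • algebraMap F (KExt p g₀) y = τ • algebraMap F (KExt p g₀) y)
    (h2 : σ • gen p g₀ = τ • gen p g₀) : σ = τ := by
  apply Subtype.ext
  apply Prod.ext
  · apply RingEquiv.toRingHom_injective
    exact ringHom_ext' p g₀ h1 h2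
  · exact hb

variable (ζ)

/-- **the lift** `Stab g₀ ζ →* SemilinearAut K F'`. -/
def lift : Stab (K := K) g₀ ζ →* SemilinearAut K (KExt p g₀) where
  toFun σ := liftAut p g₀ σ.1 (mem_Stab.mp σ.2).1
  map_one' := by
    refine semilinearAut_ext p g₀ ?_ (fun y => ?_) ?_
    · rw [baseAut_liftAut, Subgroup.coe_one, SemilinearAut.baseAut_one,
        SemilinearAut.baseAut_one]
    · rw [liftAut_smul_algebraMap, Subgroup.coe_one, one_smul, one_smul]
    · rw [liftAut_smul_gen, one_smul]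
  map_mul' σ τ := by
    refine semilinearAut_ext p g₀ ?_ (fun y => ?_) ?_
    · rw [baseAut_liftAut, Subgroup.coe_mul, SemilinearAut.baseAut_mul,
        SemilinearAut.baseAut_mul, baseAut_liftAut, baseAut_liftAut]
    · rw [liftAut_smul_algebraMap, mul_smul, liftAut_smul_algebraMap, liftAut_smul_algebraMap,
        Subgroup.coe_mul, mul_smul]
    · rw [liftAut_smul_gen, mul_smul, liftAut_smul_gen, liftAut_smul_gen]

theorem lift_smul_algebraMap (σ : Stab (K := K) g₀ ζ) (y : F) :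
    lift p g₀ ζ σ • algebraMap F (KExt p g₀) y = algebraMap F (KExt p g₀) (σ.1 • y) :=
  liftAut_smul_algebraMap p g₀ σ.1 (mem_Stab.mp σ.2).1 y

theorem lift_smul_gen (σ : Stab (K := K) g₀ ζ) : lift p g₀ ζ σ • gen p g₀ = gen p g₀ :=
  liftAut_smul_gen p g₀ σ.1 (mem_Stab.mp σ.2).1

theorem baseAut_lift (σ : Stab (K := K) g₀ ζ) :
    SemilinearAut.baseAut (lift p g₀ ζ σ) = SemilinearAut.baseAut σ.1 := rfl

/-- **`δ` commutes with the lifts** (the binder `δ_comm` of `CoverFrame`). -/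
theorem lift_delta [NeZero p] (hζ : ζ ^ p = 1) (σ : Stab (K := K) g₀ ζ) (y : KExt p g₀) :
    lift p g₀ ζ σ • delta p g₀ ζ hζ y = delta p g₀ ζ hζ (lift p g₀ ζ σ • y) := by
  have key : ((SemilinearAut.toRingAut (lift p g₀ ζ σ) : KExt p g₀ ≃+* KExt p g₀) :
        KExt p g₀ →+* KExt p g₀).comp ((delta p g₀ ζ hζ : KExt p g₀ ≃ₐ[F] KExt p g₀) :
          KExt p g₀ →+* KExt p g₀) =
      ((delta p g₀ ζ hζ : KExt p g₀ ≃ₐ[F] KExt p g₀) : KExt p g₀ →+* KExt p g₀).comp
        ((SemilinearAut.toRingAut (lift p g₀ ζ σ) : KExt p g₀ ≃+* KExt p g₀) :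
          KExt p g₀ →+* KExt p g₀) := by
    refine ringHom_ext' p g₀ (fun z => ?_) ?_
    · show lift p g₀ ζ σ • delta p g₀ ζ hζ (algebraMap F (KExt p g₀) z) =
        delta p g₀ ζ hζ (lift p g₀ ζ σ • algebraMap F (KExt p g₀) z)
      rw [delta_algebraMap, lift_smul_algebraMap, delta_algebraMap]
    · show lift p g₀ ζ σ • delta p g₀ ζ hζ (gen p g₀) =
        delta p g₀ ζ hζ (lift p g₀ ζ σ • gen p g₀)
      rw [delta_gen, smul_mul', lift_smul_algebraMap, lift_smul_gen, delta_gen,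
        (mem_Stab.mp σ.2).2]
  exact RingHom.congr_fun key y

end Lift

/-! ### the constants -/

section Constants

variable [Fact (Irreducible (kpoly p g₀))]

/-- the constants of `F'` : the image of `K`. -/
def constants : Subfield (KExt p g₀) := (algebraMap K (KExt p g₀)).fieldRange

variable {p g₀}

theorem mem_constants {y : KExt p g₀} :
    y ∈ constants (K := K) p g₀ ↔ ∃ a : K, algebraMap K (KExt p g₀) a = y :=
  RingHom.mem_fieldRange

variable (p g₀)

/-- `δ` fixes the constants (the binder `δ_const` of `CoverFrame`). -/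
theorem delta_const [NeZero p] (ζ : F) (hζ : ζ ^ p = 1) (c : KExt p g₀) (hc : c ∈ constants (K := K) p g₀) :
    delta p g₀ ζ hζ c = c := by
  obtain ⟨a, rfl⟩ := mem_constants.mp hc
  rw [algebraMap_K, delta_algebraMap]

/-- the constants are stable under every semilinear automorphism (the binder `const_stable`). -/
theorem const_stable (σ : SemilinearAut K (KExt p g₀)) (c : KExt p g₀)
    (hc : c ∈ constants (K := K) p g₀) : σ • c ∈ constants (K := K) p g₀ := by
  obtain ⟨a, rfl⟩ := mem_constants.mp hc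
  rw [SemilinearAut.smul_algebraMap]
  exact mem_constants.mpr ⟨_, rfl⟩

/-- the constants are `p`-root closed in `F'` when `K` is algebraically closed
(the binder `const_root`). -/
theorem const_root [IsAlgClosed K] (hp : 0 < p)
    (y : KExt p g₀) (hy : y ^ p ∈ constants (K := K) p g₀) : y ∈ constants (K := K) p g₀ := by
  obtain ⟨a, ha⟩ := mem_constants.mp hy
  -- `T ^ p - a` splits in `K`
  have hsplit : ((X ^ p - C a : K[X]).map (algebraMap K (KExt p g₀))).Splits :=
    (IsAlgClosed.splits (X ^ p - C a)).map (algebraMap K (KExt p g₀))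
  have hroot : ((X ^ p - C a : K[X]).map (algebraMap K (KExt p g₀))).IsRoot y := by
    simp [ha]
  have hne : (X ^ p - C a : K[X]).map (algebraMap K (KExt p g₀)) ≠ 0 :=
    (Polynomial.map_ne_zero_iff (algebraMap K (KExt p g₀)).injective).mpr
      (X_pow_sub_C_ne_zero hp a)
  have hmem : y ∈ ((X ^ p - C a : K[X]).map (algebraMap K (KExt p g₀))).roots :=
    (mem_roots hne).mpr hroot
  rw [(IsAlgClosed.splits (X ^ p - C a)).roots_map (algebraMap K (KExt p g₀))] at hmem
  obtain ⟨b, -, hb⟩ := Multiset.mem_map.mp hmem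
  exact mem_constants.mpr ⟨b, hb⟩

end Constants

end Fermat.Agent.GF.F2Asm.KummerExt
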