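/-
GATE-F (S44/S40) / node GF-F2-ASM, file 5 (helper31): **the concrete cover frame on `ℚ̄(X₀(N))`.**

`A | p` a valuation subring of `ℚ̄`, `ζ` a primitive `p`-th root of unity,
`Γ = I' = tameGroup A ζ = I_A ∩ Stab ζ ≤ G_ℚ`.  A `TameDatum` is a `K'`-rational Kummer function
`g` (`p ∣ div g`, `ρ g = g` for `ρ ∈ I'`) which is not a `p`-th power.  From it:

* `T.Fp = KExt p g` (`= F(G)`, `G ^ p = g`) with its `Field`, `Algebra ℚ̄`, `Algebra (FK N)`
  instances and the **semilinear action of `I'`** (`instance : MulSemiringAction (tameGroup A ζ) T.Fp`,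
  `ρ G = G`, coefficientwise on `FK N`), `T.actHom : I' →* SemilinearAut ℚ̄ T.Fp`;
* `T.C` (constants), `T.δ` (deck transformation);
* `WData T` : the valuation fields of `CoverFrame` (what GF-KCOVER-INST-FIELD-MOD produces), and
  `T.coverFrame W : CoverFrame p (tameGroup A ζ) T.Fp T.C`.
-/
import Fermat.Agent.GF.F2Asm.KummerExt
import Fermat.Agent.GF.KCover.Frame
import Fermat.Agent.GF.Peu.Tame
import Fermat.Agent.GJ.Kum.KumType

set_option autoImplicit false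
set_option linter.unusedSectionVars false

noncomputable section

namespace Fermat.Agent.GF.F2Asm.Inst

open AlgebraicCurve ModularCurve Polynomial
open Fermat.Agent.GJ.KumGroup Fermat.Agent.GJ.Kum.KumType
open Fermat.Agent.GF.F2Asm.KummerExt Fermat.Agent.GF.KCover Fermat.Agent.GF.Peu

local notation "GQ" => (AlgebraicClosure ℚ ≃ₐ[ℚ] AlgebraicClosure ℚ)

/-- `I' = I_A ∩ Stab ζ` as a subgroup of `G_ℚ`. -/
def tameGroup (A : ValuationSubring Kb) (ζ : Kb) : Subgroup GQ where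
  carrier := {ρ | IsTameFix A ζ ρ}
  one_mem' := ⟨(A.inertiaSubgroupIn ℚ).one_mem, rfl⟩
  mul_mem' := by
    rintro a b ⟨ha, ha'⟩ ⟨hb, hb'⟩
    exact ⟨(A.inertiaSubgroupIn ℚ).mul_mem ha hb, by
      show a (b ζ) = ζ
      rw [hb', ha']⟩
  inv_mem' := by
    rintro a ⟨ha, ha'⟩
    refine ⟨(A.inertiaSubgroupIn ℚ).inv_mem ha, ?_⟩
    show a.symm ζ = ζ
    rw [AlgEquiv.symm_apply_eq, ha']

theorem mem_tameGroup {A : ValuationSubring Kb} {ζ : Kb} {ρ : GQ} :
    ρ ∈ tameGroup A ζ ↔ IsTameFix A ζ ρ := Iff.rfl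

variable (N : ℕ) [NeZero N] (p : ℕ) [hpF : Fact p.Prime] (A : ValuationSubring Kb) (ζ : Kb)

/-- **a tame Kummer datum**: a `K'`-rational `p`-divisible unit of `ℚ̄(X₀(N))` which is not a
`p`-th power. -/
structure TameDatum where
  /-- the Kummer function -/
  g : pDivUnits Kb (FK N) p
  prim : IsPrimitiveRoot ζ p
  fix : ∀ ρ : GQ, IsTameFix A ζ ρ →
    arithmeticGalois (modularFunctionFieldFull N) ρ • (((g : (FK N)ˣ) : FK N)) =
      ((g : (FK N)ˣ) : FK N)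
  irr : Irreducible (kpoly p (((g : (FK N)ˣ) : FK N)))

variable {N p A ζ}

/-- a `K'`-rational Kummer function with nonzero class is a tame datum. -/
def TameDatum.ofClassNeZero (g : pDivUnits Kb (FK N) p) (prim : IsPrimitiveRoot ζ p)
    (fix : ∀ ρ : GQ, IsTameFix A ζ ρ →
      arithmeticGalois (modularFunctionFieldFull N) ρ • (((g : (FK N)ˣ) : FK N)) =
        ((g : (FK N)ˣ) : FK N))
    (hne : (Additive.ofMul (Kum.mk g) : Additive (Kum Kb (FK N) p)) ≠ 0) :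
    TameDatum N p A ζ where
  g := g
  prim := prim
  fix := fix
  irr := by
    refine irreducible_kpoly hpF.out fun b hb => hne ?_
    have hb0 : b ≠ 0 := by
      rintro rfl
      rw [zero_pow hpF.out.ne_zero] at hb
      exact (g : (FK N)ˣ).ne_zero hb.symm
    have h1 : Kum.mk (1 : pDivUnits Kb (FK N) p) = Kum.mk g :=
      Kum.mk_eq_mk_iff.mpr ⟨Units.mk0 b hb0, by
        apply Units.ext
        rw [OneMemClass.coe_one, one_mul, Units.val_pow_eq_pow_val, Units.val_mk0, hb]⟩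
    rw [← h1, map_one]
    rfl

namespace TameDatum

variable (T : TameDatum N p A ζ)

/-- the Kummer function as an element of `ℚ̄(X₀(N))` -/
def g₀ : FK N := ((T.g : (FK N)ˣ) : FK N)

theorem g₀_ne_zero : T.g₀ ≠ 0 := (T.g : (FK N)ˣ).ne_zero

/-- `ζ` as a constant function -/
def ζF (_T : TameDatum N p A ζ) : FK N := algebraMap Kb (FK N) ζ

theorem ζF_pow : T.ζF ^ p = 1 := by
  unfold ζF
  rw [← map_pow, T.prim.pow_eq_one, map_one]

instance instFactIrr : Fact (Irreducible (kpoly p T.g₀)) := ⟨T.irr⟩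

/-- **the function field of the cover** -/
def Fp : Type := KExt p T.g₀

instance : Field T.Fp := inferInstanceAs (Field (KExt p T.g₀))
instance : Algebra (FK N) T.Fp := inferInstanceAs (Algebra (FK N) (KExt p T.g₀))
instance : Algebra Kb T.Fp := inferInstanceAs (Algebra Kb (KExt p T.g₀))
instance : IsScalarTower Kb (FK N) T.Fp :=
  inferInstanceAs (IsScalarTower Kb (FK N) (KExt p T.g₀))

/-- the Kummer generator `G` -/
def G : T.Fp := gen p T.g₀

theorem G_pow : T.G ^ p = algebraMap (FK N) T.Fp T.g₀ := gen_pow p T.g₀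

theorem G_ne_zero : T.G ≠ 0 := gen_ne_zero p T.g₀ T.g₀_ne_zero

/-- the constants of the cover -/
def C : Subfield T.Fp := constants (K := Kb) p T.g₀

theorem mem_C {y : T.Fp} : y ∈ T.C ↔ ∃ c : Kb, y = algebraMap Kb T.Fp c :=
  (mem_constants (K := Kb) (p := p) (g₀ := T.g₀) (y := y)).trans
    ⟨fun ⟨a, ha⟩ => ⟨a, ha.symm⟩, fun ⟨a, ha⟩ => ⟨a, ha.symm⟩⟩

/-- the deck transformation `δ`, `δ G = ζ G` -/
def δ : T.Fp ≃+* T.Fp := (delta p T.g₀ T.ζF T.ζF_pow).toRingEquiv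

theorem δ_G : T.δ T.G = algebraMap Kb T.Fp ζ * T.G := by
  show delta p T.g₀ T.ζF T.ζF_pow (gen p T.g₀) = _
  rw [delta_gen]
  rfl

theorem δ_algebraMap (y : FK N) : T.δ (algebraMap (FK N) T.Fp y) = algebraMap (FK N) T.Fp y :=
  delta_algebraMap p T.g₀ T.ζF T.ζF_pow y

/-- `I' → Stab g₀ ζ` through the coefficientwise action. -/
def stabHom : tameGroup A ζ →* Stab (K := Kb) T.g₀ T.ζF :=
  ((arithmeticGalois (modularFunctionFieldFull N)).comp (tameGroup A ζ).subtype).codRestrict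
    (Stab (K := Kb) T.g₀ T.ζF) (fun ρ => by
      refine mem_Stab.mpr ⟨T.fix ρ.1 ρ.2, ?_⟩
      show arithmeticGalois (modularFunctionFieldFull N) ρ.1 • algebraMap Kb (FK N) ζ =
        algebraMap Kb (FK N) ζ
      rw [SemilinearAut.smul_algebraMap]
      congr 1
      exact ρ.2.2)

/-- **the semilinear action of `I'` on the cover** -/
def actHom : tameGroup A ζ →* SemilinearAut Kb T.Fp :=
  (lift p T.g₀ T.ζF).comp T.stabHom

instance instAction : MulSemiringAction (tameGroup A ζ) T.Fp :=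
  MulSemiringAction.compHom T.Fp T.actHom

theorem smul_def (ρ : tameGroup A ζ) (y : T.Fp) : ρ • y = T.actHom ρ • y := rfl

theorem smul_algebraMap (ρ : tameGroup A ζ) (y : FK N) :
    ρ • algebraMap (FK N) T.Fp y =
      algebraMap (FK N) T.Fp (arithmeticGalois (modularFunctionFieldFull N) ρ.1 • y) :=
  lift_smul_algebraMap p T.g₀ T.ζF (T.stabHom ρ) y

theorem smul_G (ρ : tameGroup A ζ) : ρ • T.G = T.G :=
  lift_smul_gen p T.g₀ T.ζF (T.stabHom ρ)

theorem smul_const (ρ : tameGroup A ζ) (c : Kb) :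
    ρ • algebraMap Kb T.Fp c = algebraMap Kb T.Fp (ρ.1 c) := by
  rw [smul_def, SemilinearAut.smul_algebraMap]
  rfl

theorem δ_comm (ρ : tameGroup A ζ) (y : T.Fp) : ρ • T.δ y = T.δ (ρ • y) :=
  lift_delta p T.g₀ T.ζF T.ζF_pow (T.stabHom ρ) y

theorem δ_const (c : T.Fp) (hc : c ∈ T.C) : T.δ c = c :=
  delta_const p T.g₀ T.ζF T.ζF_pow c hc

theorem const_root (y : T.Fp) (hy : y ^ p ∈ T.C) : y ∈ T.C :=
  KummerExt.const_root p T.g₀ hpF.out.pos y hy

theorem const_stable (ρ : tameGroup A ζ) (c : T.Fp) (hc : c ∈ T.C) : ρ • c ∈ T.C :=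
  KummerExt.const_stable p T.g₀ (T.actHom ρ) c hc

/-- **the valuation fields of the cover frame** (output of GF-KCOVER-INST-FIELD-MOD). -/
structure WData where
  w₁ : ZMod p → fixedUnits (tameGroup A ζ) T.Fp → ℤ
  w₂ : ZMod p → fixedUnits (tameGroup A ζ) T.Fp → ℤ
  w₁_mul : ∀ k y z, w₁ k (y * z) = w₁ k y + w₁ k z
  w₂_mul : ∀ k y z, w₂ k (y * z) = w₂ k y + w₂ k z
  vK : fixedUnits (tameGroup A ζ) T.Fp → ℤ
  w₁_const : ∀ (k : ZMod p) (c : fixedUnits (tameGroup A ζ) T.Fp),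
    ((c : T.Fpˣ) : T.Fp) ∈ T.C → w₁ k c = vK c
  w₂_const : ∀ (k : ZMod p) (c : fixedUnits (tameGroup A ζ) T.Fp),
    ((c : T.Fpˣ) : T.Fp) ∈ T.C → w₂ k c = vK c
  w₁_δ : ∀ (k : ZMod p) (y y' : fixedUnits (tameGroup A ζ) T.Fp),
    ((y' : T.Fpˣ) : T.Fp) = T.δ ((y : T.Fpˣ) : T.Fp) → w₁ k y' = w₁ (k + 1) y
  w₂_δ : ∀ (k : ZMod p) (y y' : fixedUnits (tameGroup A ζ) T.Fp),
    ((y' : T.Fpˣ) : T.Fp) = T.δ ((y : T.Fpˣ) : T.Fp) → w₂ k y' = w₂ (k + 1) y

/-- **the cover frame on `ℚ̄(X₀(N))(g^{1/p})`.** -/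
def coverFrame (W : T.WData) : CoverFrame p (tameGroup A ζ) T.Fp T.C where
  δ := T.δ
  δ_comm := T.δ_comm
  δ_const := T.δ_const
  const_root := T.const_root
  const_stable := T.const_stable
  ζ := algebraMap Kb T.Fp ζ
  G := T.G
  G_ne_zero := T.G_ne_zero
  δ_G := T.δ_G
  w₁ := W.w₁
  w₂ := W.w₂
  w₁_mul := W.w₁_mul
  w₂_mul := W.w₂_mul
  vK := W.vK
  w₁_const := W.w₁_const
  w₂_const := W.w₂_const
  w₁_δ := W.w₁_δ
  w₂_δ := W.w₂_δ

end TameDatum

end Fermat.Agent.GF.F2Asm.Inst
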