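/-
GATE-F (S40) / node GF-F2-ASM, file 2 (helper31): **the cocycle binder `hκ` of
`GF/KCover/Frame.CoverFrame.dvd_val_c₁` from the SHAPE relation** `ρ x − x = κ • w₀` in the
Kummer group (`GF/Shape/Sub.LineData.kappa_spec` with `ρ = KumType.gal N p`).

Generic in `(K, F)`: `f : Fˣ →* Fˣ` an endomorphism preserving the `p`-divisible units
(`f = galUnits N ρ`), `u`, `g` representatives of `x`, `w₀`:

* `exists_unit_rel` : `kumEnd f x − x = κ • w₀` ⟹ `f u = u · g ^ κ.val · hr ^ p`, `hr : Fˣ`;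
* `exists_kappa_datum` : the same relation inside `F' = KExt p g` (`G ^ p = g`) in the EXACT shape
  of the binder `hκ` : `f u = b · u · G ^ (p · κ.val) · hr ^ p` with `b = 1` constant and `hr ∈ F`
  (so `δ hr = hr`).
-/
import Fermat.Agent.GF.F2Asm.KummerExt
import Fermat.Agent.GJ.Kum.KumType

set_option autoImplicit false
set_option linter.unusedSectionVars false

noncomputable section

namespace Fermat.Agent.GF.F2Asm.Kappa

open AlgebraicCurve Fermat.Agent.GJ.KumGroup Fermat.Agent.GJ.Kum.KumType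
open Fermat.Agent.GF.F2Asm.KummerExt

variable {K F : Type*} [Field K] [Field F] [Algebra K F] {p : ℕ}

/-- `κ • [g] = [g ^ κ.val]` in the Kummer group. -/
theorem zmod_smul_mk [Fact p.Prime] (κ : ZMod p) (g : pDivUnits K F p) :
    κ • (Additive.ofMul (Kum.mk g) : Additive (Kum K F p)) =
      Additive.ofMul (Kum.mk (g ^ κ.val)) := by
  conv_lhs => rw [← ZMod.natCast_zmod_val κ]
  rw [Nat.cast_smul_eq_nsmul, map_pow]
  rfl

/-- **the SHAPE relation at the level of units.** -/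
theorem exists_unit_rel [Fact p.Prime] (f : Fˣ →* Fˣ)
    (hf : ∀ u ∈ pDivUnits K F p, f u ∈ pDivUnits K F p) (u g : pDivUnits K F p) (κ : ZMod p)
    (h : kumEnd f hf (Additive.ofMul (Kum.mk u)) - Additive.ofMul (Kum.mk u) =
      κ • (Additive.ofMul (Kum.mk g) : Additive (Kum K F p))) :
    ∃ hr : Fˣ, f (u : Fˣ) = (u : Fˣ) * (g : Fˣ) ^ κ.val * hr ^ p := by
  rw [sub_eq_iff_eq_add, zmod_smul_mk, kumEnd_mk] at h
  have h1 : (Kum.mk (⟨f u, hf u u.2⟩ : pDivUnits K F p) : Kum K F p) =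
      Kum.mk (u * g ^ κ.val) := by
    have h2 : (Additive.ofMul (Kum.mk (g ^ κ.val)) + Additive.ofMul (Kum.mk u) :
        Additive (Kum K F p)) = Additive.ofMul (Kum.mk (u * g ^ κ.val)) := by
      rw [map_mul, mul_comm]
      rfl
    rw [h2] at h
    exact Additive.ofMul.injective h
  obtain ⟨w, hw⟩ := Kum.mk_eq_mk_iff.mp h1.symm
  -- `f u = u * g ^ κ * w ^ p`
  exact ⟨w, by
    have : ((⟨f u, hf u u.2⟩ : pDivUnits K F p) : Fˣ) = ((u * g ^ κ.val : pDivUnits K F p) : Fˣ) *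
        w ^ p := hw
    simpa using this⟩

/-- **the binder `hκ`** inside the Kummer cover field `F' = KExt p g`. -/
theorem exists_kappa_datum [hpF : Fact p.Prime] (f : Fˣ →* Fˣ)
    (hf : ∀ u ∈ pDivUnits K F p, f u ∈ pDivUnits K F p) (u g : pDivUnits K F p) (κ : ZMod p)
    (h : kumEnd f hf (Additive.ofMul (Kum.mk u)) - Additive.ofMul (Kum.mk u) =
      κ • (Additive.ofMul (Kum.mk g) : Additive (Kum K F p)))
    [Fact (Irreducible (kpoly p (((g : Fˣ) : F))))] (ζ : F) (hζ : ζ ^ p = 1) :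
    ∃ b hr : KExt p (((g : Fˣ) : F)),
      b ∈ constants (K := K) p (((g : Fˣ) : F)) ∧ b ≠ 0 ∧
      delta p (((g : Fˣ) : F)) ζ hζ hr = hr ∧ hr ≠ 0 ∧
      algebraMap F (KExt p (((g : Fˣ) : F))) ((f (u : Fˣ) : Fˣ) : F) =
        b * algebraMap F (KExt p (((g : Fˣ) : F))) (((u : Fˣ) : F)) *
          gen p (((g : Fˣ) : F)) ^ (p * κ.val) * hr ^ p := by
  obtain ⟨w, hw⟩ := exists_unit_rel f hf u g κ h
  refine ⟨1, algebraMap F _ ((w : Fˣ) : F), (constants (K := K) p _).one_mem, one_ne_zero,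
    delta_algebraMap p _ ζ hζ _, ?_, ?_⟩
  · exact (map_ne_zero_iff _ (algebraMap_injective p _)).mpr w.ne_zero
  · rw [pow_mul, gen_pow, hw, one_mul]
    simp only [Units.val_mul, Units.val_pow_eq_pow_val, map_mul, map_pow]

end Fermat.Agent.GF.F2Asm.Kappa
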