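/-
GATE-F (S44/S40) / node GF-F2-ASM, file 6 (helper31): **the cover datum of a class `x = [u]` on the
concrete cover frame** `T.coverFrame W` of `GF/F2Asm/Inst.lean`.

Inputs (each one the output of a named node):
* SHAPE (`GF/Shape/Sub.LineData.kappa_spec`): `hshape : ρ x − x = κz ρ • [g]` for `ρ ∈ I'`;
* KUM-DESC (helper19 `Pullback.Closed.exists_frame_binders`): a generator `x₀` of `T.Fp`, an
  `I'`-fixed place `P` and a normaliser `ν` (both from the `q`-expansion embedding,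
  `GF/KumDesc/Laurent`);
* E-PEU in `ℚ̄`-form (`GF/F2Asm/PeuBridge.peu_dvd` / helper61 `PeuY0`): `hQ`;
* the dictionary `hvK` : `W.vK` is the `(1 − ζ)`-adic valuation on the `K'`-rational constants;
* the node relation `hNR` (GF-KCOVER-INST, helper84's NR) for every `K'`-rational Kummer function
  `f = u · h ^ p` of `π^* x`.

Output: `isCoverDatum : IsCoverDatum (T.coverFrame W) E mx`, hence (`Asm.econst_of_coverDatum`)
`EConst E mx`.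
-/
import Fermat.Agent.GF.F2Asm.Inst
import Fermat.Agent.GF.F2Asm.Kappa
import Fermat.Agent.GF.F2Asm.Asm
import Fermat.Agent.GF.KumDesc.Pullback

set_option autoImplicit false
set_option linter.unusedSectionVars false

noncomputable section

namespace Fermat.Agent.GF.F2Asm.Inst

open AlgebraicCurve ModularCurve Polynomial
open Fermat.Agent.GJ.KumGroup Fermat.Agent.GJ.Kum.KumType Fermat.Agent.S24
open Fermat.Agent.GF.F2Asm.KummerExt Fermat.Agent.GF.KCover Fermat.Agent.GF.Peu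
open Fermat.Agent.GF.F2Asm.Asm Fermat.Agent.GF.KumDesc.Generic

local notation "GQ" => (AlgebraicClosure ℚ ≃ₐ[ℚ] AlgebraicClosure ℚ)

variable {N : ℕ} [NeZero N] {p : ℕ} [hpF : Fact p.Prime] {A : ValuationSubring Kb} {ζ : Kb}

namespace TameDatum

variable (T : TameDatum N p A ζ)

/-- **the binder `hκ`** on the concrete cover. -/
theorem exists_kappa (u : pDivUnits Kb (FK N) p) (κ : ZMod p) (ρ : tameGroup A ζ)
    (h : gal N p ρ.1 (Additive.ofMul (Kum.mk u)) - Additive.ofMul (Kum.mk u) =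
      κ • (Additive.ofMul (Kum.mk T.g) : Additive (Kum Kb (FK N) p))) :
    ∃ b hr : T.Fp, b ∈ T.C ∧ b ≠ 0 ∧ T.δ hr = hr ∧ hr ≠ 0 ∧
      ρ • algebraMap (FK N) T.Fp (((u : (FK N)ˣ) : FK N)) =
        b * algebraMap (FK N) T.Fp (((u : (FK N)ˣ) : FK N)) * T.G ^ (p * κ.val) * hr ^ p := by
  have : Fact (Irreducible (kpoly p (((T.g : (FK N)ˣ) : FK N)))) := ⟨T.irr⟩
  obtain ⟨b, hr, hb, hb0, hδ, hhr0, hrel⟩ :=
    Kappa.exists_kappa_datum (K := Kb) (galUnits N ρ.1) (galUnits_mem N p ρ.1) u T.g κ h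
      T.ζF T.ζF_pow
  refine ⟨b, hr, hb, hb0, hδ, hhr0, ?_⟩
  rw [T.smul_algebraMap]
  exact hrel

variable (W : T.WData)

/-- **the binder `hpeu`** on the concrete cover, from its `ℚ̄`-form. -/
theorem hpeu_of (κ : tameGroup A ζ → ℕ)
    (hvK : ∀ (c : fixedUnits (tameGroup A ζ) T.Fp) (c₀ : Kb),
      ((c : T.Fpˣ) : T.Fp) = algebraMap Kb T.Fp c₀ →
        A.valuation c₀ = A.valuation (1 - ζ) ^ W.vK c)
    (hQ : ∀ t : Kb, t ≠ 0 → (∀ ρ : tameGroup A ζ, ρ.1 (t ^ p) = t ^ p) →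
      (∀ ρ : tameGroup A ζ, ρ.1 t * ζ ^ κ ρ = t) →
      ∀ n : ℤ, A.valuation (t ^ p) = A.valuation (1 - ζ) ^ n → (p : ℤ) ∣ n) :
    ∀ c : fixedUnits (tameGroup A ζ) T.Fp, ((c : T.Fpˣ) : T.Fp) ∈ T.C → ∀ t ∈ T.C,
      t ^ p = ((c : T.Fpˣ) : T.Fp) →
      (∀ ρ : tameGroup A ζ, ρ • t * (T.coverFrame W).ζ ^ κ ρ = t) →
      (p : ℤ) ∣ (T.coverFrame W).vK c := by
  intro c hc t ht htp hρt
  have hinj : Function.Injective (algebraMap Kb T.Fp) := (algebraMap Kb T.Fp).injective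
  obtain ⟨c₀, hc₀⟩ := T.mem_C.mp hc
  obtain ⟨t₀, rfl⟩ := T.mem_C.mp ht
  have htc : t₀ ^ p = c₀ := by
    apply hinj
    rw [map_pow, htp, hc₀]
  have ht0 : t₀ ≠ 0 := by
    rintro rfl
    rw [zero_pow hpF.out.ne_zero] at htc
    rw [← htc, map_zero] at hc₀
    exact (c : T.Fpˣ).ne_zero hc₀
  refine hQ t₀ ht0 (fun ρ => ?_) (fun ρ => ?_) _ (by rw [htc]; exact hvK c c₀ hc₀)
  · apply hinj
    rw [htc, ← T.smul_const, ← hc₀]
    exact c.2 ρ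
  · apply hinj
    have := hρt ρ
    rw [T.smul_const] at this
    show algebraMap Kb T.Fp (ρ.1 t₀ * ζ ^ κ ρ) = algebraMap Kb T.Fp t₀
    rw [map_mul, map_pow]
    exact this

/-- **the cover datum of the class `[u]`.** -/
theorem isCoverDatum (x₀ : T.Fp) [IsGen Kb x₀] (P : Place Kb T.Fp)
    (hΓP : ∀ ρ : tameGroup A ζ, T.actHom ρ • P = P)
    (ν : Normaliser (Set.range T.actHom))
    (u : pDivUnits Kb (FK N) p) (κz : tameGroup A ζ → ZMod p)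
    (hshape : ∀ ρ : tameGroup A ζ,
      gal N p ρ.1 (Additive.ofMul (Kum.mk u)) - Additive.ofMul (Kum.mk u) =
        κz ρ • (Additive.ofMul (Kum.mk T.g) : Additive (Kum Kb (FK N) p)))
    (hvK : ∀ (c : fixedUnits (tameGroup A ζ) T.Fp) (c₀ : Kb),
      ((c : T.Fpˣ) : T.Fp) = algebraMap Kb T.Fp c₀ →
        A.valuation c₀ = A.valuation (1 - ζ) ^ W.vK c)
    (hQ : ∀ t : Kb, t ≠ 0 → (∀ ρ : tameGroup A ζ, ρ.1 (t ^ p) = t ^ p) →
      (∀ ρ : tameGroup A ζ, ρ.1 t * ζ ^ (κz ρ).val = t) →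
      ∀ n : ℤ, A.valuation (t ^ p) = A.valuation (1 - ζ) ^ n → (p : ℤ) ∣ n)
    {ι : Type*} (as bs : ι → ZMod p) (E mx : ι → ZMod p)
    (hNR : ∀ f : fixedUnits (tameGroup A ζ) T.Fp,
      (∃ h : T.Fp, h ≠ 0 ∧ ((f : T.Fpˣ) : T.Fp) =
        1 * algebraMap (FK N) T.Fp (((u : (FK N)ˣ) : FK N)) * h ^ p) →
      ∀ s j, (((W.w₂ (j + bs s) f - W.w₁ (j + as s) f : ℤ)) : ZMod p) = E s * mx s) :
    IsCoverDatum (T.coverFrame W) E mx := by
  set u' : T.Fp := algebraMap (FK N) T.Fp (((u : (FK N)ˣ) : FK N)) with hu'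
  have hu0 : u' ≠ 0 :=
    (map_ne_zero_iff _ (algebraMap (FK N) T.Fp).injective).mpr (u : (FK N)ˣ).ne_zero
  have hδu : (T.coverFrame W).δ u' = u' := T.δ_algebraMap _
  have hκ : ∀ ρ : tameGroup A ζ, ∃ b hr : T.Fp, b ∈ T.C ∧ b ≠ 0 ∧
      (T.coverFrame W).δ hr = hr ∧ hr ≠ 0 ∧
      ρ • u' = b * u' * (T.coverFrame W).G ^ (p * (κz ρ).val) * hr ^ p :=
    fun ρ => T.exists_kappa u (κz ρ) ρ (hshape ρ)
  have hdiv : ∀ v : Place Kb T.Fp, (p : ℤ) ∣ v.ord u' := fun v =>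
    Fermat.Agent.GF.KumDesc.Pullback.dvd_ord_map (IsScalarTower.toAlgHom Kb (FK N) T.Fp) (p : ℤ)
      (u : (FK N)ˣ).ne_zero (mem_pDivUnits.mp u.2) v
  have hinv : ∀ ρ : tameGroup A ζ, ∃ b w : T.Fp, b ∈ T.C ∧ b ≠ 0 ∧ w ≠ 0 ∧
      ρ • u' = b * u' * w ^ p := by
    intro ρ
    obtain ⟨b, hr, hb, hb0, -, hhr0, h⟩ := hκ ρ
    refine ⟨b, (T.coverFrame W).G ^ (κz ρ).val * hr, hb, hb0,
      mul_ne_zero (pow_ne_zero _ (T.coverFrame W).G_ne_zero) hhr0, ?_⟩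
    rw [h, mul_pow, ← pow_mul, mul_comm (κz ρ).val p]
    ring
  obtain ⟨f, c₁, m, h, hh0, hc₁, hf, hδf⟩ :=
    Fermat.Agent.GF.KumDesc.Pullback.Closed.exists_frame_binders x₀ (T.coverFrame W)
      (fun y => T.mem_C) T.actHom (fun ρ y => rfl) P hΓP ν hu0 hdiv hδu hinv
  exact ⟨f, c₁, m, 1, u', h, fun ρ => (κz ρ).val, as, bs, T.C.one_mem, one_ne_zero, hu0, hh0,
    hc₁, hδu, hf, hδf, hκ, T.hpeu_of W _ hvK hQ, hNR f ⟨h, hh0, hf⟩⟩

/-- **(F2) for the class `[u]`** on the concrete cover. -/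
theorem econst (x₀ : T.Fp) [IsGen Kb x₀] (P : Place Kb T.Fp)
    (hΓP : ∀ ρ : tameGroup A ζ, T.actHom ρ • P = P)
    (ν : Normaliser (Set.range T.actHom))
    (u : pDivUnits Kb (FK N) p) (κz : tameGroup A ζ → ZMod p)
    (hshape : ∀ ρ : tameGroup A ζ,
      gal N p ρ.1 (Additive.ofMul (Kum.mk u)) - Additive.ofMul (Kum.mk u) =
        κz ρ • (Additive.ofMul (Kum.mk T.g) : Additive (Kum Kb (FK N) p)))
    (hvK : ∀ (c : fixedUnits (tameGroup A ζ) T.Fp) (c₀ : Kb),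
      ((c : T.Fpˣ) : T.Fp) = algebraMap Kb T.Fp c₀ →
        A.valuation c₀ = A.valuation (1 - ζ) ^ W.vK c)
    (hQ : ∀ t : Kb, t ≠ 0 → (∀ ρ : tameGroup A ζ, ρ.1 (t ^ p) = t ^ p) →
      (∀ ρ : tameGroup A ζ, ρ.1 t * ζ ^ (κz ρ).val = t) →
      ∀ n : ℤ, A.valuation (t ^ p) = A.valuation (1 - ζ) ^ n → (p : ℤ) ∣ n)
    {ι : Type*} (as bs : ι → ZMod p) (E mx : ι → ZMod p)
    (hNR : ∀ f : fixedUnits (tameGroup A ζ) T.Fp,
      (∃ h : T.Fp, h ≠ 0 ∧ ((f : T.Fpˣ) : T.Fp) =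
        1 * algebraMap (FK N) T.Fp (((u : (FK N)ˣ) : FK N)) * h ^ p) →
      ∀ s j, (((W.w₂ (j + bs s) f - W.w₁ (j + as s) f : ℤ)) : ZMod p) = E s * mx s) :
    Fermat.Agent.GF.Top.Skeleton.EConst E mx :=
  econst_of_coverDatum (T.coverFrame W)
    (T.isCoverDatum W x₀ P hΓP ν u κz hshape hvK hQ as bs E mx hNR)

end TameDatum

end Fermat.Agent.GF.F2Asm.Inst
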