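/-
GATE-F (S44/S40) / node GF-F2-ASM, file 7 (helper31): **the KUM-DESC binders `x₀`, `P`, `hΓP`, `ν`
of `TameDatum.econst` discharged on the concrete cover**, by plugging helper19's
`GF/KumDesc/AdjoinGlue.exists_place_normaliser` with the `q`-expansion embedding
`ℚ̄(X₀(N)) ⊆ ℚ̄((q))`.

* `qEmb N : FK N →ₐ[ℚ̄] ℚ̄((q))`, equivariant for the arithmetic Galois action (`qEmb_smul`);
* `dvd_order` : `p ∣ ord_q g` for a `p`-divisible unit `g`;
* `T.x₀ = j` (a generator of `T.Fp`);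
* `T.exists_place_normaliser` : for `lc_q(g) = 1` there are an `I'`-fixed place and a normaliser;
* `T.econst'` : `econst` with the four binders gone (new binder: `lc_q(g) = 1`).
-/
import Fermat.Agent.GF.F2Asm.InstDatum
import Fermat.Agent.GF.KumDesc.AdjoinGlue
import Fermat.Agent.GJ.Desc.Modular
import Fermat.Agent.S24_helper62.CuspFibre

set_option autoImplicit false
set_option linter.unusedSectionVars false

noncomputable section

namespace Fermat.Agent.GF.F2Asm.Inst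

open AlgebraicCurve ModularCurve Polynomial
open Fermat.Agent.GJ.KumGroup Fermat.Agent.GJ.Kum.KumType Fermat.Agent.S24
open Fermat.Agent.GF.F2Asm.KummerExt Fermat.Agent.GF.KCover Fermat.Agent.GF.Peu
open Fermat.Agent.GF.F2Asm.Asm Fermat.Agent.GF.KumDesc.Generic

local notation "GQ" => (AlgebraicClosure ℚ ≃ₐ[ℚ] AlgebraicClosure ℚ)

/-- the `q`-expansion of `ℚ̄(X₀(N))`. -/
def qEmb (N : ℕ) : FK N →ₐ[Kb] LaurentSeries Kb := (modularFunctionFieldBar N).val

theorem qEmb_apply (N : ℕ) (f : FK N) : qEmb N f = (f : LaurentSeries Kb) := rfl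

theorem qEmb_smul (N : ℕ) (ρ : GQ) (f : FK N) :
    qEmb N (arithmeticGalois (modularFunctionFieldFull N) ρ • f) =
      coeffMap (ρ : Kb →+* Kb) (qEmb N f) := rfl

variable {N : ℕ} [NeZero N] {p : ℕ} [hpF : Fact p.Prime] {A : ValuationSubring Kb} {ζ : Kb}

theorem exists_qEmb_order_ne_zero : ∃ f : FK N, (qEmb N f).order ≠ 0 := by
  obtain ⟨f, -, hf⟩ := Fermat.Agent.GJ.Desc.qVal_isNontrivial Kb (modularFunctionFieldFull N)
    (Fermat.Agent.GJ.Desc.Modular.exists_order_ne_zero N)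
  exact ⟨f, hf⟩

/-- `p ∣ ord_q g` for a `p`-divisible unit. -/
theorem dvd_order (g : pDivUnits Kb (FK N) p) :
    (p : ℤ) ∣ (qEmb N (((g : (FK N)ˣ) : FK N))).order := by
  have h := Fermat.Agent.GJ.Desc.order_eq_mult_mul_ord Kb (modularFunctionFieldFull N)
    (Fermat.Agent.GJ.Desc.Modular.exists_order_ne_zero N) (g : (FK N)ˣ).ne_zero
  rw [qEmb_apply, h]
  exact Dvd.dvd.mul_left (mem_pDivUnits.mp g.2 _) _

namespace TameDatum

variable (T : TameDatum N p A ζ)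

/-- the generator `j` of the cover field -/
def x₀ : T.Fp := algebraMap (FK N) T.Fp (jF N)

instance instIsGen : IsGen Kb T.x₀ := by
  have : NeZero p := ⟨hpF.out.ne_zero⟩
  have : IsGen Kb (jF N) := Fermat.Agent.S24_helper62.isGen_jF N
  exact isGen_algebraMap (K := Kb) p T.g₀ (jF N)

/-- **the `I'`-fixed place and the normaliser of the concrete cover.** -/
theorem exists_place_normaliser (hlc : (qEmb N T.g₀).leadingCoeff = 1) :
    ∃ (P : Place Kb T.Fp) (_ : Normaliser (Set.range T.actHom)),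
      ∀ ρ : tameGroup A ζ, T.actHom ρ • P = P := by
  have hp : ((p : ℕ) : Kb) ≠ 0 := Nat.cast_ne_zero.mpr hpF.out.ne_zero
  have hg0 : qEmb N T.g₀ ≠ 0 :=
    (map_ne_zero_iff _ (qEmb N).toRingHom.injective).mpr T.g₀_ne_zero
  obtain ⟨k, hk⟩ := dvd_order T.g
  obtain ⟨γ, hγ, hγlc, -⟩ := Fermat.Agent.GF.KumDesc.LaurentRoot.exists_root hp hg0 hk
    (c := 1) (by rw [one_pow, hlc])
  have : Fact (Irreducible (X ^ p - Polynomial.C T.g₀ : (FK N)[X])) := ⟨T.irr⟩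
  obtain ⟨P, ν, hP, -⟩ := Fermat.Agent.GF.KumDesc.AdjoinGlue.exists_place_normaliser
    (qEmb N) T.g₀ γ hγ hp hγlc exists_qEmb_order_ne_zero (Set.range T.actHom) (by
      rintro g' ⟨ρ, rfl⟩
      refine ⟨arithmeticGalois (modularFunctionFieldFull N) ρ.1, rfl,
        fun x => T.smul_algebraMap ρ x, T.smul_G ρ, fun x => qEmb_smul N ρ.1 x, T.fix ρ.1 ρ.2⟩)
  exact ⟨P, ν, fun ρ => hP _ ⟨ρ, rfl⟩⟩

variable (W : T.WData)

/-- **(F2) for the class `[u]`** on the concrete cover, KUM-DESC binders discharged. -/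
theorem econst' (hlc : (qEmb N T.g₀).leadingCoeff = 1)
    (u : pDivUnits Kb (FK N) p) (κz : tameGroup A ζ → ZMod p)
    (hshape : ∀ ρ : tameGroup A ζ,
      gal N p ρ.1 (Additive.ofMul (Kum.mk u)) - Additive.ofMul (Kum.mk u) =
        κz ρ • (Additive.ofMul (Kum.mk T.g) : Additive (Kum Kb (FK N) p)))
    (hvK : ∀ (c : fixedUnits (tameGroup A ζ) T.Fp) (c₀ : Kb),
      ((c : T.Fpˣ) : T.Fp) = algebraMap Kb T.Fp c₀ →
        A.valuation c₀ = A.valuation (1 - ζ) ^ W.vK c)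
    (hQ : ∀ t : Kb, t ≠ 0 → (∀ ρ : tameGroup A ζ, ρ.1 (t ^ p) = t ^ p) →
      (∀ ρ : tameGroup A ζ, ρ.1 t * ζ ^ (κz ρ).val = t) →
      ∀ n : ℤ, A.valuation (t ^ p) = A.valuation (1 - ζ) ^ n → (p : ℤ) ∣ n)
    {ι : Type*} (as bs : ι → ZMod p) (E mx : ι → ZMod p)
    (hNR : ∀ f : fixedUnits (tameGroup A ζ) T.Fp,
      (∃ h : T.Fp, h ≠ 0 ∧ ((f : T.Fpˣ) : T.Fp) =
        1 * algebraMap (FK N) T.Fp (((u : (FK N)ˣ) : FK N)) * h ^ p) →
      ∀ s j, (((W.w₂ (j + bs s) f - W.w₁ (j + as s) f : ℤ)) : ZMod p) = E s * mx s) :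
    Fermat.Agent.GF.Top.Skeleton.EConst E mx := by
  obtain ⟨P, ν, hP⟩ := T.exists_place_normaliser hlc
  exact T.econst W T.x₀ P hP ν u κz hshape hvK hQ as bs E mx hNR

end TameDatum

end Fermat.Agent.GF.F2Asm.Inst
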