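/-
GATE-F (S44/S40) / node GF-F2-ASM, file 16 (helper31): **the divisor of `θ = Δ(z)/Δ(pz)` on the
COVER is supported on the cusps** — the membership `θ ∈ Us` of `NRAsmSub.f2_of_nodes_sub` /
helper84's `NodeRelSub.nodeRel_one_sub` for
`Us = {y | ∀ P : Place ℚ̄ T.Fp, 0 ≤ P.ord j → p ∣ P.ord y}`.

* `ord_map_eq_zero` (generic pull-back along `φ : F →ₐ[K] F'`): if `ord_v u = 0` at every place
  `v` of `F` with `0 ≤ ord_v x`, then `ord_{v'} (φ u) = 0` at every place `v'` of `F'` with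
  `0 ≤ ord_{v'} (φ x)`;
* `ord_map_dvd_of_nonneg` : the same for `m ∣ ord`;
* `ord_etaQ_cover_eq_zero` : for `P : Place ℚ̄ T.Fp` with `0 ≤ P.ord j` : `P.ord (etaQ) = 0`
  (from `GL/Eta/RegFin.ord_etaQ_eq_zero`).
-/
import Fermat.Agent.GF.F2Asm.InstPlace
import Fermat.Agent.GL.Eta.RegFin

set_option autoImplicit false
set_option linter.unusedSectionVars false

noncomputable section

namespace Fermat.Agent.GF.F2Asm.EtaCover

open AlgebraicCurve ModularCurve
open Fermat.Agent.S24 Fermat.Agent.GJ.KumGroup Fermat.Agent.GF.F2Asm.Inst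
open Fermat.Agent.GF.KumDesc.Pullback

section Generic

variable {K F F' : Type*} [Field K] [Field F] [Field F'] [Algebra K F] [Algebra K F']

/-- **pull-back of "no zeros or poles where `x` is finite".** -/
theorem ord_map_eq_zero (φ : F →ₐ[K] F') {u x : F} (hu : u ≠ 0) (hx : x ≠ 0)
    (h : ∀ v : Place K F, 0 ≤ v.ord x → v.ord u = 0) (v' : Place K F')
    (hv' : 0 ≤ v'.ord (φ x)) : v'.ord (φ u) = 0 := by
  set w : IntVal K F := IntVal.comap φ (ordVal v') with hw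
  have hwu : v'.ord (φ u) = w u := rfl
  have hwx : v'.ord (φ x) = w x := rfl
  by_cases hnt : w.IsNontrivial
  · have hpos := IntVal.mult_pos hnt
    rw [hwx, IntVal.eq_mult_mul_ord hnt hx] at hv'
    have hx' : 0 ≤ (IntVal.placeOf hnt).ord x := by
      by_contra hneg
      have : IntVal.mult hnt * (IntVal.placeOf hnt).ord x < 0 :=
        mul_neg_of_pos_of_neg hpos (not_le.mp hneg)
      omega
    rw [hwu, IntVal.eq_mult_mul_ord hnt hu, h _ hx', mul_zero]
  · by_contra h1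
    exact hnt ⟨u, hu, by rwa [← hwu]⟩

/-- **pull-back of `m`-divisibility of the divisor where `x` is finite.** -/
theorem ord_map_dvd_of_nonneg (φ : F →ₐ[K] F') (m : ℤ) {u x : F} (hu : u ≠ 0) (hx : x ≠ 0)
    (h : ∀ v : Place K F, 0 ≤ v.ord x → m ∣ v.ord u) (v' : Place K F')
    (hv' : 0 ≤ v'.ord (φ x)) : m ∣ v'.ord (φ u) := by
  set w : IntVal K F := IntVal.comap φ (ordVal v') with hw
  have hwu : v'.ord (φ u) = w u := rfl
  have hwx : v'.ord (φ x) = w x := rfl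
  by_cases hnt : w.IsNontrivial
  · have hpos := IntVal.mult_pos hnt
    rw [hwx, IntVal.eq_mult_mul_ord hnt hx] at hv'
    have hx' : 0 ≤ (IntVal.placeOf hnt).ord x := by
      by_contra hneg
      have : IntVal.mult hnt * (IntVal.placeOf hnt).ord x < 0 :=
        mul_neg_of_pos_of_neg hpos (not_le.mp hneg)
      omega
    rw [hwu, IntVal.eq_mult_mul_ord hnt hu]
    exact Dvd.dvd.mul_left (h _ hx') _
  · have h0 : w u = 0 := by
      by_contra h1
      exact hnt ⟨u, hu, h1⟩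
    rw [hwu, h0]
    exact dvd_zero m

end Generic

variable {N : ℕ} [NeZero N] {p : ℕ} [hpF : Fact p.Prime] {A : ValuationSubring Kb} {ζ : Kb}
  (T : TameDatum N p A ζ)

/-- `j ≠ 0` in `F_N`. -/
theorem jF_ne_zero : jF N ≠ 0 := by
  have h := Fermat.Agent.S24_helper62.isGen_jF N
  intro h0
  have htr : Transcendental Kbar (jF N) := h.1
  rw [h0] at htr
  exact htr ⟨Polynomial.X, Polynomial.X_ne_zero, by simp⟩

/-- **`Δ(z)/Δ(dz)` has no zeros or poles on the cover where `j` is finite.** -/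
theorem ord_etaQ_cover_eq_zero (d : ℕ) [NeZero d] (hd : d ∣ N) (P : Place Kb T.Fp)
    (hP : 0 ≤ P.ord (algebraMap (FK N) T.Fp (jF N))) :
    P.ord (algebraMap (FK N) T.Fp (Fermat.Agent.GL.Eta.etaQ N d hd)) = 0 :=
  ord_map_eq_zero (IsScalarTower.toAlgHom Kb (FK N) T.Fp)
    (Fermat.Agent.GL.Eta.etaQ_ne_zero N d hd) jF_ne_zero
    (fun v hv => Fermat.Agent.GL.Eta.ord_etaQ_eq_zero N d hd v hv) P hP

/-- a Kummer function `f = a · u · h ^ p` of a `p`-divisible unit `u` of the base has `p ∣ div f`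
on the cover. -/
theorem dvd_ord_kummer_rep (u : pDivUnits Kb (FK N) p) {a h f : T.Fp}
    (ha : ∃ c : Kb, c ≠ 0 ∧ a = algebraMap Kb T.Fp c) (hh : h ≠ 0)
    (hf : f = a * algebraMap (FK N) T.Fp (((u : (FK N)ˣ) : FK N)) * h ^ p) (P : Place Kb T.Fp) :
    (p : ℤ) ∣ P.ord f := by
  obtain ⟨c, hc0, rfl⟩ := ha
  have hu0 : algebraMap (FK N) T.Fp (((u : (FK N)ˣ) : FK N)) ≠ 0 :=
    (map_ne_zero_iff _ (algebraMap (FK N) T.Fp).injective).mpr (u : (FK N)ˣ).ne_zero
  have hc0' : algebraMap Kb T.Fp c ≠ 0 :=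
    (map_ne_zero_iff _ (algebraMap Kb T.Fp).injective).mpr hc0
  rw [hf, P.ord_mul (mul_ne_zero hc0' hu0) (pow_ne_zero p hh), P.ord_mul hc0' hu0,
    Fermat.Agent.S24.PlaceB.ord_algebraMap P hc0, zero_add, ← zpow_natCast, Place.ord_zpow]
  exact dvd_add (dvd_ord_map (IsScalarTower.toAlgHom Kb (FK N) T.Fp) (p : ℤ)
    (u : (FK N)ˣ).ne_zero (mem_pDivUnits.mp u.2) P) (dvd_mul_right _ _)

end Fermat.Agent.GF.F2Asm.EtaCover
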