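/-
GATE-F (S40) / node GF-F2-ASM, file 3 (helper31): **the bridge from helper57's S2
(`GF/Peu/Field.peu_valuation`, multiplicative valuation form) to the binder `hpeu` of
`GF/KCover/Frame.CoverFrame.dvd_val_c₁`** (`p ∣ v_{K'}(c)`, `v_{K'}` in units of `ϖ = 1 − ζ`).

`K' = ℚ̄^{I'} = K₀(ζ)`; its value group is `⟨v(1 − ζ)⟩` (`GL/Local/TameZeta`), so
`v_{K'}(c) = n` means `A.valuation c = A.valuation (1 − ζ) ^ n`.

* `dvd_of_valuation_eq_pow` : `A.valuation c = A.valuation β ^ p`, `β ∈ K'ˣ`,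
  `A.valuation c = A.valuation (1 − ζ) ^ n` ⟹ `p ∣ n`;
* `exists_zpow_of_fixed` : every `c ∈ K'ˣ` has such an `n` (definition of `v_{K'}`), `zpow_unique`;
* `peu_dvd` : the hypotheses of `peu_valuation` (S1 SHAPE + `HasFinOrder`) for `γ = t`,
  `t ^ p = c ∈ K'`, Kummer character of `t` = `−κ` ⟹ `p ∣ n` for the `n` of `c`;
* `peu_dvd_of_unit` : the same from a Kummer unit `α` (route independent).
-/
import Mathlib
import Fermat.Agent.GF.Peu.Field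

set_option autoImplicit false
set_option linter.unusedSectionVars false

open Fermat.Agent.Common_helper32 Fermat.Agent.S13.Global
open Fermat.Agent.GL.Local.InertiaField Fermat.Agent.GF.Peu Fermat.Agent.GH.Closure

namespace Fermat.Agent.GF.F2Asm.PeuBridge

variable {p : ℕ} [hpF : Fact p.Prime] {A : ValuationSubring Qb} {ζ : Qb}

/-- `n ↦ v(1 − ζ) ^ n` is injective. -/
theorem zpow_unique (hA : (p : Qb) ∈ A.nonunits) (hζ : IsPrimitiveRoot ζ p) {n m : ℤ}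
    (h : A.valuation (1 - ζ) ^ n = A.valuation (1 - ζ) ^ m) : n = m := by
  have hp := hpF.out
  have hπ0 : (1 - ζ : Qb) ≠ 0 := one_sub_zeta_ne_zero hp hζ
  have hvπ0 : A.valuation (1 - ζ) ≠ 0 := (Valuation.ne_zero_iff _).mpr hπ0
  have hvπ1 : A.valuation (1 - ζ) < 1 :=
    (A.mem_nonunits_iff).mp (one_sub_zeta_mem_nonunits A hp hA hζ)
  exact (zpow_right_strictAnti₀ (zero_lt_iff.2 hvπ0) hvπ1).injective h

/-- **the valuation of `K'` in units of `1 − ζ`** exists on the `I'`-fixed elements. -/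
theorem exists_zpow_of_fixed (hA : (p : Qb) ∈ A.nonunits) (hζ : IsPrimitiveRoot ζ p) {c : Qb}
    (hc0 : c ≠ 0) (hc : ∀ ρ : GQ, IsTameFix A ζ ρ → ρ c = c) :
    ∃ n : ℤ, A.valuation c = A.valuation (1 - ζ) ^ n :=
  exists_valuation_eq_zpow_of_mem_adjoin_zeta A hpF.out hA hζ (mem_adjoin_zeta_of_fixed hc) hc0

/-- `v(c) = v(β) ^ p` with `β ∈ K'ˣ` ⟹ `p ∣ v_{K'}(c)`. -/
theorem dvd_of_valuation_eq_pow (hA : (p : Qb) ∈ A.nonunits) (hζ : IsPrimitiveRoot ζ p)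
    {c β : Qb} (hβ0 : β ≠ 0) (hβ : ∀ ρ : GQ, IsTameFix A ζ ρ → ρ β = β)
    (hcβ : A.valuation c = A.valuation β ^ p) {n : ℤ}
    (hn : A.valuation c = A.valuation (1 - ζ) ^ n) : (p : ℤ) ∣ n := by
  obtain ⟨m, hm⟩ := exists_zpow_of_fixed hA hζ hβ0 hβ
  have h1 : A.valuation (1 - ζ) ^ n = A.valuation (1 - ζ) ^ (m * (p : ℤ)) := by
    rw [← hn, hcβ, hm, zpow_mul, zpow_natCast]
  exact ⟨m, by rw [zpow_unique hA hζ h1, mul_comm]⟩

variable {M : Type*} [AddCommGroup M] {act : GQ → M →+ M}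

/-- the Kummer character of `t` is `−κ` ⟹ `t ∈ L = K'(x)` (Galois form). -/
theorem fixed_of_kummer_character (hζ : IsPrimitiveRoot ζ p) {w0 : M} (hw0 : w0 ≠ 0)
    (hpw : p • w0 = 0) (x : M)
    (κ : GQ → ℕ) (hκ : ∀ ρ : GQ, IsTameFix A ζ ρ → act ρ x = x + κ ρ • w0) {t : Qb}
    (ht : ∀ ρ : GQ, IsTameFix A ζ ρ → ρ t * ζ ^ κ ρ = t) :
    ∀ ρ : GQ, IsTameFix A ζ ρ → act ρ x = x → ρ t = t := by
  intro ρ hρ hfix
  have h1 := hκ ρ hρ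
  rw [hfix] at h1
  have h2 : κ ρ • w0 = 0 := by
    have : x + 0 = x + κ ρ • w0 := by rw [add_zero]; exact h1
    exact (add_left_cancel this).symm
  have hord : addOrderOf w0 = p := addOrderOf_eq_prime hpw hw0
  have h3 : p ∣ κ ρ := by
    rw [← hord]
    exact addOrderOf_dvd_iff_nsmul_eq_zero.mpr h2
  have h4 : ζ ^ κ ρ = 1 := (hζ.pow_eq_one_iff_dvd (κ ρ)).mpr h3
  have h5 := ht ρ hρ
  rwa [h4, mul_one] at h5

/-- **the binder `hpeu`, from a finite `Δ`-stable order** (helper57's `peu_valuation`):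
`c = t ^ p ∈ K'`, the Kummer character of `t` is `−κ` (`ρ t · ζ ^ κ(ρ) = t`), `κ` the SHAPE cocycle
of `x`; then `p` divides the `(1 − ζ)`-adic valuation `n` of `c`. -/
theorem peu_dvd (hp2 : p ≠ 2) (h : HasFinOrder p act) (hA : (p : Qb) ∈ A.nonunits)
    (hζ : IsPrimitiveRoot ζ p) {w0 : M} (hw0 : w0 ≠ 0) (hpw : p • w0 = 0)
    (hω : ∀ σ ∈ A.inertiaSubgroupIn ℚ, ∀ k : ℕ, σ ζ = ζ ^ k → act σ w0 = k • w0) (x : M)
    (κ : GQ → ℕ) (hκ : ∀ ρ : GQ, IsTameFix A ζ ρ → act ρ x = x + κ ρ • w0)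
    {t : Qb} (ht0 : t ≠ 0) (htp : ∀ ρ : GQ, IsTameFix A ζ ρ → ρ (t ^ p) = t ^ p)
    (ht : ∀ ρ : GQ, IsTameFix A ζ ρ → ρ t * ζ ^ κ ρ = t) {n : ℤ}
    (hn : A.valuation (t ^ p) = A.valuation (1 - ζ) ^ n) : (p : ℤ) ∣ n := by
  obtain ⟨β, hβ0, hβ, hval⟩ := peu_valuation hp2 h hA hζ hw0 hpw hω x
    (fun ρ hρ => ⟨κ ρ, hκ ρ hρ⟩) ht0 htp
    (fixed_of_kummer_character hζ hw0 hpw x κ hκ ht)
  exact dvd_of_valuation_eq_pow hA hζ hβ0 hβ hval hn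

/-- **the binder `hpeu`, from a Kummer unit `α`** (route independent; helper57's
`peu_valuation_of_unit`). -/
theorem peu_dvd_of_unit (hA : (p : Qb) ∈ A.nonunits)
    (hζ : IsPrimitiveRoot ζ p) {w0 : M} (hw0 : w0 ≠ 0) (hpw : p • w0 = 0) (x : M)
    (κ : GQ → ℕ) (hκ : ∀ ρ : GQ, IsTameFix A ζ ρ → act ρ x = x + κ ρ • w0)
    {α : Qb} (hα0 : α ≠ 0) (hα : α ∈ A) (hα' : α⁻¹ ∈ A)
    (hρα : ∀ ρ : GQ, IsTameFix A ζ ρ → ∀ k : ℕ, act ρ x = x + k • w0 → ρ α = ζ ^ k * α)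
    {t : Qb} (ht0 : t ≠ 0) (htp : ∀ ρ : GQ, IsTameFix A ζ ρ → ρ (t ^ p) = t ^ p)
    (ht : ∀ ρ : GQ, IsTameFix A ζ ρ → ρ t * ζ ^ κ ρ = t) {n : ℤ}
    (hn : A.valuation (t ^ p) = A.valuation (1 - ζ) ^ n) : (p : ℤ) ∣ n := by
  obtain ⟨β, hβ0, hβ, hval⟩ := peu_valuation_of_unit hζ hpw x
    (fun ρ hρ => ⟨κ ρ, hκ ρ hρ⟩) hα0 hα hα' hρα ht0 htp
    (fixed_of_kummer_character hζ hw0 hpw x κ hκ ht)
  exact dvd_of_valuation_eq_pow hA hζ hβ0 hβ hval hn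

end Fermat.Agent.GF.F2Asm.PeuBridge
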