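/-
GATE-F (S44/S40) / node GF-F2-ASM, file 8 (helper31): **(F2) on the whole plane `Y₀ = C.Y0`.**

Inputs:
* SHAPE: `D : LineData (gal M p) I_A C.Y0 M₀ cyc` (`GF/Shape/Sub`, on main);
* E-PEU: the pin `KummerUnit W p A ζ` of `GF/ETate/Pin` (S40: `kummerUnit_of_hasFinOrder`;
  S44: helper70's Tate parametrisation);
* the tame Kummer datum `T` with `[T.g] = a • w₀`, `a ≠ 0`, `lc_q(T.g) = 1` (helper2 `G0Inst`);
* FIELD-MOD: `Wd : T.WData` with the dictionary `hvK`;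
* KCOVER-INST: the node relation `hNR` (mod `p`) for every `K'`-rational Kummer function of a class
  of `Y₀`, against ANY function `trop` (to be `trop1FN`).

Output: `econst_Y0 : ∀ y ∈ C.Y0, EConst E (trop y)` = the last clause of helper34's `F2Hyp`.
-/
import Fermat.Agent.GF.F2Asm.InstPlace
import Fermat.Agent.GF.F2Asm.PeuBridge
import Fermat.Agent.GF.Setup.Plane
import Fermat.Agent.GF.Shape.Sub
import Fermat.Agent.GF.ETate.Pin

set_option autoImplicit false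
set_option linter.unusedSectionVars false

noncomputable section

namespace Fermat.Agent.GF.F2Asm.Y0

open AlgebraicCurve ModularCurve
open Fermat.Agent.Common_helper32
open Fermat.Agent.GJ Fermat.Agent.GJ.KumGroup Fermat.Agent.GJ.Kum.KumType Fermat.Agent.S24
open Fermat.Agent.GJ.CycChar Fermat.Agent.GB.A.A6.ECDet
open Fermat.Agent.GH.Closure Fermat.Agent.GF.Peu Fermat.Agent.GF.ETate
open Fermat.Agent.GF.Setup.Plane Fermat.Agent.GF.Shape.Sub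
open Fermat.Agent.GF.KCover Fermat.Agent.GF.F2Asm.Inst Fermat.Agent.GF.F2Asm.PeuBridge

variable {W : WeierstrassCurve ℤ} {p : ℕ} [hpF : Fact p.Prime] {M : ℕ} [NeZero M]
  (C : Copy W p M) {A : ValuationSubring Qb} {ζ : Qb}

/-- **E-PEU on `Y₀` in the `hQ` shape of `TameDatum.econst`**, from the pin `KummerUnit`. -/
theorem hQ_of_kummerUnit (hA : (p : Qb) ∈ A.nonunits) (hζ : IsPrimitiveRoot ζ p)
    (hKU : KummerUnit W p A ζ)
    {M₀ : AddSubgroup (Additive (Kum Kb (FK M) p))}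
    (D : LineData (gal M p) (A.inertiaSubgroupIn ℚ) C.Y0 M₀
      (fun σ => ((cyc p σ : (ZMod p)ˣ) : ZMod p)))
    {y : Additive (Kum Kb (FK M) p)} (hy : y ∈ C.Y0)
    (κz : tameGroup A ζ → ZMod p)
    (hκz : ∀ ρ : tameGroup A ζ, D.kappa y ρ.1 = 0 → κz ρ = 0) :
    ∀ t : Qb, t ≠ 0 → (∀ ρ : tameGroup A ζ, ρ.1 (t ^ p) = t ^ p) →
      (∀ ρ : tameGroup A ζ, ρ.1 t * ζ ^ (κz ρ).val = t) →
      ∀ n : ℤ, A.valuation (t ^ p) = A.valuation (1 - ζ) ^ n → (p : ℤ) ∣ n := by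
  intro t ht0 htp ht n hn
  obtain ⟨x, rfl⟩ := C.exists_of_mem hy
  obtain ⟨w, hw⟩ := C.exists_of_mem D.mem_Y
  have hw0 : w ≠ 0 := by
    rintro rfl
    rw [map_zero] at hw
    exact D.ne_zero hw.symm
  have hω : ∀ σ ∈ A.inertiaSubgroupIn ℚ, ∀ k : ℕ, σ ζ = ζ ^ k → rho W p σ w = k • w := by
    intro σ hσ k hk
    apply C.inj
    rw [C.equivariant, hw, D.act σ hσ, (cyc_eq_natCast_iff hζ σ k).2 hk, map_nsmul, hw,
      Nat.cast_smul_eq_nsmul]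
  have hshape : ∀ ρ : GQ, IsTameFix A ζ ρ → ∃ κ : ℕ, rho W p ρ x = x + κ • w := by
    intro ρ hρ
    refine ⟨(D.kappa (C.e x) ρ).val, C.inj ?_⟩
    have h1 := D.kappa_spec ρ hρ.1 (C.e x) hy
    have h2 : gal M p ρ (C.e x) = C.e x + D.kappa (C.e x) ρ • D.w₀ := by rw [← h1]; abel
    rw [C.equivariant, h2, map_add, map_nsmul, hw, ← Nat.cast_smul_eq_nsmul (ZMod p),
      ZMod.natCast_zmod_val]
  obtain ⟨β, hβ0, hβ, hval⟩ := peu_valuation_of_kummerUnit hζ hKU hw0 hω x hshape ht0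
    (fun ρ hρ => htp ⟨ρ, hρ⟩) (by
      intro ρ hρ hfix
      have h1 : gal M p ρ (C.e x) = C.e x := by rw [← C.equivariant, hfix]
      have h2 : D.kappa (C.e x) ρ = 0 := (D.apply_eq_self_iff hρ.1 hy).mp h1
      have h3 := ht ⟨ρ, hρ⟩
      rw [hκz ⟨ρ, hρ⟩ h2, ZMod.val_zero, pow_zero, mul_one] at h3
      exact h3)
  exact dvd_of_valuation_eq_pow hA hζ hβ0 hβ hval hn

/-- **(F2) on the plane `Y₀`.** -/
theorem econst_Y0 (hA : (p : Qb) ∈ A.nonunits) (hKU : KummerUnit W p A ζ)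
    {M₀ : AddSubgroup (Additive (Kum Kb (FK M) p))}
    (D : LineData (gal M p) (A.inertiaSubgroupIn ℚ) C.Y0 M₀
      (fun σ => ((cyc p σ : (ZMod p)ˣ) : ZMod p)))
    (T : TameDatum M p A ζ) (a : ZMod p) (ha : a ≠ 0)
    (hg : (Additive.ofMul (Kum.mk T.g) : Additive (Kum Kb (FK M) p)) = a • D.w₀)
    (hlc : (qEmb M T.g₀).leadingCoeff = 1) (Wd : T.WData)
    (hvK : ∀ (c : fixedUnits (tameGroup A ζ) T.Fp) (c₀ : Kb),
      ((c : T.Fpˣ) : T.Fp) = algebraMap Kb T.Fp c₀ →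
        A.valuation c₀ = A.valuation (1 - ζ) ^ Wd.vK c)
    {ι : Type*} (as bs : ι → ZMod p) (E : ι → ZMod p)
    (trop : Additive (Kum Kb (FK M) p) → ι → ZMod p)
    (hNR : ∀ u : pDivUnits Kb (FK M) p,
      (Additive.ofMul (Kum.mk u) : Additive (Kum Kb (FK M) p)) ∈ C.Y0 →
      ∀ f : fixedUnits (tameGroup A ζ) T.Fp,
      (∃ h : T.Fp, h ≠ 0 ∧ ((f : T.Fpˣ) : T.Fp) =
        1 * algebraMap (FK M) T.Fp (((u : (FK M)ˣ) : FK M)) * h ^ p) →
      ∀ s j, (((Wd.w₂ (j + bs s) f - Wd.w₁ (j + as s) f : ℤ)) : ZMod p) =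
        E s * trop (Additive.ofMul (Kum.mk u)) s) :
    ∀ y ∈ C.Y0, Fermat.Agent.GF.Top.Skeleton.EConst E (trop y) := by
  intro y hy
  obtain ⟨u, hu⟩ : ∃ u : pDivUnits Kb (FK M) p, Additive.ofMul (Kum.mk u) = y := by
    obtain ⟨u, hu⟩ := Kum.mk_surjective (K := Kb) (F := FK M) (p := p) (Additive.toMul y)
    exact ⟨u, by rw [hu]; rfl⟩
  subst hu
  have hshape : ∀ ρ : tameGroup A ζ,
      gal M p ρ.1 (Additive.ofMul (Kum.mk u)) - Additive.ofMul (Kum.mk u) =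
        (a⁻¹ * D.kappa (Additive.ofMul (Kum.mk u)) ρ.1) •
          (Additive.ofMul (Kum.mk T.g) : Additive (Kum Kb (FK M) p)) := by
    intro ρ
    rw [D.kappa_spec ρ.1 ρ.2.1 _ hy, hg, smul_smul, mul_comm a⁻¹, mul_assoc, inv_mul_cancel₀ ha,
      mul_one]
  exact T.econst' Wd hlc u (fun ρ => a⁻¹ * D.kappa (Additive.ofMul (Kum.mk u)) ρ.1) hshape hvK
    (hQ_of_kummerUnit C hA T.prim hKU D hy _ (fun ρ h0 => by rw [h0, mul_zero]))
    as bs E (trop (Additive.ofMul (Kum.mk u))) (hNR u hy)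

end Fermat.Agent.GF.F2Asm.Y0
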