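/-
GATE-F (S44/S40) / node GF-F2-ASM, file 9 (helper31): **(L-e) the node relation `hNR` of
`Y0.econst_Y0` from the per-node data of GF-KCOVER-INST**, through helper84's
`Node/Arith.node_congr_zmod`.

Per node `(s, j)` (`s : ι`, `j : ℤ/p` the sheet) the instantiation owes, on
`U = fixedUnits (tameGroup A ζ) T.Fp`:
* `n s j : U → ℤ` additive, `= 0` on constants (helper42 `OrdRedExt.nodeOrd`);
* `θ ∈ U` (the pull-back of `Δ(z)/Δ(pz)`) with `(w₁, w₂, n) θ = (0, Tt s, N0 s)`,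
  `Tt s = E s * N0 s`, `p ∤ N0 s` ((L-d));
* `NL` : `w₁ u = 0 → w₂ u = 0 → p ∣ n u` (helper84 `Upstairs.nl0`, (L-b)/(L-c));
* `hn` : `n s j f ≡ trop [u] s (mod p)` for `f = 1 · u · h ^ p` (helper42
  `trop_eq_ordRed_kummer`).
The uniformiser `ϖ = 1 − ζ` is handled here (`piUnit`, `w₁_piUnit`, `w₂_piUnit` from `hvK`).

Output: `hNR_of_nodes` (the binder `hNR` of `econst_Y0`, with `E s := ((E s : ℤ) : ZMod p)`),
`econst_Y0_of_nodes`, `eta_clause` (the middle clause of helper34's `F2Hyp`).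
-/
import Fermat.Agent.GF.F2Asm.Y0
import Fermat.Agent.GF.KCover.Node.Arith

set_option autoImplicit false
set_option linter.unusedSectionVars false

noncomputable section

namespace Fermat.Agent.GF.F2Asm.NRAsm

open AlgebraicCurve ModularCurve
open Fermat.Agent.Common_helper32
open Fermat.Agent.GJ Fermat.Agent.GJ.KumGroup Fermat.Agent.GJ.Kum.KumType Fermat.Agent.S24
open Fermat.Agent.GJ.CycChar Fermat.Agent.GB.A.A6.ECDet
open Fermat.Agent.GH.Closure Fermat.Agent.GF.Peu Fermat.Agent.GF.ETate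
open Fermat.Agent.GL.Local.InertiaField
open Fermat.Agent.GF.Setup.Plane Fermat.Agent.GF.Shape.Sub
open Fermat.Agent.GF.KCover Fermat.Agent.GF.F2Asm.Inst Fermat.Agent.GF.F2Asm.PeuBridge

variable {N : ℕ} [NeZero N] {p : ℕ} [hpF : Fact p.Prime] {A : ValuationSubring Kb} {ζ : Kb}
  (T : TameDatum N p A ζ)

/-- `ϖ = 1 − ζ` as a `K'`-rational constant unit of the cover. -/
def piUnit : fixedUnits (tameGroup A ζ) T.Fp :=
  ⟨Units.mk0 (algebraMap Kb T.Fp (1 - ζ))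
    ((map_ne_zero_iff _ (algebraMap Kb T.Fp).injective).mpr
      (one_sub_zeta_ne_zero hpF.out T.prim)), fun ρ => by
    rw [Units.val_mk0, T.smul_const, map_sub, map_one, ρ.2.2]⟩

theorem coe_piUnit : (((piUnit T : fixedUnits (tameGroup A ζ) T.Fp) : T.Fpˣ) : T.Fp) =
    algebraMap Kb T.Fp (1 - ζ) := rfl

theorem piUnit_mem_C : (((piUnit T : fixedUnits (tameGroup A ζ) T.Fp) : T.Fpˣ) : T.Fp) ∈ T.C :=
  T.mem_C.mpr ⟨1 - ζ, rfl⟩

variable (Wd : T.WData)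

section Pi

variable (hA : (p : Kb) ∈ A.nonunits)
  (hvK : ∀ (c : fixedUnits (tameGroup A ζ) T.Fp) (c₀ : Kb),
    ((c : T.Fpˣ) : T.Fp) = algebraMap Kb T.Fp c₀ →
      A.valuation c₀ = A.valuation (1 - ζ) ^ Wd.vK c)

include hA hvK

theorem vK_piUnit : Wd.vK (piUnit T) = 1 := by
  have h := hvK (piUnit T) (1 - ζ) (coe_piUnit T)
  have h1 : A.valuation (1 - ζ) ^ (1 : ℤ) = A.valuation (1 - ζ) ^ Wd.vK (piUnit T) := by
    rw [zpow_one]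
    exact h
  exact (zpow_unique hA T.prim h1).symm

theorem w₁_piUnit (k : ZMod p) : Wd.w₁ k (piUnit T) = 1 := by
  rw [Wd.w₁_const k _ (piUnit_mem_C T), vK_piUnit T Wd hA hvK]

theorem w₂_piUnit (k : ZMod p) : Wd.w₂ k (piUnit T) = 1 := by
  rw [Wd.w₂_const k _ (piUnit_mem_C T), vK_piUnit T Wd hA hvK]

/-- **(L-e) the node relation from the per-node data.** -/
theorem hNR_of_nodes {ι : Type*} (as bs : ι → ZMod p) (E : ι → ℤ)
    (n : ι → ZMod p → fixedUnits (tameGroup A ζ) T.Fp → ℤ)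
    (hn_mul : ∀ s j y z, n s j (y * z) = n s j y + n s j z)
    (hn_const : ∀ s j (c : fixedUnits (tameGroup A ζ) T.Fp),
      ((c : T.Fpˣ) : T.Fp) ∈ T.C → n s j c = 0)
    (θ : fixedUnits (tameGroup A ζ) T.Fp) (Tt N0 : ι → ℤ)
    (hθ1 : ∀ s j, Wd.w₁ (j + as s) θ = 0) (hθ2 : ∀ s j, Wd.w₂ (j + bs s) θ = Tt s)
    (hθn : ∀ s j, n s j θ = N0 s) (hT : ∀ s, Tt s = E s * N0 s)
    (hN0 : ∀ s, IsCoprime (p : ℤ) (N0 s))
    (NL : ∀ s j (u : fixedUnits (tameGroup A ζ) T.Fp),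
      Wd.w₁ (j + as s) u = 0 → Wd.w₂ (j + bs s) u = 0 → (p : ℤ) ∣ n s j u)
    (f : fixedUnits (tameGroup A ζ) T.Fp) (s : ι) (j : ZMod p) :
    ((Wd.w₂ (j + bs s) f - Wd.w₁ (j + as s) f : ℤ) : ZMod p) =
      ((E s : ℤ) : ZMod p) * ((n s j f : ℤ) : ZMod p) :=
  Fermat.Agent.GF.KCover.Node.Arith.node_congr_zmod (Wd.w₁ (j + as s)) (Wd.w₂ (j + bs s)) (n s j)
    (Wd.w₁_mul _) (Wd.w₂_mul _) (hn_mul s j) (w₁_piUnit T Wd hA hvK _) (w₂_piUnit T Wd hA hvK _)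
    (hn_const s j _ (piUnit_mem_C T)) (hθ1 s j) (hθ2 s j) (hθn s j) (hT s) (hN0 s) (NL s j) f

end Pi

/-- **the middle clause of `F2Hyp`** : `E s · ord_{P s}(red θ) = T0` for all `s`. -/
theorem eta_clause {ι : Type*} (E Tt N0 : ι → ℤ) (hT : ∀ s, Tt s = E s * N0 s) (T0 : ℤ)
    (hT0 : ∀ s, Tt s = T0) (η : ι → ZMod p) (hη : ∀ s, η s = ((N0 s : ℤ) : ZMod p)) :
    ∀ s, ((E s : ℤ) : ZMod p) * η s = ((T0 : ℤ) : ZMod p) := by
  intro s
  rw [hη s, ← Int.cast_mul, ← hT s, hT0 s]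

variable {W : WeierstrassCurve ℤ}

/-- **(F2) on `Y₀` from the per-node data.** -/
theorem econst_Y0_of_nodes (C : Copy W p N) (hA : (p : Qb) ∈ A.nonunits)
    (hKU : KummerUnit W p A ζ)
    {M₀ : AddSubgroup (Additive (Kum Kb (FK N) p))}
    (D : LineData (gal N p) (A.inertiaSubgroupIn ℚ) C.Y0 M₀
      (fun σ => ((cyc p σ : (ZMod p)ˣ) : ZMod p)))
    (a : ZMod p) (ha : a ≠ 0)
    (hg : (Additive.ofMul (Kum.mk T.g) : Additive (Kum Kb (FK N) p)) = a • D.w₀)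
    (hlc : (qEmb N T.g₀).leadingCoeff = 1)
    (hvK : ∀ (c : fixedUnits (tameGroup A ζ) T.Fp) (c₀ : Kb),
      ((c : T.Fpˣ) : T.Fp) = algebraMap Kb T.Fp c₀ →
        A.valuation c₀ = A.valuation (1 - ζ) ^ Wd.vK c)
    {ι : Type*} (as bs : ι → ZMod p) (E : ι → ℤ)
    (n : ι → ZMod p → fixedUnits (tameGroup A ζ) T.Fp → ℤ)
    (hn_mul : ∀ s j y z, n s j (y * z) = n s j y + n s j z)
    (hn_const : ∀ s j (c : fixedUnits (tameGroup A ζ) T.Fp),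
      ((c : T.Fpˣ) : T.Fp) ∈ T.C → n s j c = 0)
    (θ : fixedUnits (tameGroup A ζ) T.Fp) (Tt N0 : ι → ℤ)
    (hθ1 : ∀ s j, Wd.w₁ (j + as s) θ = 0) (hθ2 : ∀ s j, Wd.w₂ (j + bs s) θ = Tt s)
    (hθn : ∀ s j, n s j θ = N0 s) (hT : ∀ s, Tt s = E s * N0 s)
    (hN0 : ∀ s, IsCoprime (p : ℤ) (N0 s))
    (NL : ∀ s j (u : fixedUnits (tameGroup A ζ) T.Fp),
      Wd.w₁ (j + as s) u = 0 → Wd.w₂ (j + bs s) u = 0 → (p : ℤ) ∣ n s j u)
    (trop : Additive (Kum Kb (FK N) p) → ι → ZMod p)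
    (hn : ∀ u : pDivUnits Kb (FK N) p,
      (Additive.ofMul (Kum.mk u) : Additive (Kum Kb (FK N) p)) ∈ C.Y0 →
      ∀ f : fixedUnits (tameGroup A ζ) T.Fp,
      (∃ h : T.Fp, h ≠ 0 ∧ ((f : T.Fpˣ) : T.Fp) =
        1 * algebraMap (FK N) T.Fp (((u : (FK N)ˣ) : FK N)) * h ^ p) →
      ∀ s j, ((n s j f : ℤ) : ZMod p) = trop (Additive.ofMul (Kum.mk u)) s) :
    ∀ y ∈ C.Y0, Fermat.Agent.GF.Top.Skeleton.EConst (fun s => ((E s : ℤ) : ZMod p)) (trop y) :=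
  Fermat.Agent.GF.F2Asm.Y0.econst_Y0 C hA hKU D T a ha hg hlc Wd hvK as bs
    (fun s => ((E s : ℤ) : ZMod p)) trop (fun u hu f hf s j => by
      rw [hNR_of_nodes T Wd hA hvK as bs E n hn_mul hn_const θ Tt N0 hθ1 hθ2 hθn hT hN0 NL f s j,
        hn u hu f hf s j])

end Fermat.Agent.GF.F2Asm.NRAsm
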