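/-
GATE-F (S44/S40) / node GF-F2-ASM, file 17 (helper31): **the subgroup `Us` of
`NRAsmSub.f2_of_nodes_sub` / helper84's `NodeRelSub.nodeRel_one_sub` on the concrete cover**, in
helper84's spelling (board 6584 [A]):

  `T.Us = {y ∈ fixedUnits I' T.Fp | ∀ P : Place ℚ̄ T.Fp, j ∈ P.toValuationSubring → p ∣ P.ord y}`

(the `K'`-rational functions whose divisor is divisible by `p` away from the cusps), with the three
memberships: `piUnit_mem_Us` (`ϖ = 1 − ζ`), `mem_Us_of_kummer` (`f = 1 · u · h ^ p`, the binder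
`hUf`), `mem_Us_of_etaQ` (`θ = Δ(z)/Δ(dz)`, the binder `hθU`).
-/
import Fermat.Agent.GF.F2Asm.EtaCover
import Fermat.Agent.GF.F2Asm.NRAsm

set_option autoImplicit false
set_option linter.unusedSectionVars false

noncomputable section

namespace Fermat.Agent.GF.F2Asm.UsInst

open AlgebraicCurve ModularCurve
open Fermat.Agent.S24 Fermat.Agent.GJ.KumGroup Fermat.Agent.GF.KCover
open Fermat.Agent.GF.F2Asm.Inst Fermat.Agent.GF.F2Asm.NRAsm Fermat.Agent.GF.F2Asm.EtaCover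

variable {N : ℕ} [NeZero N] {p : ℕ} [hpF : Fact p.Prime] {A : ValuationSubring Kb} {ζ : Kb}
  (T : TameDatum N p A ζ)

/-- `j` on the cover -/
def jCover : T.Fp := algebraMap (FK N) T.Fp (jF N)

theorem jCover_ne_zero : jCover T ≠ 0 :=
  (map_ne_zero_iff _ (algebraMap (FK N) T.Fp).injective).mpr jF_ne_zero

/-- **the `K'`-rational functions with `p ∣ div` away from the cusps.** -/
def Us : Subgroup (fixedUnits (tameGroup A ζ) T.Fp) where
  carrier := {y | ∀ P : Place Kb T.Fp, jCover T ∈ P.toValuationSubring →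
    (p : ℤ) ∣ P.ord (((y : T.Fpˣ) : T.Fp))}
  one_mem' := fun P _ => by
    show (p : ℤ) ∣ P.ord (1 : T.Fp)
    rw [Place.ord_one]
    exact dvd_zero _
  mul_mem' := by
    intro y z hy hz P hP
    show (p : ℤ) ∣ P.ord ((((y : T.Fpˣ) : T.Fp)) * (((z : T.Fpˣ) : T.Fp)))
    rw [P.ord_mul (y : T.Fpˣ).ne_zero (z : T.Fpˣ).ne_zero]
    exact dvd_add (hy P hP) (hz P hP)
  inv_mem' := by
    intro y hy P hP
    have h1 : ((((y⁻¹ : fixedUnits (tameGroup A ζ) T.Fp) : T.Fpˣ) : T.Fp)) =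
        (((y : T.Fpˣ) : T.Fp))⁻¹ := by
      rw [Subgroup.coe_inv, Units.val_inv_eq_inv_val]
    show (p : ℤ) ∣ P.ord ((((y⁻¹ : fixedUnits (tameGroup A ζ) T.Fp) : T.Fpˣ) : T.Fp))
    rw [h1, Place.ord_inv]
    exact (dvd_neg).2 (hy P hP)

theorem mem_Us {y : fixedUnits (tameGroup A ζ) T.Fp} :
    y ∈ Us T ↔ ∀ P : Place Kb T.Fp, jCover T ∈ P.toValuationSubring →
      (p : ℤ) ∣ P.ord (((y : T.Fpˣ) : T.Fp)) := Iff.rfl

/-- constants are in `Us`. -/
theorem mem_Us_of_const {y : fixedUnits (tameGroup A ζ) T.Fp}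
    (hy : ((y : T.Fpˣ) : T.Fp) ∈ T.C) : y ∈ Us T := by
  intro P _
  obtain ⟨c, hc⟩ := T.mem_C.mp hy
  have hc0 : c ≠ 0 := by
    rintro rfl
    rw [map_zero] at hc
    exact (y : T.Fpˣ).ne_zero hc
  rw [hc, PlaceB.ord_algebraMap P hc0]
  exact dvd_zero _

/-- `ϖ = 1 − ζ ∈ Us` (the binder `hϖU`). -/
theorem piUnit_mem_Us : piUnit T ∈ Us T := mem_Us_of_const T (piUnit_mem_C T)

/-- **the binder `hUf`** : the `K'`-rational Kummer functions of a `p`-divisible unit of the base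
are in `Us`. -/
theorem mem_Us_of_kummer (u : pDivUnits Kb (FK N) p) (f : fixedUnits (tameGroup A ζ) T.Fp)
    (hf : ∃ h : T.Fp, h ≠ 0 ∧ ((f : T.Fpˣ) : T.Fp) =
      1 * algebraMap (FK N) T.Fp (((u : (FK N)ˣ) : FK N)) * h ^ p) : f ∈ Us T := by
  obtain ⟨h, hh, hf⟩ := hf
  intro P _
  exact dvd_ord_kummer_rep T u ⟨1, one_ne_zero, (map_one _).symm⟩ hh hf P

/-- **the binder `hθU`** : `θ = Δ(z)/Δ(dz)` (any `K'`-rational unit with that value) is in `Us`. -/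
theorem mem_Us_of_etaQ (d : ℕ) [NeZero d] (hd : d ∣ N) (θ : fixedUnits (tameGroup A ζ) T.Fp)
    (hθ : ((θ : T.Fpˣ) : T.Fp) = algebraMap (FK N) T.Fp (Fermat.Agent.GL.Eta.etaQ N d hd)) :
    θ ∈ Us T := by
  intro P hP
  rw [hθ, ord_etaQ_cover_eq_zero T d hd P
    ((PlaceB.ord_nonneg_iff P (jCover_ne_zero T)).mpr hP)]
  exact dvd_zero _

end Fermat.Agent.GF.F2Asm.UsInst
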