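/-
GATE-F (S44) / node GF-F2-ASM, second seat (helper2): **the `ω`-projection** of helper31 (board 6114 §1),
Mathlib only.

For a family `T : ι → M` (the conjugates `τ g` of a Kummer function) with weights
`a : ι → (ZMod p)ˣ` (`a τ = ω τ`), put

  `proj T a = ∏ i, T i ^ [a i ⁻¹]`      (`[u] = (u : ZMod p).val ∈ {1, …, p − 1}`).

If an endomorphism `f` of `M` permutes the family, `f (T i) = T (π i)`, with `a (π i) = s * a i`
(`s = ω σ`), then EXACTLY

  `f (proj T a) = proj T a ^ [s] * (quoP T a s)⁻¹ ^ p`,   `quoP T a s = ∏ i, T i ^ ⌊[s][a i ⁻¹] / p⌋`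

(`map_proj` in a commutative monoid, inverse-free; `map_proj_group`, `map_projF` in a group / a
field).  No hypothesis on the `T i`.  Group forms (`ι = Δ` a finite group acting on `M`,
`T τ = τ • g`, `a = ω`): `smul_projG`, `smul_projField` — the latter is the hypothesis
`σ g₀ = g₀ ^ ω * h ^ p` of `GF/KCover/Field/Lift.exists_root_form` / `commute_deck`.

Class of the projection: if `c : M →* W` kills `p`-th powers and `c (T i) = w ^ [a i]`
(`τ w = ω(τ) w`), then `c (proj T a) = w ^ #ι` (`map_proj_class`; `= w⁻¹` when `#ι = p − 1`,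
`map_proj_class_inv`).
-/
import Mathlib

set_option autoImplicit false

namespace Fermat.Agent.GF.F2Asm.OmegaProj

open Finset

variable {p : ℕ}

/-- the representative `[u] ∈ {1, …, p − 1}` of a unit of `ZMod p`. -/
def rep (u : (ZMod p)ˣ) : ℕ := (u : ZMod p).val

/-- `q(s, u) = ⌊[s][u] / p⌋`. -/
def quo (s u : (ZMod p)ˣ) : ℕ := rep s * rep u / p

theorem rep_mul_rep [NeZero p] (s u : (ZMod p)ˣ) : rep s * rep u = rep (s * u) + p * quo s u := by
  unfold rep quo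
  rw [Units.val_mul, ZMod.val_mul]
  exact (Nat.mod_add_div _ _).symm

theorem rep_one [Fact (1 < p)] : rep (1 : (ZMod p)ˣ) = 1 := by
  unfold rep
  rw [Units.val_one, ZMod.val_one]

theorem rep_lt [NeZero p] (u : (ZMod p)ˣ) : rep u < p := ZMod.val_lt _

theorem rep_pos [Fact (1 < p)] (u : (ZMod p)ˣ) : 0 < rep u := by
  have : NeZero p := ⟨(lt_trans Nat.zero_lt_one Fact.out).ne'⟩
  unfold rep
  rw [Nat.pos_iff_ne_zero, Ne, ZMod.val_eq_zero]
  exact u.ne_zero

/-- `[u][u⁻¹] = 1 + p q(u, u⁻¹)`. -/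
theorem rep_mul_rep_inv [Fact (1 < p)] (u : (ZMod p)ˣ) :
    rep u * rep u⁻¹ = 1 + p * quo u u⁻¹ := by
  have : NeZero p := ⟨(lt_trans Nat.zero_lt_one Fact.out).ne'⟩
  rw [rep_mul_rep, mul_inv_cancel, rep_one]

section Monoid

variable {ι M : Type*} [Fintype ι] [CommMonoid M]

/-- **the `ω`-projection** `∏ i, T i ^ [a i ⁻¹]`. -/
def proj (T : ι → M) (a : ι → (ZMod p)ˣ) : M := ∏ i, T i ^ rep (a i)⁻¹

/-- the quotient part `∏ i, T i ^ q(s, a i ⁻¹)`. -/
def quoP (T : ι → M) (a : ι → (ZMod p)ˣ) (s : (ZMod p)ˣ) : M := ∏ i, T i ^ quo s (a i)⁻¹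

/-- **the `ω`-projection is an `ω`-eigenvector up to an EXPLICIT `p`-th power** (inverse-free form). -/
theorem map_proj [NeZero p] (T : ι → M) (a : ι → (ZMod p)ˣ) (s : (ZMod p)ˣ) (f : M →* M)
    (π : Equiv.Perm ι) (hT : ∀ i, f (T i) = T (π i)) (ha : ∀ i, a (π i) = s * a i) :
    proj T a ^ rep s = f (proj T a) * quoP T a s ^ p := by
  have h1 : f (proj T a) = ∏ j, T j ^ rep (s * (a j)⁻¹) := by
    unfold proj
    rw [map_prod]
    rw [← Equiv.prod_comp π (fun j => T j ^ rep (s * (a j)⁻¹))]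
    refine Finset.prod_congr rfl fun i _ => ?_
    rw [map_pow, hT, ha, mul_inv_rev, mul_comm (a i)⁻¹, ← mul_assoc, mul_inv_cancel, one_mul]
  rw [h1]
  unfold proj quoP
  rw [← Finset.prod_pow, ← Finset.prod_pow, ← Finset.prod_mul_distrib]
  refine Finset.prod_congr rfl fun i _ => ?_
  rw [← pow_mul, ← pow_mul, ← pow_add, mul_comm (rep (a i)⁻¹), rep_mul_rep, mul_comm (quo _ _) p]

/-- **class of the projection**: if `c` kills `p`-th powers and `c (T i) = w ^ [a i]`, then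
`c (proj T a) = w ^ #ι`. -/
theorem map_proj_class [Fact (1 < p)] {W : Type*} [CommMonoid W] (hW : ∀ x : W, x ^ p = 1)
    (T : ι → M) (a : ι → (ZMod p)ˣ) (c : M →* W) (w : W) (hc : ∀ i, c (T i) = w ^ rep (a i)) :
    c (proj T a) = w ^ Fintype.card ι := by
  unfold proj
  rw [map_prod, ← Finset.card_univ, ← Finset.prod_const]
  refine Finset.prod_congr rfl fun i _ => ?_
  rw [map_pow, hc, ← pow_mul, rep_mul_rep_inv, pow_add, pow_one, pow_mul, hW, one_pow, mul_one]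

end Monoid

section Group

variable {ι M : Type*} [Fintype ι] [CommGroup M]

/-- group form of `map_proj`. -/
theorem map_proj_group [NeZero p] (T : ι → M) (a : ι → (ZMod p)ˣ) (s : (ZMod p)ˣ) (f : M →* M)
    (π : Equiv.Perm ι) (hT : ∀ i, f (T i) = T (π i)) (ha : ∀ i, a (π i) = s * a i) :
    f (proj T a) = proj T a ^ rep s * (quoP T a s)⁻¹ ^ p := by
  rw [map_proj T a s f π hT ha, inv_pow, mul_inv_cancel_right]

/-- the class of the projection is `w⁻¹` when there are `p − 1` conjugates. -/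
theorem map_proj_class_inv [Fact (1 < p)] {W : Type*} [CommGroup W] (hW : ∀ x : W, x ^ p = 1)
    (T : ι → M) (a : ι → (ZMod p)ˣ) (c : M →* W) (w : W) (hc : ∀ i, c (T i) = w ^ rep (a i))
    (hcard : Fintype.card ι = p - 1) : c (proj T a) = w⁻¹ := by
  rw [map_proj_class hW T a c w hc, hcard, eq_inv_iff_mul_eq_one, ← pow_succ,
    Nat.sub_add_cancel (le_of_lt (Fact.out : 1 < p)), hW]

end Group

section Field

variable {ι F : Type*} [Fintype ι] [Field F]

/-- field form of `map_proj` (`f` a ring endomorphism, all `T i ≠ 0`). -/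
theorem map_projF [NeZero p] (T : ι → F) (hT0 : ∀ i, T i ≠ 0) (a : ι → (ZMod p)ˣ) (s : (ZMod p)ˣ)
    (f : F →+* F) (π : Equiv.Perm ι) (hT : ∀ i, f (T i) = T (π i)) (ha : ∀ i, a (π i) = s * a i) :
    f (proj T a) = proj T a ^ rep s * (quoP T a s)⁻¹ ^ p := by
  have h := map_proj T a s (f : F →* F) π hT ha
  have hq : quoP T a s ≠ 0 := by
    unfold quoP
    exact Finset.prod_ne_zero_iff.mpr fun i _ => pow_ne_zero _ (hT0 i)
  rw [h, inv_pow]
  exact (mul_inv_cancel_right₀ (pow_ne_zero _ hq) _).symm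

theorem proj_ne_zero (T : ι → F) (hT0 : ∀ i, T i ≠ 0) (a : ι → (ZMod p)ˣ) : proj T a ≠ 0 := by
  unfold proj
  exact Finset.prod_ne_zero_iff.mpr fun i _ => pow_ne_zero _ (hT0 i)

end Field

/-! ### group forms: `ι = Δ` a finite group acting, `T τ = τ • g`, `a = ω` -/

section Action

variable {Δ : Type*} [Group Δ] [Fintype Δ] (ω : Δ →* (ZMod p)ˣ)

/-- the `ω`-projection `g₀ = ∏ τ, τ(g) ^ [ω(τ)⁻¹]` of `g`. -/
def projG {M : Type*} [CommMonoid M] [MulDistribMulAction Δ M] (g : M) : M :=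
  proj (fun τ : Δ => τ • g) (fun τ => ω τ)

/-- `H_σ⁻¹ = ∏ τ, τ(g) ^ q(ω σ, ω(τ)⁻¹)`. -/
def quoG {M : Type*} [CommMonoid M] [MulDistribMulAction Δ M] (σ : Δ) (g : M) : M :=
  quoP (fun τ : Δ => τ • g) (fun τ => ω τ) (ω σ)

/-- **`σ g₀ = g₀ ^ [ω σ] · H_σ ^ p` EXACTLY** (helper31 6114 §1), no hypothesis on `g`. -/
theorem smul_projG [NeZero p] {M : Type*} [CommGroup M] [MulDistribMulAction Δ M] (σ : Δ) (g : M) :
    σ • projG ω g = projG ω g ^ rep (ω σ) * (quoG ω σ g)⁻¹ ^ p :=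
  map_proj_group (fun τ : Δ => τ • g) (fun τ => ω τ) (ω σ) (MulDistribMulAction.toMonoidHom M σ)
    (Equiv.mulLeft σ) (fun τ => (mul_smul σ τ g).symm) (fun τ => map_mul ω σ τ)

/-- field form: for `Δ` acting on a field `F` by ring automorphisms and `g ≠ 0`,
`σ g₀ = g₀ ^ [ω σ] * h ^ p` with `h = (∏ τ, τ(g) ^ q(ω σ, ω(τ)⁻¹))⁻¹` — the hypothesis of
`GF/KCover/Field/Lift.exists_root_form`. -/
theorem smul_projField [NeZero p] {F : Type*} [Field F] [MulSemiringAction Δ F] (σ : Δ) {g : F}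
    (hg : g ≠ 0) : σ • projG ω g = projG ω g ^ rep (ω σ) * (quoG ω σ g)⁻¹ ^ p :=
  map_projF (fun τ : Δ => τ • g) (fun τ => (smul_ne_zero_iff_ne τ).mpr hg) (fun τ => ω τ) (ω σ)
    (MulSemiringAction.toRingHom Δ F σ) (Equiv.mulLeft σ) (fun τ => (mul_smul σ τ g).symm)
    (fun τ => map_mul ω σ τ)

theorem projG_ne_zero {F : Type*} [Field F] [MulSemiringAction Δ F] {g : F} (hg : g ≠ 0) :
    projG ω g ≠ 0 :=
  proj_ne_zero _ (fun τ => (smul_ne_zero_iff_ne τ).mpr hg) _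

/-- class of `g₀`: if `c` kills `p`-th powers and `c (τ g) = w ^ [ω τ]` for all `τ`, then
`c g₀ = w ^ #Δ`. -/
theorem map_projG_class [Fact (1 < p)] {M W : Type*} [CommMonoid M] [MulDistribMulAction Δ M]
    [CommMonoid W] (hW : ∀ x : W, x ^ p = 1) (c : M →* W) (g : M) (w : W)
    (hc : ∀ τ : Δ, c (τ • g) = w ^ rep (ω τ)) : c (projG ω g) = w ^ Fintype.card Δ :=
  map_proj_class hW _ _ c w hc

end Action

/-! ### kernel forms: `Γ` ANY group acting, `ω : Γ →* (ZMod p)ˣ` onto, `g` fixed by `ker ω`;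
the conjugates are indexed by `(ZMod p)ˣ` itself (so there are `p − 1` of them) -/

section Ker

variable {Γ : Type*} [Group Γ] (ω : Γ →* (ZMod p)ˣ) (hω : Function.Surjective ω)

theorem quo_one_left [NeZero p] (u : (ZMod p)ˣ) : quo 1 u = 0 := by
  unfold quo
  by_cases hp1 : p = 1
  · subst hp1; simp [rep, ZMod.val_one_eq_one_mod]
  · have : Fact (1 < p) := ⟨lt_of_le_of_ne (Nat.one_le_iff_ne_zero.mpr (NeZero.ne p)) (Ne.symm hp1)⟩
    rw [rep_one, one_mul]
    exact Nat.div_eq_of_lt (rep_lt u)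

section GroupKer

variable {M : Type*} [CommGroup M] [MulDistribMulAction Γ M]

/-- the conjugate `τ g`, `ω τ = u` (well defined when `ker ω` fixes `g`). -/
noncomputable def conjK (g : M) (u : (ZMod p)ˣ) : M := Function.surjInv hω u • g

include hω in
theorem conjK_eq {g : M} (hfix : ∀ γ : Γ, ω γ = 1 → γ • g = g) (τ : Γ) :
    conjK ω hω g (ω τ) = τ • g := by
  unfold conjK
  have h1 : ω (τ⁻¹ * Function.surjInv hω (ω τ)) = 1 := by
    rw [map_mul, map_inv, Function.surjInv_eq hω, inv_mul_cancel]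
  have h2 := hfix _ h1
  rw [mul_smul, inv_smul_eq_iff] at h2
  exact h2

include hω in
theorem smul_conjK {g : M} (hfix : ∀ γ : Γ, ω γ = 1 → γ • g = g) (σ : Γ) (u : (ZMod p)ˣ) :
    σ • conjK ω hω g u = conjK ω hω g (ω σ * u) := by
  obtain ⟨τ, rfl⟩ := hω u
  rw [conjK_eq ω hω hfix, ← map_mul, conjK_eq ω hω hfix, mul_smul]

/-- the `ω`-projection `g₀ = ∏_{u ∈ (ℤ/p)ˣ} (τ_u g) ^ [u⁻¹]`. -/
noncomputable def projK [NeZero p] (g : M) : M := proj (conjK ω hω g) (fun u => u)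

/-- `H_σ⁻¹`. -/
noncomputable def quoK [NeZero p] (g : M) (s : (ZMod p)ˣ) : M := quoP (conjK ω hω g) (fun u => u) s

/-- **`σ g₀ = g₀ ^ [ω σ] · H_σ ^ p` EXACTLY**, for every `σ : Γ`. -/
theorem smul_projK [NeZero p] {g : M} (hfix : ∀ γ : Γ, ω γ = 1 → γ • g = g) (σ : Γ) :
    σ • projK ω hω g = projK ω hω g ^ rep (ω σ) * (quoK ω hω g (ω σ))⁻¹ ^ p :=
  map_proj_group (conjK ω hω g) (fun u => u) (ω σ) (MulDistribMulAction.toMonoidHom M σ)
    (Equiv.mulLeft (ω σ)) (fun u => smul_conjK ω hω hfix σ u) (fun _ => rfl)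

/-- `g₀` is again fixed by `ker ω`. -/
theorem smul_projK_of_ker [NeZero p] {g : M} (hfix : ∀ γ : Γ, ω γ = 1 → γ • g = g) (γ : Γ)
    (hγ : ω γ = 1) : γ • projK ω hω g = projK ω hω g := by
  unfold projK proj
  rw [Finset.smul_prod']
  refine Finset.prod_congr rfl fun u _ => ?_
  rw [smul_pow', smul_conjK ω hω hfix, hγ, one_mul]

/-- `H_σ` is fixed by `ker ω` (it is `K'`-rational). -/
theorem smul_quoK_of_ker [NeZero p] {g : M} (hfix : ∀ γ : Γ, ω γ = 1 → γ • g = g)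
    (s : (ZMod p)ˣ) (γ : Γ) (hγ : ω γ = 1) : γ • quoK ω hω g s = quoK ω hω g s := by
  unfold quoK quoP
  rw [Finset.smul_prod']
  refine Finset.prod_congr rfl fun u _ => ?_
  rw [smul_pow', smul_conjK ω hω hfix, hγ, one_mul]

/-- class of `g₀`: `c g₀ = w⁻¹` if `c` kills `p`-th powers and `c (τ g) = w ^ [ω τ]`. -/
theorem map_projK_class [Fact p.Prime] {W : Type*} [CommGroup W] (hW : ∀ x : W, x ^ p = 1)
    (c : M →* W) {g : M} (hfix : ∀ γ : Γ, ω γ = 1 → γ • g = g) (w : W)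
    (hc : ∀ τ : Γ, c (τ • g) = w ^ rep (ω τ)) : c (projK ω hω g) = w⁻¹ := by
  have hp : p.Prime := Fact.out
  have : Fact (1 < p) := ⟨hp.one_lt⟩
  refine map_proj_class_inv hW _ _ c w (fun u => ?_) ?_
  · obtain ⟨τ, rfl⟩ := hω u
    rw [conjK_eq ω hω hfix, hc]
  · rw [ZMod.card_units_eq_totient, Nat.totient_prime hp]

end GroupKer

section FieldKer

variable {F : Type*} [Field F] [MulSemiringAction Γ F]

/-- the conjugate `τ g`, `ω τ = u`, in a field. -/
noncomputable def conjF (g : F) (u : (ZMod p)ˣ) : F := Function.surjInv hω u • g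

include hω in
theorem conjF_eq {g : F} (hfix : ∀ γ : Γ, ω γ = 1 → γ • g = g) (τ : Γ) :
    conjF ω hω g (ω τ) = τ • g := by
  unfold conjF
  have h1 : ω (τ⁻¹ * Function.surjInv hω (ω τ)) = 1 := by
    rw [map_mul, map_inv, Function.surjInv_eq hω, inv_mul_cancel]
  have h2 := hfix _ h1
  rw [mul_smul, inv_smul_eq_iff] at h2
  exact h2

include hω in
theorem smul_conjF {g : F} (hfix : ∀ γ : Γ, ω γ = 1 → γ • g = g) (σ : Γ) (u : (ZMod p)ˣ) :
    σ • conjF ω hω g u = conjF ω hω g (ω σ * u) := by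
  obtain ⟨τ, rfl⟩ := hω u
  rw [conjF_eq ω hω hfix, ← map_mul, conjF_eq ω hω hfix, mul_smul]

theorem conjF_ne_zero {g : F} (hg : g ≠ 0) (u : (ZMod p)ˣ) : conjF ω hω g u ≠ 0 :=
  (smul_ne_zero_iff_ne _).mpr hg

/-- the `ω`-projection `g₀ = ∏_{u ∈ (ℤ/p)ˣ} (τ_u g) ^ [u⁻¹]` in a field. -/
noncomputable def projF [NeZero p] (g : F) : F := proj (conjF ω hω g) (fun u => u)

/-- `H_σ⁻¹` in a field. -/
noncomputable def quoF [NeZero p] (g : F) (s : (ZMod p)ˣ) : F := quoP (conjF ω hω g) (fun u => u) s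

theorem projF_ne_zero [NeZero p] {g : F} (hg : g ≠ 0) : projF ω hω g ≠ 0 :=
  proj_ne_zero _ (conjF_ne_zero ω hω hg) _

/-- **field form, consumer shape of `GF/KCover/Field/Lift`**: for EVERY `σ : Γ`,
`σ g₀ = g₀ ^ [ω σ] * h ^ p`, `h = (quoF g (ω σ))⁻¹`. -/
theorem smul_projF [NeZero p] {g : F} (hg : g ≠ 0) (hfix : ∀ γ : Γ, ω γ = 1 → γ • g = g) (σ : Γ) :
    σ • projF ω hω g = projF ω hω g ^ rep (ω σ) * (quoF ω hω g (ω σ))⁻¹ ^ p :=
  map_projF (conjF ω hω g) (conjF_ne_zero ω hω hg) (fun u => u) (ω σ)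
    (MulSemiringAction.toRingHom Γ F σ) (Equiv.mulLeft (ω σ))
    (fun u => smul_conjF ω hω hfix σ u) (fun _ => rfl)

/-- `g₀` is again fixed by `ker ω`. -/
theorem smul_projF_of_ker [NeZero p] {g : F} (hfix : ∀ γ : Γ, ω γ = 1 → γ • g = g) (γ : Γ)
    (hγ : ω γ = 1) : γ • projF ω hω g = projF ω hω g := by
  unfold projF proj
  rw [Finset.smul_prod']
  refine Finset.prod_congr rfl fun u _ => ?_
  rw [smul_pow', smul_conjF ω hω hfix, hγ, one_mul]

/-- `H_σ` is fixed by `ker ω` (it is `K'`-rational). -/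
theorem smul_quoF_of_ker [NeZero p] {g : F} (hfix : ∀ γ : Γ, ω γ = 1 → γ • g = g)
    (s : (ZMod p)ˣ) (γ : Γ) (hγ : ω γ = 1) : γ • quoF ω hω g s = quoF ω hω g s := by
  unfold quoF quoP
  rw [Finset.smul_prod']
  refine Finset.prod_congr rfl fun u _ => ?_
  rw [smul_pow', smul_conjF ω hω hfix, hγ, one_mul]

/-- class of `g₀` in a field: for `c : Fˣ →* W` killing `p`-th powers with
`c (τ g) = w ^ [ω τ]`, the class of `g₀` is `w⁻¹`; stated on `F` through a map `c : F → W`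
multiplicative on nonzero elements. -/
theorem map_projF_class [Fact p.Prime] {W : Type*} [CommGroup W] (hW : ∀ x : W, x ^ p = 1)
    (c : Fˣ →* W) {g : F} (hg : g ≠ 0) (hfix : ∀ γ : Γ, ω γ = 1 → γ • g = g) (w : W)
    (hc : ∀ τ : Γ, c (Units.mk0 (τ • g) ((smul_ne_zero_iff_ne τ).mpr hg)) = w ^ rep (ω τ)) :
    c (Units.mk0 (projF ω hω g) (projF_ne_zero ω hω hg)) = w⁻¹ := by
  have hp : p.Prime := Fact.out
  have : Fact (1 < p) := ⟨hp.one_lt⟩
  have key : Units.mk0 (projF ω hω g) (projF_ne_zero ω hω hg)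
      = proj (fun u => Units.mk0 (conjF ω hω g u) (conjF_ne_zero ω hω hg u)) (fun u => u) := by
    apply Units.ext
    unfold projF proj
    rw [Units.val_mk0, Units.coe_prod]
    refine Finset.prod_congr rfl fun u _ => ?_
    rw [Units.val_pow_eq_pow_val, Units.val_mk0]
  rw [key]
  refine map_proj_class_inv hW _ _ c w (fun u => ?_) ?_
  · obtain ⟨τ, rfl⟩ := hω u
    have h := hc τ
    have e : Units.mk0 (conjF ω hω g (ω τ)) (conjF_ne_zero ω hω hg (ω τ))
        = Units.mk0 (τ • g) ((smul_ne_zero_iff_ne τ).mpr hg) :=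
      Units.ext (conjF_eq ω hω hfix τ)
    rw [e, h]
  · rw [ZMod.card_units_eq_totient, Nat.totient_prime hp]

end FieldKer

end Ker

end Fermat.Agent.GF.F2Asm.OmegaProj
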