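/-
GATE-F (S44) / node GF-F2-ASM, second seat (helper2): **the concrete `g₀`** ((i) of helper31 6259).

`F_N = ℚ̄(X₀(N))`, `A | p` a valuation subring of `ℚ̄`, `I = I_A`, `ω = cyc p` the mod-`p` cyclotomic
character (surjective on `I`, `GL/Local/TameZeta`), `I' = I ∩ ker ω`.  For a Kummer class `w₀` on
which `I` acts through `ω` (`LineData.act` of `GF/Shape/Sub`), there is a `p`-divisible unit `g₀`
of `F_N` with

* class `[g₀] = −w₀` (so `[g₀]` still spans the line, and `g₀` is not a `p`-th power if `w₀ ≠ 0`);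
* `g₀` is fixed coefficientwise by `I'` (it is `K'`-rational, `K' = ℚ̄^{I'}`);
* for EVERY `σ ∈ I` : `σ g₀ = g₀ ^ [ω σ] · h ^ p` with `h` fixed by `I'` — EXACTLY, no constant —
  the hypothesis of `GF/KCover/Field/Lift.exists_root_form` / `commute_deck`.

`g₀` is the `ω`-projection (`OmegaProj`) of the `I'`-fixed representative of `w₀` given by the
descent `GB/A/Descent.exists_fixed_rep`.
-/
import Fermat.Agent.GF.F2Asm.OmegaProj
import Fermat.Agent.GB.A.Descent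
import Fermat.Agent.GJ.CycChar
import Fermat.Agent.GL.Local.TameZeta

set_option autoImplicit false
set_option linter.unusedSectionVars false
set_option linter.style.haveILetI false

noncomputable section

namespace Fermat.Agent.GF.F2Asm.G0Inst

open AlgebraicCurve ModularCurve
open Fermat.Agent.GJ.KumGroup Fermat.Agent.GJ.Kum.KumType Fermat.Agent.GJ.CycChar
open Fermat.Agent.GL.Local.InertiaField Fermat.Agent.GF.F2Asm.OmegaProj

local notation "GQ" => (AlgebraicClosure ℚ ≃ₐ[ℚ] AlgebraicClosure ℚ)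

variable (N : ℕ) [NeZero N] (p : ℕ) [Fact p.Prime]

/-- the coefficientwise action of a subgroup of `G_ℚ` on the `p`-divisible units of `F_N`. -/
@[reducible] def actSub (I : Subgroup GQ) : MulDistribMulAction I (pDivUnits Kb (FK N) p) where
  smul σ u := restr (galUnits N (σ : GQ)) (galUnits_mem N p σ) u
  one_smul u := Subtype.ext (Units.ext (arithmeticRingAut_one_apply N ((u : (FK N)ˣ) : FK N)))
  mul_smul σ τ u :=
    Subtype.ext (Units.ext (arithmeticRingAut_mul_apply N σ τ ((u : (FK N)ˣ) : FK N)))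
  smul_mul σ u v := map_mul (restr (galUnits N (σ : GQ)) (galUnits_mem N p σ)) u v
  smul_one σ := map_one (restr (galUnits N (σ : GQ)) (galUnits_mem N p σ))

/-- the mod-`p` cyclotomic character restricted to a subgroup. -/
def omegaSub (I : Subgroup GQ) : I →* (ZMod p)ˣ := (cyc p).comp I.subtype

theorem omegaSub_apply (I : Subgroup GQ) (σ : I) : omegaSub p I σ = cyc p (σ : GQ) := rfl

/-- the mod-`p` cyclotomic character is onto on the inertia group of `A | p`. -/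
theorem omegaSub_surjective (A : ValuationSubring Kb) (hA : (p : Kb) ∈ A.nonunits) :
    Function.Surjective (omegaSub p (A.inertiaSubgroupIn ℚ)) := by
  have hp : p.Prime := Fact.out
  have : NeZero p := ⟨hp.ne_zero⟩
  intro u
  obtain ⟨ζ, hζ⟩ := exists_primitiveRoot p
  have hk : ¬ p ∣ rep u := by
    intro h
    have h1 : (0 : ℕ) < rep u := by
      have : Fact (1 < p) := ⟨hp.one_lt⟩
      exact rep_pos u
    exact absurd (Nat.le_of_dvd h1 h) (not_le.mpr (rep_lt u))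
  obtain ⟨σ, hσ, hσζ⟩ := exists_mem_inertia_apply_zeta A hp hA hζ hk
  refine ⟨⟨σ, hσ⟩, Units.ext ?_⟩
  rw [omegaSub_apply]
  show ((cyc p σ : (ZMod p)ˣ) : ZMod p) = (u : ZMod p)
  rw [(cyc_eq_natCast_iff hζ σ (rep u)).mpr hσζ]
  unfold rep
  exact ZMod.natCast_zmod_val _

/-- `x ^ p = 1` in the Kummer group. -/
theorem kum_pow_eq_one (x : Kum Kb (FK N) p) : x ^ p = 1 := by
  have h := nsmul_eq_zero (K := Kb) (F := FK N) (p := p) (Additive.ofMul x)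
  exact Additive.ofMul.injective (by rw [ofMul_pow, h]; rfl)

/-- **the `ω`-projection of a GIVEN `I'`-fixed representative** `g` (e.g. the normalised
`g / A₁` of GF-ASFORM), with transport of any property stable under `I_A`, products and inverses
(a subgroup `S` of `F_Nˣ`, e.g. "`≡ 1` modulo `ϖ ^ p` for the first Gauss valuation"). -/
theorem exists_g0_of_rep (A : ValuationSubring Kb) (hA : (p : Kb) ∈ A.nonunits)
    (g : pDivUnits Kb (FK N) p)
    (hgfix : ∀ σ ∈ A.inertiaSubgroupIn ℚ, cyc p σ = 1 →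
      galUnits N σ (g : (FK N)ˣ) = (g : (FK N)ˣ))
    (hact : ∀ σ ∈ A.inertiaSubgroupIn ℚ,
      gal N p σ (Additive.ofMul (Kum.mk g)) =
        ((cyc p σ : (ZMod p)ˣ) : ZMod p) • (Additive.ofMul (Kum.mk g) : Additive (Kum Kb (FK N) p)))
    (S : Subgroup (FK N)ˣ)
    (hS : ∀ σ ∈ A.inertiaSubgroupIn ℚ, ∀ u ∈ S, galUnits N σ u ∈ S)
    (hgS : (g : (FK N)ˣ) ∈ S) :
    ∃ g₀ : pDivUnits Kb (FK N) p,
      (Additive.ofMul (Kum.mk g₀) : Additive (Kum Kb (FK N) p)) = -Additive.ofMul (Kum.mk g) ∧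
      (g₀ : (FK N)ˣ) ∈ S ∧
      (∀ σ ∈ A.inertiaSubgroupIn ℚ, cyc p σ = 1 →
        galUnits N σ (g₀ : (FK N)ˣ) = (g₀ : (FK N)ˣ)) ∧
      ∀ σ ∈ A.inertiaSubgroupIn ℚ, ∃ h : (FK N)ˣ, h ∈ S ∧
        (∀ τ ∈ A.inertiaSubgroupIn ℚ, cyc p τ = 1 → galUnits N τ h = h) ∧
        galUnits N σ (g₀ : (FK N)ˣ) = (g₀ : (FK N)ˣ) ^ rep (cyc p σ) * h ^ p := by
  classical
  have hp : p.Prime := Fact.out
  have : NeZero p := ⟨hp.ne_zero⟩
  set I : Subgroup GQ := A.inertiaSubgroupIn ℚ with hI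
  letI := actSub N p I
  set ω := omegaSub p I with hω'
  have hω : Function.Surjective ω := omegaSub_surjective p A hA
  have hfix : ∀ γ : I, ω γ = 1 → γ • g = g := fun γ hγ =>
    Subtype.ext (hgfix (γ : GQ) γ.2 hγ)
  -- the class condition
  have hc : ∀ τ : I, (Kum.mk (τ • g) : Kum Kb (FK N) p) = Kum.mk g ^ rep (ω τ) := by
    intro τ
    have h1 := hact (τ : GQ) τ.2
    rw [gal_mk] at h1
    have h2 : ((cyc p (τ : GQ) : (ZMod p)ˣ) : ZMod p) •
        (Additive.ofMul (Kum.mk g) : Additive (Kum Kb (FK N) p)) =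
        Additive.ofMul (Kum.mk g ^ rep (ω τ)) := by
      conv_lhs => rw [← ZMod.natCast_zmod_val ((cyc p (τ : GQ) : (ZMod p)ˣ) : ZMod p)]
      rw [Nat.cast_smul_eq_nsmul, ← ofMul_pow]
      rfl
    rw [h2] at h1
    exact Additive.ofMul.injective h1
  -- the conjugates lie in `S`
  have hconjS : ∀ u : (ZMod p)ˣ, ((conjK ω hω g u : pDivUnits Kb (FK N) p) : (FK N)ˣ) ∈ S :=
    fun u => hS _ (Function.surjInv hω u).2 _ hgS
  have hprodS : ∀ e : (ZMod p)ˣ → ℕ,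
      ((∏ u, conjK ω hω g u ^ e u : pDivUnits Kb (FK N) p) : (FK N)ˣ) ∈ S := by
    intro e
    rw [SubmonoidClass.coe_finsetProd]
    refine Subgroup.prod_mem _ fun u _ => ?_
    rw [Subgroup.coe_pow]
    exact Subgroup.pow_mem _ (hconjS u) _
  refine ⟨projK ω hω g, ?_, hprodS _, ?_, ?_⟩
  · have h3 := map_projK_class ω hω (kum_pow_eq_one N p) Kum.mk hfix (Kum.mk g) hc
    rw [h3]
    rfl
  · intro σ hσ h1
    have h4 := smul_projK_of_ker ω hω hfix ⟨σ, hσ⟩ h1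
    have h5 := congrArg (fun u : pDivUnits Kb (FK N) p => (u : (FK N)ˣ)) h4
    exact h5
  · intro σ hσ
    refine ⟨(((quoK ω hω g (ω ⟨σ, hσ⟩))⁻¹ : pDivUnits Kb (FK N) p) : (FK N)ˣ), ?_, ?_, ?_⟩
    · rw [Subgroup.coe_inv]
      exact Subgroup.inv_mem _ (hprodS _)
    · intro τ hτ h1
      have h6 := smul_quoK_of_ker ω hω hfix (ω ⟨σ, hσ⟩) ⟨τ, hτ⟩ h1
      have h7 : (⟨τ, hτ⟩ : I) • (quoK ω hω g (ω ⟨σ, hσ⟩))⁻¹ = (quoK ω hω g (ω ⟨σ, hσ⟩))⁻¹ := by
        rw [smul_inv', h6]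
      exact congrArg (fun u : pDivUnits Kb (FK N) p => (u : (FK N)ˣ)) h7
    · have h8 := smul_projK ω hω hfix ⟨σ, hσ⟩
      have h9 : (((⟨σ, hσ⟩ : I) • projK ω hω g : pDivUnits Kb (FK N) p) : (FK N)ˣ) =
          ((projK ω hω g ^ rep (ω ⟨σ, hσ⟩) * (quoK ω hω g (ω ⟨σ, hσ⟩))⁻¹ ^ p :
            pDivUnits Kb (FK N) p) : (FK N)ˣ) := congrArg Subtype.val h8
      rw [Subgroup.coe_mul, Subgroup.coe_pow, Subgroup.coe_pow] at h9
      exact h9

/-- **the concrete `g₀`.** -/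
theorem exists_g0 (A : ValuationSubring Kb) (hA : (p : Kb) ∈ A.nonunits)
    (w₀ : Additive (Kum Kb (FK N) p))
    (hact : ∀ σ ∈ A.inertiaSubgroupIn ℚ,
      gal N p σ w₀ = ((cyc p σ : (ZMod p)ˣ) : ZMod p) • w₀) :
    ∃ g₀ : pDivUnits Kb (FK N) p,
      Additive.ofMul (Kum.mk g₀) = -w₀ ∧
      (∀ σ ∈ A.inertiaSubgroupIn ℚ, cyc p σ = 1 →
        galUnits N σ (g₀ : (FK N)ˣ) = (g₀ : (FK N)ˣ)) ∧
      ∀ σ ∈ A.inertiaSubgroupIn ℚ, ∃ h : (FK N)ˣ,
        (∀ τ ∈ A.inertiaSubgroupIn ℚ, cyc p τ = 1 → galUnits N τ h = h) ∧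
        galUnits N σ (g₀ : (FK N)ˣ) = (g₀ : (FK N)ˣ) ^ rep (cyc p σ) * h ^ p := by
  -- the `I'`-fixed representative of `w₀`
  have hx : ∀ σ ∈ {σ : GQ | σ ∈ A.inertiaSubgroupIn ℚ ∧ cyc p σ = 1}, gal N p σ w₀ = w₀ := by
    rintro σ ⟨hσ, h1⟩
    rw [hact σ hσ, h1, Units.val_one, one_smul]
  obtain ⟨g, hg, -, hgfix, -⟩ :=
    Fermat.Agent.GB.A.Descent.exists_fixed_rep N p
      {σ : GQ | σ ∈ A.inertiaSubgroupIn ℚ ∧ cyc p σ = 1} w₀ hx
  obtain ⟨g₀, hcl, -, hfix, hrel⟩ := exists_g0_of_rep N p A hA g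
    (fun σ hσ h1 => hgfix σ ⟨hσ, h1⟩) (by rw [hg]; exact hact) ⊤
    (fun _ _ _ _ => Subgroup.mem_top _) (Subgroup.mem_top _)
  refine ⟨g₀, by rw [hcl, hg], hfix, fun σ hσ => ?_⟩
  obtain ⟨h, -, hh, hr⟩ := hrel σ hσ
  exact ⟨h, hh, hr⟩

/-- `σ ζ = ζ ^ [ω σ]` in the `rep` spelling (the companion hypothesis of `commute_deck`). -/
theorem apply_zeta_eq_pow_rep {ζ : Kb} (hζ : IsPrimitiveRoot ζ p) (σ : GQ) :
    σ ζ = ζ ^ rep (cyc p σ) :=
  apply_eq_pow hζ σ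

/-- **the concrete `g₀`, field form**: the same with the coefficientwise ring automorphisms
`arithmeticRingAut (modularFunctionFieldFull N) σ` of `F_N` — for `σ ∈ I_A`:
`σ g₀ = g₀ ^ [ω σ] * h ^ p`, `h ≠ 0` fixed by `I' = I_A ∩ ker ω`. -/
theorem exists_g0_field (A : ValuationSubring Kb) (hA : (p : Kb) ∈ A.nonunits)
    (w₀ : Additive (Kum Kb (FK N) p))
    (hact : ∀ σ ∈ A.inertiaSubgroupIn ℚ,
      gal N p σ w₀ = ((cyc p σ : (ZMod p)ˣ) : ZMod p) • w₀) :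
    ∃ g₀ : pDivUnits Kb (FK N) p,
      Additive.ofMul (Kum.mk g₀) = -w₀ ∧
      (∀ σ ∈ A.inertiaSubgroupIn ℚ, cyc p σ = 1 →
        arithmeticRingAut (modularFunctionFieldFull N) σ ((g₀ : (FK N)ˣ) : FK N) =
          ((g₀ : (FK N)ˣ) : FK N)) ∧
      ∀ σ ∈ A.inertiaSubgroupIn ℚ, ∃ h : FK N, h ≠ 0 ∧
        (∀ τ ∈ A.inertiaSubgroupIn ℚ, cyc p τ = 1 →
          arithmeticRingAut (modularFunctionFieldFull N) τ h = h) ∧
        arithmeticRingAut (modularFunctionFieldFull N) σ ((g₀ : (FK N)ˣ) : FK N) =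
          ((g₀ : (FK N)ˣ) : FK N) ^ rep (cyc p σ) * h ^ p := by
  obtain ⟨g₀, hcl, hfix, hσ⟩ := exists_g0 N p A hA w₀ hact
  refine ⟨g₀, hcl, fun σ hσI h1 => ?_, fun σ hσI => ?_⟩
  · have h := congrArg (fun u : (FK N)ˣ => (u : FK N)) (hfix σ hσI h1)
    exact h
  · obtain ⟨h, hh, hrel⟩ := hσ σ hσI
    refine ⟨(h : FK N), h.ne_zero, fun τ hτ h1 => ?_, ?_⟩
    · exact congrArg (fun u : (FK N)ˣ => (u : FK N)) (hh τ hτ h1)
    · have h2 := congrArg (fun u : (FK N)ˣ => (u : FK N)) hrel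
      simpa only [coe_galUnits, Units.val_mul, Units.val_pow_eq_pow_val] using h2

end Fermat.Agent.GF.F2Asm.G0Inst
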