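/-
GATE-F (S44/S40) / node GF-F2-ASM, file 10 (helper31): **the tame Kummer datum exists**
(binder `T` of `Y0.econst_Y0`, with `a = −1` and `lc_q = 1`).

From helper2's `G0Inst.exists_g0_field` (the `ω`-projection of the `I'`-fixed representative of
`w₀`): a `p`-divisible unit `g₀` with `[g₀] = −w₀`, fixed coefficientwise by `I' = I_A ∩ Stab ζ`.
Its leading `q`-coefficient `c` is `I'`-fixed and a `p`-th power `d ^ p` in `ℚ̄`, so
`g₁ = g₀ · d ^ (−p)` has the same class, is `I'`-fixed and has `lc_q = 1`.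

* `exists_tameDatum` : `∃ T : TameDatum N p A ζ, [T.g] = (−1) • w₀ ∧ lc_q (T.g) = 1`;
* `exists_tameDatum_of_lineData` : the same for `w₀ := D.w₀` of a `LineData` (SHAPE), i.e. the
  binders `T a ha hg hlc` of `Y0.econst_Y0` / `NRAsm.econst_Y0_of_nodes` with `a = −1`.
-/
import Fermat.Agent.GF.F2Asm.G0Inst
import Fermat.Agent.GF.F2Asm.InstPlace
import Fermat.Agent.GF.Shape.Sub

set_option autoImplicit false
set_option linter.unusedSectionVars false

noncomputable section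

namespace Fermat.Agent.GF.F2Asm.TameInst

open AlgebraicCurve ModularCurve
open Fermat.Agent.GJ Fermat.Agent.GJ.KumGroup Fermat.Agent.GJ.Kum.KumType Fermat.Agent.S24
open Fermat.Agent.GJ.CycChar Fermat.Agent.GF.Peu Fermat.Agent.GF.Shape.Sub
open Fermat.Agent.GF.KCover Fermat.Agent.GF.F2Asm.Inst Fermat.Agent.GF.KumDesc

local notation "GQ" => (AlgebraicClosure ℚ ≃ₐ[ℚ] AlgebraicClosure ℚ)

variable {N : ℕ} [NeZero N] {p : ℕ} [hpF : Fact p.Prime] {A : ValuationSubring Kb} {ζ : Kb}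

/-- **the tame Kummer datum of the line `𝔽_p w₀`.** -/
theorem exists_tameDatum (hA : (p : Kb) ∈ A.nonunits) (hζ : IsPrimitiveRoot ζ p)
    (w₀ : Additive (Kum Kb (FK N) p)) (hw₀ : w₀ ≠ 0)
    (hact : ∀ σ ∈ A.inertiaSubgroupIn ℚ,
      gal N p σ w₀ = ((cyc p σ : (ZMod p)ˣ) : ZMod p) • w₀) :
    ∃ T : TameDatum N p A ζ,
      (Additive.ofMul (Kum.mk T.g) : Additive (Kum Kb (FK N) p)) = (-1 : ZMod p) • w₀ ∧
      (qEmb N T.g₀).leadingCoeff = 1 := by
  have hp := hpF.out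
  obtain ⟨g₀, hcl, hfix, -⟩ := G0Inst.exists_g0_field N p A hA w₀ hact
  -- the leading coefficient and its `p`-th root
  set c : Kb := Laurent.lcHom (qEmb N) (((g₀ : (FK N)ˣ) : FK N)) with hc
  have hc0 : c ≠ 0 := by
    rw [hc, Laurent.lcHom_apply]
    exact HahnSeries.leadingCoeff_ne_zero.2
      ((map_ne_zero_iff _ (qEmb N).toRingHom.injective).mpr (g₀ : (FK N)ˣ).ne_zero)
  obtain ⟨d, hd⟩ := IsAlgClosed.exists_pow_nat_eq c hp.pos
  have hd0 : d ≠ 0 := by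
    rintro rfl
    rw [zero_pow hp.ne_zero] at hd
    exact hc0 hd.symm
  have hdF : algebraMap Kb (FK N) d ≠ 0 :=
    (map_ne_zero_iff _ (algebraMap Kb (FK N)).injective).mpr hd0
  set dU : (FK N)ˣ := Units.mk0 _ hdF with hdU
  set g₁ : pDivUnits Kb (FK N) p := g₀ * ⟨dU⁻¹ ^ p, pow_mem_pDivUnits Kb (FK N) p _⟩ with hg₁
  have hcoe : (((g₁ : (FK N)ˣ) : FK N)) =
      (((g₀ : (FK N)ˣ) : FK N)) * (algebraMap Kb (FK N) c)⁻¹ := by
    rw [hg₁, Subgroup.coe_mul, Units.val_mul, Subgroup.coe_mk, Units.val_pow_eq_pow_val,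
      Units.val_inv_eq_inv_val, hdU, Units.val_mk0, inv_pow, ← map_pow, hd]
  have hmk : (Kum.mk g₁ : Kum Kb (FK N) p) = Kum.mk g₀ :=
    (Kum.mk_eq_mk_iff.mpr ⟨dU⁻¹, by rw [hg₁]; rfl⟩).symm
  have hclass : (Additive.ofMul (Kum.mk g₁) : Additive (Kum Kb (FK N) p)) = (-1 : ZMod p) • w₀ := by
    rw [hmk, hcl, neg_smul, one_smul]
  have hne : (Additive.ofMul (Kum.mk g₁) : Additive (Kum Kb (FK N) p)) ≠ 0 := by
    rw [hclass, neg_smul, one_smul]
    exact neg_ne_zero.mpr hw₀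
  -- `I'`-fixedness
  have hfix₁ : ∀ ρ : GQ, IsTameFix A ζ ρ →
      arithmeticGalois (modularFunctionFieldFull N) ρ • (((g₁ : (FK N)ˣ) : FK N)) =
        ((g₁ : (FK N)ˣ) : FK N) := by
    intro ρ hρ
    have h1 : arithmeticGalois (modularFunctionFieldFull N) ρ • (((g₀ : (FK N)ˣ) : FK N)) =
        ((g₀ : (FK N)ˣ) : FK N) := hfix ρ hρ.1 ((cyc_eq_one_iff hζ ρ).mpr hρ.2)
    have h2 : ρ c = c := by
      have h3 := Fermat.Agent.GJ.Desc.leadingCoeff_arithmeticGalois_smul Kb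
        (modularFunctionFieldFull N) ρ (((g₀ : (FK N)ˣ) : FK N))
      rw [h1] at h3
      exact h3.symm
    rw [hcoe, smul_mul', smul_inv'', h1, SemilinearAut.smul_algebraMap]
    congr 3
  refine ⟨TameDatum.ofClassNeZero g₁ hζ hfix₁ hne, hclass, ?_⟩
  -- the leading coefficient
  show (qEmb N (((g₁ : (FK N)ˣ) : FK N))).leadingCoeff = 1
  rw [← Laurent.lcHom_apply, hcoe, map_mul, map_inv₀, Laurent.lcHom_algebraMap, ← hc,
    mul_inv_cancel₀ hc0]

/-- **the tame Kummer datum of the SHAPE line**: the binders `T a ha hg hlc` of `Y0.econst_Y0`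
(`a = −1`). -/
theorem exists_tameDatum_of_lineData (hA : (p : Kb) ∈ A.nonunits) (hζ : IsPrimitiveRoot ζ p)
    {Y₀ : Submodule (ZMod p) (Additive (Kum Kb (FK N) p))}
    {M₀ : AddSubgroup (Additive (Kum Kb (FK N) p))}
    (D : LineData (gal N p) (A.inertiaSubgroupIn ℚ) Y₀ M₀
      (fun σ => ((cyc p σ : (ZMod p)ˣ) : ZMod p))) :
    ∃ T : TameDatum N p A ζ, (-1 : ZMod p) ≠ 0 ∧
      (Additive.ofMul (Kum.mk T.g) : Additive (Kum Kb (FK N) p)) = (-1 : ZMod p) • D.w₀ ∧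
      (qEmb N T.g₀).leadingCoeff = 1 := by
  obtain ⟨T, h1, h2⟩ := exists_tameDatum (ζ := ζ) hA hζ D.w₀ D.ne_zero D.act
  exact ⟨T, neg_ne_zero.mpr one_ne_zero, h1, h2⟩

end Fermat.Agent.GF.F2Asm.TameInst
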