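/-
GATE-F (S44/S40) / node GF-F2-ASM, file 11 (helper31): **the tame Kummer datum with its `I_A`-lift
relation** — `TameInst.exists_tameDatum` strengthened by the third clause of helper2's
`G0Inst.exists_g0_field`, which SURVIVES the normalisation `lc_q = 1`:

  `∀ σ ∈ I_A, ∃ h ≠ 0 fixed by I', σ (T.g) = T.g ^ [ω σ] * h ^ p`   (EXACTLY, no constant)

(= the hypothesis `hσ` of `GF/KCover/Field/Lift.exists_root_form` / `commute_deck`, needed by the
FIELD-MOD constructor of `T.WData`).  Proof: with `c = lc_q(g₀)`, `e = lc_q(h)` the relation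
`σ g₀ = g₀ ^ k h ^ p` gives `σ c = c ^ k e ^ p`, so `g₁ = g₀ / c`, `h₁ = h / e` satisfy
`σ g₁ = g₁ ^ k h₁ ^ p`, and `e` is `I'`-fixed because `h` is.
-/
import Fermat.Agent.GF.F2Asm.TameInst

set_option autoImplicit false
set_option linter.unusedSectionVars false

noncomputable section

namespace Fermat.Agent.GF.F2Asm.TameSigma

open AlgebraicCurve ModularCurve
open Fermat.Agent.GJ Fermat.Agent.GJ.KumGroup Fermat.Agent.GJ.Kum.KumType Fermat.Agent.S24
open Fermat.Agent.GJ.CycChar Fermat.Agent.GF.Peu Fermat.Agent.GF.Shape.Sub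
open Fermat.Agent.GF.KCover Fermat.Agent.GF.F2Asm.Inst Fermat.Agent.GF.KumDesc
open Fermat.Agent.GF.F2Asm.OmegaProj

local notation "GQ" => (AlgebraicClosure ℚ ≃ₐ[ℚ] AlgebraicClosure ℚ)

variable {N : ℕ} [NeZero N] {p : ℕ} [hpF : Fact p.Prime] {A : ValuationSubring Kb} {ζ : Kb}

/-- the leading `q`-coefficient is equivariant. -/
theorem lcHom_smul (σ : GQ) (y : FK N) :
    Laurent.lcHom (qEmb N) (arithmeticGalois (modularFunctionFieldFull N) σ • y) =
      σ (Laurent.lcHom (qEmb N) y) :=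
  Fermat.Agent.GJ.Desc.leadingCoeff_arithmeticGalois_smul Kb (modularFunctionFieldFull N) σ y

/-- dividing by the leading `q`-coefficient, as a monoid homomorphism. -/
def nrm (N : ℕ) [NeZero N] : FK N →* FK N where
  toFun y := y * (algebraMap Kb (FK N) (Laurent.lcHom (qEmb N) y))⁻¹
  map_one' := by rw [map_one, map_one, inv_one, mul_one]
  map_mul' y z := by
    rw [map_mul, map_mul, mul_inv]
    ring

theorem nrm_apply (y : FK N) :
    nrm N y = y * (algebraMap Kb (FK N) (Laurent.lcHom (qEmb N) y))⁻¹ := rfl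

theorem smul_nrm (σ : GQ) (y : FK N) :
    arithmeticGalois (modularFunctionFieldFull N) σ • nrm N y =
      nrm N (arithmeticGalois (modularFunctionFieldFull N) σ • y) := by
  rw [nrm_apply, nrm_apply, smul_mul', smul_inv'', SemilinearAut.smul_algebraMap, lcHom_smul]
  rfl

theorem nrm_ne_zero {y : FK N} (hy : y ≠ 0) : nrm N y ≠ 0 := by
  rw [nrm_apply]
  refine mul_ne_zero hy (inv_ne_zero ((map_ne_zero_iff _ (algebraMap Kb (FK N)).injective).mpr ?_))
  rw [Laurent.lcHom_apply]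
  exact HahnSeries.leadingCoeff_ne_zero.2
    ((map_ne_zero_iff _ (qEmb N).toRingHom.injective).mpr hy)

theorem lc_nrm {y : FK N} (hy : y ≠ 0) : (qEmb N (nrm N y)).leadingCoeff = 1 := by
  have h0 : Laurent.lcHom (qEmb N) y ≠ 0 := by
    rw [Laurent.lcHom_apply]
    exact HahnSeries.leadingCoeff_ne_zero.2
      ((map_ne_zero_iff _ (qEmb N).toRingHom.injective).mpr hy)
  rw [← Laurent.lcHom_apply, nrm_apply, map_mul, map_inv₀, Laurent.lcHom_algebraMap,
    mul_inv_cancel₀ h0]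

/-- fixed functions have fixed normalisations. -/
theorem smul_nrm_of_fixed {σ : GQ} {y : FK N}
    (h : arithmeticGalois (modularFunctionFieldFull N) σ • y = y) :
    arithmeticGalois (modularFunctionFieldFull N) σ • nrm N y = nrm N y := by
  rw [smul_nrm, h]

/-- **the lift relation survives the normalisation.** -/
theorem smul_nrm_rel {σ : GQ} {y h : FK N} {k : ℕ}
    (hrel : arithmeticGalois (modularFunctionFieldFull N) σ • y = y ^ k * h ^ p) :
    arithmeticGalois (modularFunctionFieldFull N) σ • nrm N y = nrm N y ^ k * nrm N h ^ p := by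
  rw [smul_nrm, hrel, map_mul, map_pow, map_pow]

/-- **the tame Kummer datum of the line `𝔽_p w₀`, with the `I_A`-lift relation.** -/
theorem exists_tameDatum_sigma (hA : (p : Kb) ∈ A.nonunits) (hζ : IsPrimitiveRoot ζ p)
    (w₀ : Additive (Kum Kb (FK N) p)) (hw₀ : w₀ ≠ 0)
    (hact : ∀ σ ∈ A.inertiaSubgroupIn ℚ,
      gal N p σ w₀ = ((cyc p σ : (ZMod p)ˣ) : ZMod p) • w₀) :
    ∃ T : TameDatum N p A ζ,
      (Additive.ofMul (Kum.mk T.g) : Additive (Kum Kb (FK N) p)) = (-1 : ZMod p) • w₀ ∧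
      (qEmb N T.g₀).leadingCoeff = 1 ∧
      ∀ σ ∈ A.inertiaSubgroupIn ℚ, ∃ h : FK N, h ≠ 0 ∧
        (∀ τ ∈ A.inertiaSubgroupIn ℚ, cyc p τ = 1 →
          arithmeticRingAut (modularFunctionFieldFull N) τ h = h) ∧
        arithmeticRingAut (modularFunctionFieldFull N) σ T.g₀ =
          T.g₀ ^ rep (cyc p σ) * h ^ p := by
  have hp := hpF.out
  obtain ⟨g₀, hcl, hfix, hσ⟩ := G0Inst.exists_g0_field N p A hA w₀ hact
  -- the leading coefficient and its `p`-th root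
  obtain ⟨d, hd⟩ := IsAlgClosed.exists_pow_nat_eq
    (Laurent.lcHom (qEmb N) (((g₀ : (FK N)ˣ) : FK N))) hp.pos
  have hc0 : Laurent.lcHom (qEmb N) (((g₀ : (FK N)ˣ) : FK N)) ≠ 0 := by
    rw [Laurent.lcHom_apply]
    exact HahnSeries.leadingCoeff_ne_zero.2
      ((map_ne_zero_iff _ (qEmb N).toRingHom.injective).mpr (g₀ : (FK N)ˣ).ne_zero)
  have hd0 : d ≠ 0 := by
    rintro rfl
    rw [zero_pow hp.ne_zero] at hd
    exact hc0 hd.symm
  have hdF : algebraMap Kb (FK N) d ≠ 0 :=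
    (map_ne_zero_iff _ (algebraMap Kb (FK N)).injective).mpr hd0
  obtain ⟨g₁, hg₁, hcoe⟩ : ∃ g₁ : pDivUnits Kb (FK N) p,
      (Kum.mk g₁ : Kum Kb (FK N) p) = Kum.mk g₀ ∧
      (((g₁ : (FK N)ˣ) : FK N)) = nrm N (((g₀ : (FK N)ˣ) : FK N)) := by
    refine ⟨g₀ * ⟨(Units.mk0 _ hdF)⁻¹ ^ p, pow_mem_pDivUnits Kb (FK N) p _⟩,
      (Kum.mk_eq_mk_iff.mpr ⟨(Units.mk0 _ hdF)⁻¹, rfl⟩).symm, ?_⟩
    rw [nrm_apply, Subgroup.coe_mul, Units.val_mul, Subgroup.coe_mk, Units.val_pow_eq_pow_val,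
      Units.val_inv_eq_inv_val, Units.val_mk0, inv_pow, ← map_pow, hd]
  have hclass : (Additive.ofMul (Kum.mk g₁) : Additive (Kum Kb (FK N) p)) = (-1 : ZMod p) • w₀ := by
    rw [hg₁, hcl, neg_smul, one_smul]
  have hne : (Additive.ofMul (Kum.mk g₁) : Additive (Kum Kb (FK N) p)) ≠ 0 := by
    rw [hclass, neg_smul, one_smul]
    exact neg_ne_zero.mpr hw₀
  -- `I'`-fixedness
  have hfix₁ : ∀ ρ : GQ, IsTameFix A ζ ρ →
      arithmeticGalois (modularFunctionFieldFull N) ρ • (((g₁ : (FK N)ˣ) : FK N)) =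
        ((g₁ : (FK N)ˣ) : FK N) := by
    intro ρ hρ
    rw [hcoe]
    exact smul_nrm_of_fixed (hfix ρ hρ.1 ((cyc_eq_one_iff hζ ρ).mpr hρ.2))
  refine ⟨TameDatum.ofClassNeZero g₁ hζ hfix₁ hne, hclass, ?_, ?_⟩
  · -- the leading coefficient
    show (qEmb N (((g₁ : (FK N)ˣ) : FK N))).leadingCoeff = 1
    rw [hcoe]
    exact lc_nrm (g₀ : (FK N)ˣ).ne_zero
  · -- the `I_A`-lift relation
    intro σ hσI
    obtain ⟨h, hh0, hhfix, hrel⟩ := hσ σ hσI
    refine ⟨nrm N h, nrm_ne_zero hh0, fun τ hτ h1 => smul_nrm_of_fixed (hhfix τ hτ h1), ?_⟩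
    show arithmeticGalois (modularFunctionFieldFull N) σ • (((g₁ : (FK N)ˣ) : FK N)) =
      ((g₁ : (FK N)ˣ) : FK N) ^ rep (cyc p σ) * nrm N h ^ p
    rw [hcoe]
    exact smul_nrm_rel hrel

/-- the same for the SHAPE line `w₀ := D.w₀`. -/
theorem exists_tameDatum_sigma_of_lineData (hA : (p : Kb) ∈ A.nonunits)
    (hζ : IsPrimitiveRoot ζ p)
    {Y₀ : Submodule (ZMod p) (Additive (Kum Kb (FK N) p))}
    {M₀ : AddSubgroup (Additive (Kum Kb (FK N) p))}
    (D : LineData (gal N p) (A.inertiaSubgroupIn ℚ) Y₀ M₀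
      (fun σ => ((cyc p σ : (ZMod p)ˣ) : ZMod p))) :
    ∃ T : TameDatum N p A ζ, (-1 : ZMod p) ≠ 0 ∧
      (Additive.ofMul (Kum.mk T.g) : Additive (Kum Kb (FK N) p)) = (-1 : ZMod p) • D.w₀ ∧
      (qEmb N T.g₀).leadingCoeff = 1 ∧
      ∀ σ ∈ A.inertiaSubgroupIn ℚ, ∃ h : FK N, h ≠ 0 ∧
        (∀ τ ∈ A.inertiaSubgroupIn ℚ, cyc p τ = 1 →
          arithmeticRingAut (modularFunctionFieldFull N) τ h = h) ∧
        arithmeticRingAut (modularFunctionFieldFull N) σ T.g₀ =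
          T.g₀ ^ rep (cyc p σ) * h ^ p := by
  obtain ⟨T, h1, h2, h3⟩ := exists_tameDatum_sigma (ζ := ζ) hA hζ D.w₀ D.ne_zero D.act
  exact ⟨T, neg_ne_zero.mpr one_ne_zero, h1, h2, h3⟩

end Fermat.Agent.GF.F2Asm.TameSigma
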