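/-
GATE-F (S44/S40) / node GF-F2-ASM, file 12 (helper31): **the `K'`-rational representative of the
Kummer class is unique up to `p`-th powers of `K'`-RATIONAL functions** (seam lemma TameDatum ↔
GF-ASFORM / chart representatives).

`T` a tame Kummer datum with `lc_q(T.g) = 1`; `g'` another `p`-divisible unit with the same class,
fixed by `I' = tameGroup A ζ` and with `lc_q(g') = 1` (e.g. the chart representative of
GF-ASFORM (a), normalised by `TameSigma.nrm`).  Then `g' = T.g · h ^ p` with `h` FIXED by `I'`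
(so `G · h ∈ T.Fp` is an `I'`-fixed `p`-th root of `g'`: the two `K'`-forms of the cover coincide).

Proof: `g' = T.g · w ^ p` in `F_{ℚ̄}`; `lc(w) ^ p = 1` so `lc(w) ∈ ⟨ζ⟩` is `I'`-fixed; for `ρ ∈ I'`,
`(ρ w) ^ p = w ^ p` and `lc(ρ w) = lc(w)`, hence `ρ w = w` by uniqueness of `p`-th roots in
`ℚ̄((q))` with given leading coefficient (`KumDesc/LaurentRoot.root_unique`).
-/
import Fermat.Agent.GF.F2Asm.TameSigma

set_option autoImplicit false
set_option linter.unusedSectionVars false

noncomputable section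

namespace Fermat.Agent.GF.F2Asm.RepUnique

open AlgebraicCurve ModularCurve
open Fermat.Agent.GJ Fermat.Agent.GJ.KumGroup Fermat.Agent.GJ.Kum.KumType Fermat.Agent.S24
open Fermat.Agent.GF.Peu Fermat.Agent.GF.F2Asm.Inst Fermat.Agent.GF.KumDesc
open Fermat.Agent.GF.F2Asm.TameSigma

local notation "GQ" => (AlgebraicClosure ℚ ≃ₐ[ℚ] AlgebraicClosure ℚ)

variable {N : ℕ} [NeZero N] {p : ℕ} [hpF : Fact p.Prime] {A : ValuationSubring Kb} {ζ : Kb}

/-- a function whose `p`-th power is fixed by `ρ` and whose leading coefficient is fixed by `ρ` is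
fixed by `ρ`. -/
theorem smul_eq_of_pow (ρ : GQ) {h : FK N} (hh0 : h ≠ 0)
    (hpow : (arithmeticGalois (modularFunctionFieldFull N) ρ • h) ^ p = h ^ p)
    (hlc : ρ (Laurent.lcHom (qEmb N) h) = Laurent.lcHom (qEmb N) h) :
    arithmeticGalois (modularFunctionFieldFull N) ρ • h = h := by
  have hp : ((p : ℕ) : Kb) ≠ 0 := Nat.cast_ne_zero.mpr hpF.out.ne_zero
  apply (qEmb N).toRingHom.injective
  refine LaurentRoot.root_unique hp
    ((map_ne_zero_iff _ (qEmb N).toRingHom.injective).mpr hh0) ?_ ?_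
  · show qEmb N _ ^ p = qEmb N _ ^ p
    rw [← map_pow, ← map_pow, hpow]
  · have := lcHom_smul (N := N) ρ h
    rw [Laurent.lcHom_apply, Laurent.lcHom_apply] at this
    rw [Laurent.lcHom_apply] at hlc
    exact this.trans hlc

/-- **uniqueness of the normalised `K'`-rational representative.** -/
theorem rep_unique (T : TameDatum N p A ζ) (hlc : (qEmb N T.g₀).leadingCoeff = 1)
    (g' : pDivUnits Kb (FK N) p)
    (hcl : (Additive.ofMul (Kum.mk g') : Additive (Kum Kb (FK N) p)) =
      Additive.ofMul (Kum.mk T.g))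
    (hfix' : ∀ ρ : GQ, IsTameFix A ζ ρ →
      arithmeticGalois (modularFunctionFieldFull N) ρ • (((g' : (FK N)ˣ) : FK N)) =
        ((g' : (FK N)ˣ) : FK N))
    (hlc' : (qEmb N (((g' : (FK N)ˣ) : FK N))).leadingCoeff = 1) :
    ∃ h : FK N, h ≠ 0 ∧
      (∀ ρ : GQ, IsTameFix A ζ ρ → arithmeticGalois (modularFunctionFieldFull N) ρ • h = h) ∧
      (((g' : (FK N)ˣ) : FK N)) = T.g₀ * h ^ p := by
  have hp := hpF.out
  obtain ⟨w, hw⟩ := Kum.mk_eq_mk_iff.mp (Additive.ofMul.injective hcl).symm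
  have hrel : (((g' : (FK N)ˣ) : FK N)) = T.g₀ * ((w : (FK N)ˣ) : FK N) ^ p := by
    have := congrArg (fun u : (FK N)ˣ => (u : FK N)) hw
    simp only [Units.val_mul, Units.val_pow_eq_pow_val] at this
    exact this
  -- the leading coefficient of `w` is a `p`-th root of unity, hence a power of `ζ`
  have hε : Laurent.lcHom (qEmb N) ((w : (FK N)ˣ) : FK N) ^ p = 1 := by
    have h1 := congrArg (Laurent.lcHom (qEmb N)) hrel
    rw [map_mul, map_pow, Laurent.lcHom_apply, Laurent.lcHom_apply, hlc', hlc, one_mul] at h1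
    rw [Laurent.lcHom_apply]
    exact h1.symm
  obtain ⟨i, -, hi⟩ := T.prim.eq_pow_of_pow_eq_one hε
  refine ⟨((w : (FK N)ˣ) : FK N), w.ne_zero, fun ρ hρ => ?_, hrel⟩
  refine smul_eq_of_pow (p := p) ρ w.ne_zero ?_ ?_
  · have h1 := congrArg (fun y => arithmeticGalois (modularFunctionFieldFull N) ρ • y) hrel
    simp only [smul_mul', smul_pow'] at h1
    rw [hfix' ρ hρ, show arithmeticGalois (modularFunctionFieldFull N) ρ • T.g₀ = T.g₀ from
      T.fix ρ hρ, hrel] at h1
    exact (mul_left_cancel₀ T.g₀_ne_zero h1).symm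
  · rw [← hi, map_pow, hρ.2]

end Fermat.Agent.GF.F2Asm.RepUnique
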