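/-
GATE-F (S44) / node GF-F2-ASM, leaf GF-F2-ETAUNIT (helper96; named by helper31, board 6558):
**the η-quotient `θ = Δ(z)/Δ(pz)` as a `K'`-rational unit of the cover, with its three values
`(w₁, w₂, n)(θ) = (0, 12 (p − 1), ord_{P s} red₁ θ)`** — the `θ`-binders of
`NRAsm.econst_Y0_of_nodes` / `NodeRel.nodeRel_one`.

* `ofFixed T y hy hfix : fixedUnits (tameGroup A ζ) T.Fp` — a nonzero `I'`-fixed function of
  `F_N` as a `K'`-rational unit of the cover (`coe_ofFixed`, `ofFixed_mul`);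
* `constUnit T c hc hfix` — a nonzero `I'`-fixed constant; `natUnit T n hn`;
* `smul_etaQ` : `etaQ N d hd` is fixed by EVERY `ρ ∈ G_ℚ`; `etaUnit T hd := ofFixed T (etaQ N p hd)`;
* `nodeOrd_ofFixed`, **`nodeOrd_etaUnit`** (`hθn`) : the node order upstairs of a function coming
  from downstairs is the node order downstairs (helper42 `ordRed_algebraMap_eq`);
* **`w₁_etaUnit`** (`hθ1`), **`w₂_etaUnit`** (`hθ2`, `= 12 (p − 1)`) in HYPOTHESIS form over
  `hbase₁`, `hbase₂` : "`w_i k` vanishes on the image of an `I'`-fixed Gauss unit of `F_N`"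
  (discharged for helper3's `WDataOf.wData` in `EtaUnitW.lean`).
-/
import Fermat.Agent.GF.F2Asm.NRAsm
import Fermat.Agent.GL.Eta.Gauss
import Fermat.Agent.GF.KCover.Node.OrdRedExt

set_option autoImplicit false
set_option linter.unusedSectionVars false

noncomputable section

namespace Fermat.Agent.GF.F2Asm.EtaUnit

open AlgebraicCurve ModularCurve
open Fermat.Agent.GJ Fermat.Agent.GJ.KumGroup Fermat.Agent.GJ.Kum.KumType Fermat.Agent.S24
open Fermat.Agent.GJ.J1 Fermat.Agent.GJ.J1.Val Fermat.Agent.GK.AL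
open Fermat.Agent.GF.Peu Fermat.Agent.GF.Trop
open Fermat.Agent.GF.KCover Fermat.Agent.GF.F2Asm.Inst Fermat.Agent.GF.F2Asm.NRAsm
open Fermat.Agent.GF.KCover.Node.OrdRedExt Fermat.Agent.GL.Eta

local notation "GQ" => (AlgebraicClosure ℚ ≃ₐ[ℚ] AlgebraicClosure ℚ)

variable {N : ℕ} [NeZero N] {p : ℕ} [hpF : Fact p.Prime] {A : ValuationSubring Kb} {ζ : Kb}
  (T : TameDatum N p A ζ)

/-! ### `I'`-fixed functions and constants of `F_N` as `K'`-rational units of the cover -/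

/-- a nonzero `I'`-fixed function of `F_N` as a `K'`-rational unit of the cover. -/
def ofFixed (y : FK N) (hy : y ≠ 0)
    (hfix : ∀ ρ : tameGroup A ζ, arithmeticGalois (modularFunctionFieldFull N) ρ.1 • y = y) :
    fixedUnits (tameGroup A ζ) T.Fp :=
  ⟨Units.mk0 (algebraMap (FK N) T.Fp y)
    ((map_ne_zero_iff _ (algebraMap (FK N) T.Fp).injective).mpr hy), fun ρ => by
    rw [Units.val_mk0, T.smul_algebraMap, hfix ρ]⟩

theorem coe_ofFixed (y : FK N) (hy : y ≠ 0)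
    (hfix : ∀ ρ : tameGroup A ζ, arithmeticGalois (modularFunctionFieldFull N) ρ.1 • y = y) :
    (((ofFixed T y hy hfix : fixedUnits (tameGroup A ζ) T.Fp) : T.Fpˣ) : T.Fp) =
      algebraMap (FK N) T.Fp y := rfl

theorem ofFixed_mul (y z : FK N) (hy : y ≠ 0) (hz : z ≠ 0)
    (hfy : ∀ ρ : tameGroup A ζ, arithmeticGalois (modularFunctionFieldFull N) ρ.1 • y = y)
    (hfz : ∀ ρ : tameGroup A ζ, arithmeticGalois (modularFunctionFieldFull N) ρ.1 • z = z)
    (hyz : y * z ≠ 0)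
    (hfyz : ∀ ρ : tameGroup A ζ, arithmeticGalois (modularFunctionFieldFull N) ρ.1 • (y * z) =
      y * z) :
    ofFixed T (y * z) hyz hfyz = ofFixed T y hy hfy * ofFixed T z hz hfz := by
  apply Subtype.ext
  apply Units.ext
  rw [Subgroup.coe_mul, Units.val_mul, coe_ofFixed, coe_ofFixed, coe_ofFixed, map_mul]

/-- a nonzero `I'`-fixed constant as a `K'`-rational unit of the cover. -/
def constUnit (c : Kb) (hc : c ≠ 0) (hfix : ∀ ρ : tameGroup A ζ, ρ.1 c = c) :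
    fixedUnits (tameGroup A ζ) T.Fp :=
  ⟨Units.mk0 (algebraMap Kb T.Fp c)
    ((map_ne_zero_iff _ (algebraMap Kb T.Fp).injective).mpr hc), fun ρ => by
    rw [Units.val_mk0, T.smul_const, hfix ρ]⟩

theorem coe_constUnit (c : Kb) (hc : c ≠ 0) (hfix : ∀ ρ : tameGroup A ζ, ρ.1 c = c) :
    (((constUnit T c hc hfix : fixedUnits (tameGroup A ζ) T.Fp) : T.Fpˣ) : T.Fp) =
      algebraMap Kb T.Fp c := rfl

theorem constUnit_mem_C (c : Kb) (hc : c ≠ 0) (hfix : ∀ ρ : tameGroup A ζ, ρ.1 c = c) :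
    (((constUnit T c hc hfix : fixedUnits (tameGroup A ζ) T.Fp) : T.Fpˣ) : T.Fp) ∈ T.C :=
  T.mem_C.mpr ⟨c, rfl⟩

/-! ### the η-quotient is `G_ℚ`-fixed -/

/-- **`Δ(z)/Δ(dz)` has rational `q`-expansion: it is fixed by every `ρ ∈ G_ℚ`.** -/
theorem smul_etaQ (d : ℕ) [NeZero d] (hd : d ∣ N) (ρ : GQ) :
    arithmeticGalois (modularFunctionFieldFull N) ρ • (etaQ N d hd : FK N) = etaQ N d hd := by
  apply Subtype.ext
  rw [coe_arithmeticGalois_smul]
  show coeffMap (ρ : Kb →+* Kb) ((etaQ N d hd : FN N) : LaurentSeries Kbar) = _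
  rw [coe_etaQ]
  exact Fermat.Agent.S28.coeffMap_uInvS (ρ : Kb →+* Kb) d

theorem etaQ_ne_zero (d : ℕ) [NeZero d] (hd : d ∣ N) : (etaQ N d hd : FK N) ≠ 0 := by
  intro h0
  have h3 := coe_etaQ N d hd
  rw [show (etaQ N d hd : FN N) = 0 from h0, ZeroMemClass.coe_zero] at h3
  have h4 := Fermat.Agent.S28.uS_mul_uInvS (R := Kbar) d
  rw [← h3, mul_zero] at h4
  exact zero_ne_one h4

variable [NeZero p]

/-- **the η-quotient `Δ(z)/Δ(pz)` as a `K'`-rational unit of the cover.** -/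
def etaUnit (hd : p ∣ N) : fixedUnits (tameGroup A ζ) T.Fp :=
  ofFixed T (etaQ N p hd) (etaQ_ne_zero p hd) (fun ρ => smul_etaQ p hd ρ.1)

theorem coe_etaUnit (hd : p ∣ N) :
    (((etaUnit T hd : fixedUnits (tameGroup A ζ) T.Fp) : T.Fpˣ) : T.Fp) =
      algebraMap (FK N) T.Fp (etaQ N p hd) := rfl

/-! ### `hθn` : the node order -/

section NodeOrd

variable {k Ft : Type*} [Field k] [Field Ft] [Algebra k Ft]

/-- the node order upstairs of an `I'`-fixed function coming from downstairs. -/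
theorem nodeOrd_ofFixed (R : RedData Kb (FK N) k Ft) (hun : Unram R)
    (R' : RedData Kb T.Fp k Ft) (hun' : Unram R') (hext : RedExt R R') (Pl : Place k Ft)
    (y : FK N) (hy : y ≠ 0)
    (hfix : ∀ ρ : tameGroup A ζ, arithmeticGalois (modularFunctionFieldFull N) ρ.1 • y = y) :
    nodeOrd R' hun' Pl (fixedUnits (tameGroup A ζ) T.Fp) (ofFixed T y hy hfix) =
      ordRed R hun Pl y := by
  unfold nodeOrd
  rw [coe_ofFixed]
  exact ordRed_algebraMap_eq hext hun hun' Pl y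

/-- **`hθn`**: `n_{s,j}(θ) = ord_{P s} red₁ (etaQ)` DOWNSTAIRS, on every sheet. -/
theorem nodeOrd_etaUnit (R : RedData Kb (FK N) k Ft) (hun : Unram R)
    (R' : RedData Kb T.Fp k Ft) (hun' : Unram R') (hext : RedExt R R') (Pl : Place k Ft)
    (hd : p ∣ N) :
    nodeOrd R' hun' Pl (fixedUnits (tameGroup A ζ) T.Fp) (etaUnit T hd) =
      ordRed R hun Pl (etaQ N p hd) :=
  nodeOrd_ofFixed T R hun R' hun' hext Pl _ _ _

end NodeOrd

/-! ### `hθ1`, `hθ2` : the two Gauss values, in hypothesis form -/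

section Base

/-- **the base-change binder**: `w k` vanishes on the image of an `I'`-fixed unit of the valuation
ring `W` of `F_N` (`W = Rw₁`, `Rw₂`; for helper3's `WDataOf.wData` see `EtaUnitW.base_wOf`). -/
def Base (W : ValuationSubring (FK N)) (w : ZMod p → fixedUnits (tameGroup A ζ) T.Fp → ℤ) : Prop :=
  ∀ (k : ZMod p) (y : FK N) (hy : y ≠ 0)
    (hfix : ∀ ρ : tameGroup A ζ, arithmeticGalois (modularFunctionFieldFull N) ρ.1 • y = y),
    y ∈ W → y⁻¹ ∈ W → w k (ofFixed T y hy hfix) = 0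

variable (Wd : T.WData)

/-- **`hθ1`**: `w₁ k θ = 0` on every sheet. -/
theorem w₁_etaUnit (hd : p ∣ N) (hb : Base T (redDataBar N A).Rw Wd.w₁) (k : ZMod p) :
    Wd.w₁ k (etaUnit T hd) = 0 :=
  hb k _ _ _ (etaQ_mem_Rw1 N A p hd) (etaQ_inv_mem_Rw1 N A p hd)

theorem smul_eq_ringAut (ρ : GQ) (y : FK N) :
    arithmeticGalois (modularFunctionFieldFull N) ρ • y =
      arithmeticRingAut (modularFunctionFieldFull N) ρ y := rfl

/-- `v(p ^ 12) = v(1 − ζ) ^ (12 (p − 1))`. -/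
theorem valuation_p_pow_twelve (hζ : IsPrimitiveRoot ζ p) :
    A.valuation ((p : Kb) ^ 12) = A.valuation (1 - ζ) ^ ((12 * ((p : ℤ) - 1) : ℤ)) := by
  have hp := hpF.out
  have h1 := Fermat.Agent.GL.Local.InertiaField.valuation_one_sub_zeta_pow A hp hζ
  have h2 : (12 * ((p : ℤ) - 1) : ℤ) = (((p - 1) * 12 : ℕ) : ℤ) := by
    have : 1 ≤ p := hp.one_lt.le
    push_cast [Nat.cast_sub this]
    ring
  rw [map_pow, ← h1, h2, zpow_natCast, pow_mul]

include Wd in
/-- **`hθ2`**: `w₂ k θ = 12 (p − 1)` on every sheet (`θ = p¹² ·` a unit of the second Gauss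
valuation, `v(p) = v(1 − ζ)^(p − 1)`). -/
theorem w₂_etaUnit (h : ExactDvd p N) (hA : (p : Kb) ∈ A.nonunits)
    (hvK : ∀ (c : fixedUnits (tameGroup A ζ) T.Fp) (c₀ : Kb),
      ((c : T.Fpˣ) : T.Fp) = algebraMap Kb T.Fp c₀ →
        A.valuation c₀ = A.valuation (1 - ζ) ^ Wd.vK c)
    (hb : Base T (redData2 N A h).Rw Wd.w₂) (k : ZMod p) :
    Wd.w₂ k (etaUnit T h.dvd) = 12 * ((p : ℤ) - 1) := by
  have hp := hpF.out
  have hp0 : (p : FN N) ≠ 0 := Nat.cast_ne_zero.2 hp.ne_zero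
  have hpK : ((p : Kb) ^ 12) ≠ 0 := pow_ne_zero _ (Nat.cast_ne_zero.2 hp.ne_zero)
  set y : FK N := etaQ N p h.dvd / (p : FN N) ^ 12 with hy
  have hy0 : y ≠ 0 := div_ne_zero (etaQ_ne_zero p h.dvd) (pow_ne_zero _ hp0)
  have hyfix : ∀ ρ : tameGroup A ζ,
      arithmeticGalois (modularFunctionFieldFull N) ρ.1 • y = y := by
    intro ρ
    have h1 := smul_etaQ (N := N) p h.dvd ρ.1
    rw [smul_eq_ringAut] at h1 ⊢
    rw [hy, map_div₀, map_pow, map_natCast, h1]
  have hcfix : ∀ ρ : tameGroup A ζ, ρ.1 ((p : Kb) ^ 12) = (p : Kb) ^ 12 := fun ρ => by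
    rw [map_pow, map_natCast]
  have hsplit : etaUnit T h.dvd = ofFixed T y hy0 hyfix * constUnit T ((p : Kb) ^ 12) hpK hcfix := by
    have e1 : algebraMap Kb (FK N) ((p : Kb) ^ 12) = (p : FN N) ^ 12 := by
      rw [map_pow, map_natCast]
    have e2 : (etaQ N p h.dvd : FK N) = y * algebraMap Kb (FK N) ((p : Kb) ^ 12) := by
      rw [e1, hy, div_mul_cancel₀ _ (pow_ne_zero _ hp0)]
    have key : algebraMap (FK N) T.Fp (etaQ N p h.dvd) =
        algebraMap (FK N) T.Fp y * algebraMap Kb T.Fp ((p : Kb) ^ 12) := by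
      rw [IsScalarTower.algebraMap_apply Kb (FK N) T.Fp, ← map_mul, ← e2]
    exact Subtype.ext (Units.ext key)
  have hvKc : Wd.vK (constUnit T ((p : Kb) ^ 12) hpK hcfix) = 12 * ((p : ℤ) - 1) := by
    have h1 := hvK (constUnit T ((p : Kb) ^ 12) hpK hcfix) _ (coe_constUnit T _ hpK hcfix)
    rw [valuation_p_pow_twelve T.prim] at h1
    exact (Fermat.Agent.GF.F2Asm.PeuBridge.zpow_unique hA T.prim h1).symm
  rw [hsplit, Wd.w₂_mul, hb k y hy0 hyfix (etaQ_div_mem_Rw2 A h) (etaQ_div_inv_mem_Rw2 A h),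
    Wd.w₂_const k _ (constUnit_mem_C T _ hpK hcfix), hvKc, zero_add]

end Base

end Fermat.Agent.GF.F2Asm.EtaUnit
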