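/-
GATE-F (S44) / node GF-F2-ASM, leaf GF-F2-ETAUNIT, file 2 (helper96): **the base-change binder
`EtaUnit.Base` DISCHARGED for helper3's `WDataOf.wOf` / `WDataOf.wData`**, hence
`(w₁, w₂)(θ) = (0, 12 (p − 1))` for `θ = etaUnit T` on the `WData` of GF-KCOVER-INST-FIELD-MOD.

* `wOf_ofFixed` : `wOf T hD hγ k (ofFixed T y …) = ordD hD ⟨y, _⟩` (the order of the restricted Gauss
  valuation, in `(1 − ζ)`-units) — `Pack.wv_algebraMap` through the Galois descent;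
* `base_wOf` : `Base T V.W (wOf T hD hγ)` for every `V : GalVal N A`;
* `w₁_etaUnit_wData`, `w₂_etaUnit_wData` : `hθ1`, `hθ2` of `NRAsm.econst_Y0_of_nodes` for
  `Wd := wData T hA hD₁ hD₂ hγ₁ hγ₂` with `V₁ = galVal1 N A`, `V₂ = galVal2 N A h`.
-/
import Fermat.Agent.GF.F2Asm.EtaUnit
import Fermat.Agent.GF.KCover.Field.WDataOf
import Fermat.Agent.GK.SS.GalValInst

set_option autoImplicit false
set_option linter.unusedSectionVars false

noncomputable section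

namespace Fermat.Agent.GF.F2Asm.EtaUnitW

open AlgebraicCurve ModularCurve Polynomial
open Fermat.Agent.GJ.KumGroup Fermat.Agent.GJ.Kum.KumType Fermat.Agent.GK.SS Fermat.Agent.S24
open Fermat.Agent.GJ.J1 Fermat.Agent.GJ.J1.Val Fermat.Agent.GK.AL
open Fermat.Agent.GF.F2Asm.KummerExt Fermat.Agent.GF.F2Asm.Inst Fermat.Agent.GF.KCover
open Fermat.Agent.GF.Peu Fermat.Agent.GF.F2Asm.PeuBridge
open Fermat.Agent.GF.KCover.Field Fermat.Agent.GF.KCover.Field.Disc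
open Fermat.Agent.GF.KCover.Field.WDataOf Fermat.Agent.GF.F2Asm.EtaUnit

local notation "GQ" => (AlgebraicClosure ℚ ≃ₐ[ℚ] AlgebraicClosure ℚ)

variable {N : ℕ} [NeZero N] {p : ℕ} [hpF : Fact p.Prime] {A : ValuationSubring Kb} {ζ : Kb}
  (T : TameDatum N p A ζ)

attribute [local instance] actFK algE'

/-- an `I'`-fixed function as an element of `F₁ = F_N^Γ`. -/
def toF₁ (y : FK N)
    (hfix : ∀ ρ : tameGroup A ζ, arithmeticGalois (modularFunctionFieldFull N) ρ.1 • y = y) :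
    F₁ N A ζ := ⟨y, fun ρ => hfix ρ⟩

theorem toE'_ofFixed (y : FK N) (hy : y ≠ 0)
    (hfix : ∀ ρ : tameGroup A ζ, arithmeticGalois (modularFunctionFieldFull N) ρ.1 • y = y) :
    toE' T (ofFixed T y hy hfix) = algebraMap (F₁ N A ζ) (E' T) (toF₁ y hfix) :=
  Subtype.ext rfl

section WOf

variable {V : GalVal N A} (hD : IsDisc (valF₁ T V) (ϖ₁ T)) {γ : Pack.Lc hD}
  (hγ : γ ^ p = Pack.jc hD (g₁ T))

/-- **on the image of a `K'`-rational function of `F_N`, `w_k` is the order of the restricted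
Gauss valuation** (in `(1 − ζ)`-units). -/
theorem wOf_ofFixed (k : ZMod p) (y : FK N) (hy : y ≠ 0)
    (hfix : ∀ ρ : tameGroup A ζ, arithmeticGalois (modularFunctionFieldFull N) ρ.1 • y = y) :
    wOf T hD hγ k (ofFixed T y hy hfix) = ordD hD (toF₁ y hfix) := by
  unfold wOf
  rw [toE'_ofFixed]
  exact Pack.wv_algebraMap hD (isAdj' T) (ζ₁_prim T) hγ k
    (a := toF₁ y hfix) (fun h0 => hy (congrArg Subtype.val h0))

/-- **`EtaUnit.Base` for `wOf`.** -/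
theorem base_wOf : Base T V.W (wOf T hD hγ) := by
  intro k y hy hfix hm hmi
  rw [wOf_ofFixed]
  refine ordD_eq hD (fun h0 => hy (congrArg Subtype.val h0)) ?_
  rw [zpow_zero]
  show V.W.valuation y = 1
  apply le_antisymm
  · exact (V.W.valuation_le_one_iff y).2 hm
  · have h1 : V.W.valuation y⁻¹ ≤ 1 := (V.W.valuation_le_one_iff _).2 hmi
    rw [map_inv₀] at h1
    have h0 : V.W.valuation y ≠ 0 := (Valuation.ne_zero_iff _).2 hy
    exact (inv_le_one₀ (zero_lt_iff.2 h0)).1 h1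

end WOf

section WData

variable [NeZero p] (h : ExactDvd p N) (hA : (p : Kb) ∈ A.nonunits)
  (hD₁ : IsDisc (valF₁ T (galVal1 N A)) (ϖ₁ T)) (hD₂ : IsDisc (valF₁ T (galVal2 N A h)) (ϖ₁ T))
  {γ₁ : Pack.Lc hD₁} (hγ₁ : γ₁ ^ p = Pack.jc hD₁ (g₁ T))
  {γ₂ : Pack.Lc hD₂} (hγ₂ : γ₂ ^ p = Pack.jc hD₂ (g₁ T))

/-- **`hθ1` on helper3's `wData`.** -/
theorem w₁_etaUnit_wData (k : ZMod p) :
    (wData T hA hD₁ hD₂ hγ₁ hγ₂).w₁ k (etaUnit T h.dvd) = 0 :=
  w₁_etaUnit T (wData T hA hD₁ hD₂ hγ₁ hγ₂) h.dvd (base_wOf T hD₁ hγ₁) k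

/-- **`hθ2` on helper3's `wData`.** -/
theorem w₂_etaUnit_wData (k : ZMod p) :
    (wData T hA hD₁ hD₂ hγ₁ hγ₂).w₂ k (etaUnit T h.dvd) = 12 * ((p : ℤ) - 1) :=
  w₂_etaUnit T (wData T hA hD₁ hD₂ hγ₁ hγ₂) h hA (hvK T hA hD₁ hD₂ hγ₁ hγ₂)
    (base_wOf T hD₂ hγ₂) k

end WData

end Fermat.Agent.GF.F2Asm.EtaUnitW
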