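/-
GATE-F (S44/S40) / node GF-F2-ASM, file 15 (helper31): **(L-e), final form: thickness-free AND with
the node lemma only on a SUBGROUP** (helper84's correction, board 6584: `NL` is false on all of
`fixedUnits`; it holds on the functions whose divisor is divisible by `p` at the horizontal primes).

`Us s j : Subgroup (fixedUnits (tameGroup A ζ) T.Fp)` contains `ϖ = 1 − ζ`, `θ` and every
`K'`-rational Kummer function `f = 1 · u · h ^ p` of a class of `Y₀`; `NL` is asked on `Us s j` only.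

* `node_congr_sub`, `node_congr_sub_zmod` (abstract, Mathlib only);
* `hNR_of_nodes_sub` (the binder `hNR` of `Y0.econst_Y0`);
* `f2_of_nodes_sub` : `∃ E κ₀, κ₀ ≠ 0 ∧ (∀ s, E s * η s = κ₀) ∧ ∀ y ∈ C.Y0, EConst E (trop y)`
  = the body of helper34's `F2Hyp` (`η := etaTrop`, `trop := trop1FN`).
-/
import Fermat.Agent.GF.F2Asm.NRAsm

set_option autoImplicit false
set_option linter.unusedSectionVars false

noncomputable section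

namespace Fermat.Agent.GF.F2Asm.NRAsmSub

open AlgebraicCurve ModularCurve
open Fermat.Agent.Common_helper32
open Fermat.Agent.GJ Fermat.Agent.GJ.KumGroup Fermat.Agent.GJ.Kum.KumType Fermat.Agent.S24
open Fermat.Agent.GJ.CycChar Fermat.Agent.GB.A.A6.ECDet
open Fermat.Agent.GH.Closure Fermat.Agent.GF.Peu Fermat.Agent.GF.ETate
open Fermat.Agent.GF.Setup.Plane Fermat.Agent.GF.Shape.Sub
open Fermat.Agent.GF.KCover Fermat.Agent.GF.F2Asm.Inst Fermat.Agent.GF.F2Asm.NRAsm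
open Fermat.Agent.GF.KCover.Node.Arith

section Abstract

variable {U : Type*} [CommGroup U]

/-- **the node relation, thickness-free, node lemma on a subgroup** (integers). -/
theorem node_congr_sub {p : ℕ} (Us : Subgroup U) (w1 w2 n : U → ℤ)
    (h1 : ∀ y z, w1 (y * z) = w1 y + w1 z) (h2 : ∀ y z, w2 (y * z) = w2 y + w2 z)
    (hn : ∀ y z, n (y * z) = n y + n z)
    {ϖ θ : U} (hϖU : ϖ ∈ Us) (hθU : θ ∈ Us)
    (hϖ1 : w1 ϖ = 1) (hϖ2 : w2 ϖ = 1) (hϖn : n ϖ = 0)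
    {T N0 : ℤ} (hθ1 : w1 θ = 0) (hθ2 : w2 θ = T) (hθn : n θ = N0)
    (NL : ∀ u ∈ Us, w1 u = 0 → w2 u = 0 → (p : ℤ) ∣ n u) (f : U) (hfU : f ∈ Us) :
    (p : ℤ) ∣ T * n f - (w2 f - w1 f) * N0 := by
  have key := NL (f ^ T * ϖ ^ (-(w1 f * T)) * θ ^ (-(w2 f - w1 f)))
    (Us.mul_mem (Us.mul_mem (Us.zpow_mem hfU _) (Us.zpow_mem hϖU _)) (Us.zpow_mem hθU _)) ?_ ?_
  · rw [hn, hn, val_zpow n hn, val_zpow n hn, val_zpow n hn, hϖn, hθn] at key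
    have h3 : T * n f + -(w1 f * T) * 0 + -(w2 f - w1 f) * N0 =
        T * n f - (w2 f - w1 f) * N0 := by ring
    rwa [h3] at key
  · rw [h1, h1, val_zpow w1 h1, val_zpow w1 h1, val_zpow w1 h1, hϖ1, hθ1]
    ring
  · rw [h2, h2, val_zpow w2 h2, val_zpow w2 h2, val_zpow w2 h2, hϖ2, hθ2]
    ring

/-- the same in `ZMod p`, solved for `w₂ f − w₁ f`. -/
theorem node_congr_sub_zmod {p : ℕ} [Fact p.Prime] (Us : Subgroup U) (w1 w2 n : U → ℤ)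
    (h1 : ∀ y z, w1 (y * z) = w1 y + w1 z) (h2 : ∀ y z, w2 (y * z) = w2 y + w2 z)
    (hn : ∀ y z, n (y * z) = n y + n z)
    {ϖ θ : U} (hϖU : ϖ ∈ Us) (hθU : θ ∈ Us)
    (hϖ1 : w1 ϖ = 1) (hϖ2 : w2 ϖ = 1) (hϖn : n ϖ = 0)
    {T N0 : ℤ} (hθ1 : w1 θ = 0) (hθ2 : w2 θ = T) (hθn : n θ = N0)
    (hN0 : ((N0 : ℤ) : ZMod p) ≠ 0)
    (NL : ∀ u ∈ Us, w1 u = 0 → w2 u = 0 → (p : ℤ) ∣ n u) (f : U) (hfU : f ∈ Us) :
    ((w2 f - w1 f : ℤ) : ZMod p) =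
      ((T : ℤ) : ZMod p) * ((N0 : ℤ) : ZMod p)⁻¹ * ((n f : ℤ) : ZMod p) := by
  have h := node_congr_sub Us w1 w2 n h1 h2 hn hϖU hθU hϖ1 hϖ2 hϖn hθ1 hθ2 hθn NL f hfU
  have h' := (ZMod.intCast_zmod_eq_zero_iff_dvd _ p).2 h
  push_cast at h'
  push_cast
  have h'' : ((T : ℤ) : ZMod p) * ((n f : ℤ) : ZMod p) =
      (((w2 f : ℤ) : ZMod p) - ((w1 f : ℤ) : ZMod p)) * ((N0 : ℤ) : ZMod p) :=
    sub_eq_zero.mp h'
  field_simp
  rw [h'']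

end Abstract

variable {N : ℕ} [NeZero N] {p : ℕ} [hpF : Fact p.Prime] {A : ValuationSubring Kb} {ζ : Kb}
  (T : TameDatum N p A ζ) (Wd : T.WData)

/-- **(L-e) the node relation from the per-node data** (thickness-free, `NL` on `Us s j`). -/
theorem hNR_of_nodes_sub (hA : (p : Kb) ∈ A.nonunits)
    (hvK : ∀ (c : fixedUnits (tameGroup A ζ) T.Fp) (c₀ : Kb),
      ((c : T.Fpˣ) : T.Fp) = algebraMap Kb T.Fp c₀ →
        A.valuation c₀ = A.valuation (1 - ζ) ^ Wd.vK c)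
    {ι : Type*} (as bs : ι → ZMod p)
    (Us : ι → ZMod p → Subgroup (fixedUnits (tameGroup A ζ) T.Fp))
    (hϖU : ∀ s j, piUnit T ∈ Us s j)
    (n : ι → ZMod p → fixedUnits (tameGroup A ζ) T.Fp → ℤ)
    (hn_mul : ∀ s j y z, n s j (y * z) = n s j y + n s j z)
    (hn_const : ∀ s j (c : fixedUnits (tameGroup A ζ) T.Fp),
      ((c : T.Fpˣ) : T.Fp) ∈ T.C → n s j c = 0)
    (θ : fixedUnits (tameGroup A ζ) T.Fp) (hθU : ∀ s j, θ ∈ Us s j) (Tt : ℤ) (N0 : ι → ℤ)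
    (hθ1 : ∀ s j, Wd.w₁ (j + as s) θ = 0) (hθ2 : ∀ s j, Wd.w₂ (j + bs s) θ = Tt)
    (hθn : ∀ s j, n s j θ = N0 s)
    (hN0 : ∀ s, ((N0 s : ℤ) : ZMod p) ≠ 0)
    (NL : ∀ s j, ∀ u ∈ Us s j,
      Wd.w₁ (j + as s) u = 0 → Wd.w₂ (j + bs s) u = 0 → (p : ℤ) ∣ n s j u)
    (f : fixedUnits (tameGroup A ζ) T.Fp) (s : ι) (j : ZMod p) (hfU : f ∈ Us s j) :
    ((Wd.w₂ (j + bs s) f - Wd.w₁ (j + as s) f : ℤ) : ZMod p) =
      ((Tt : ℤ) : ZMod p) * ((N0 s : ℤ) : ZMod p)⁻¹ * ((n s j f : ℤ) : ZMod p) :=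
  node_congr_sub_zmod (Us s j) (Wd.w₁ (j + as s)) (Wd.w₂ (j + bs s)) (n s j)
    (Wd.w₁_mul _) (Wd.w₂_mul _) (hn_mul s j) (hϖU s j) (hθU s j)
    (w₁_piUnit T Wd hA hvK _) (w₂_piUnit T Wd hA hvK _)
    (hn_const s j _ (piUnit_mem_C T)) (hθ1 s j) (hθ2 s j) (hθn s j) (hN0 s) (NL s j) f hfU

variable {W : WeierstrassCurve ℤ}

/-- **the body of `F2Hyp` from the per-node data** (`η := etaTrop`, `trop := trop1FN`), node lemma
on the subgroups `Us s j`. -/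
theorem f2_of_nodes_sub (C : Copy W p N) (hA : (p : Qb) ∈ A.nonunits)
    (hKU : KummerUnit W p A ζ)
    {M₀ : AddSubgroup (Additive (Kum Kb (FK N) p))}
    (D : LineData (gal N p) (A.inertiaSubgroupIn ℚ) C.Y0 M₀
      (fun σ => ((cyc p σ : (ZMod p)ˣ) : ZMod p)))
    (a : ZMod p) (ha : a ≠ 0)
    (hg : (Additive.ofMul (Kum.mk T.g) : Additive (Kum Kb (FK N) p)) = a • D.w₀)
    (hlc : (qEmb N T.g₀).leadingCoeff = 1)
    (hvK : ∀ (c : fixedUnits (tameGroup A ζ) T.Fp) (c₀ : Kb),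
      ((c : T.Fpˣ) : T.Fp) = algebraMap Kb T.Fp c₀ →
        A.valuation c₀ = A.valuation (1 - ζ) ^ Wd.vK c)
    {ι : Type*} (as bs : ι → ZMod p)
    (Us : ι → ZMod p → Subgroup (fixedUnits (tameGroup A ζ) T.Fp))
    (hϖU : ∀ s j, piUnit T ∈ Us s j)
    (hUf : ∀ u : pDivUnits Kb (FK N) p,
      (Additive.ofMul (Kum.mk u) : Additive (Kum Kb (FK N) p)) ∈ C.Y0 →
      ∀ f : fixedUnits (tameGroup A ζ) T.Fp,
      (∃ h : T.Fp, h ≠ 0 ∧ ((f : T.Fpˣ) : T.Fp) =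
        1 * algebraMap (FK N) T.Fp (((u : (FK N)ˣ) : FK N)) * h ^ p) → ∀ s j, f ∈ Us s j)
    (n : ι → ZMod p → fixedUnits (tameGroup A ζ) T.Fp → ℤ)
    (hn_mul : ∀ s j y z, n s j (y * z) = n s j y + n s j z)
    (hn_const : ∀ s j (c : fixedUnits (tameGroup A ζ) T.Fp),
      ((c : T.Fpˣ) : T.Fp) ∈ T.C → n s j c = 0)
    (θ : fixedUnits (tameGroup A ζ) T.Fp) (hθU : ∀ s j, θ ∈ Us s j) (Tt : ℤ) (N0 : ι → ℤ)
    (hθ1 : ∀ s j, Wd.w₁ (j + as s) θ = 0) (hθ2 : ∀ s j, Wd.w₂ (j + bs s) θ = Tt)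
    (hθn : ∀ s j, n s j θ = N0 s)
    (hN0 : ∀ s, ((N0 s : ℤ) : ZMod p) ≠ 0) (hTt : ((Tt : ℤ) : ZMod p) ≠ 0)
    (NL : ∀ s j, ∀ u ∈ Us s j,
      Wd.w₁ (j + as s) u = 0 → Wd.w₂ (j + bs s) u = 0 → (p : ℤ) ∣ n s j u)
    (trop : Additive (Kum Kb (FK N) p) → ι → ZMod p)
    (hn : ∀ u : pDivUnits Kb (FK N) p,
      (Additive.ofMul (Kum.mk u) : Additive (Kum Kb (FK N) p)) ∈ C.Y0 →
      ∀ f : fixedUnits (tameGroup A ζ) T.Fp,
      (∃ h : T.Fp, h ≠ 0 ∧ ((f : T.Fpˣ) : T.Fp) =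
        1 * algebraMap (FK N) T.Fp (((u : (FK N)ˣ) : FK N)) * h ^ p) →
      ∀ s j, ((n s j f : ℤ) : ZMod p) = trop (Additive.ofMul (Kum.mk u)) s)
    (η : ι → ZMod p) (hη : ∀ s, η s = ((N0 s : ℤ) : ZMod p)) :
    ∃ (E : ι → ZMod p) (κ₀ : ZMod p), κ₀ ≠ 0 ∧ (∀ s, E s * η s = κ₀) ∧
      ∀ y ∈ C.Y0, Fermat.Agent.GF.Top.Skeleton.EConst E (trop y) := by
  refine ⟨fun s => ((Tt : ℤ) : ZMod p) * ((N0 s : ℤ) : ZMod p)⁻¹, ((Tt : ℤ) : ZMod p), hTt,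
    fun s => ?_, ?_⟩
  · rw [hη s, mul_assoc, inv_mul_cancel₀ (hN0 s), mul_one]
  · exact Fermat.Agent.GF.F2Asm.Y0.econst_Y0 C hA hKU D T a ha hg hlc Wd hvK as bs _ trop
      (fun u hu f hf s j => by
        rw [hNR_of_nodes_sub T Wd hA hvK as bs Us hϖU n hn_mul hn_const θ hθU Tt N0 hθ1 hθ2 hθn
          hN0 NL f s j (hUf u hu f hf s j), hn u hu f hf s j])

end Fermat.Agent.GF.F2Asm.NRAsmSub
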