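/-
GATE-F (S44) / node GF-F2-ASM, file 18 (helper31): **THE PLUG — `TropZeroT Dcl` (the gate target of
helper61's `Provider44T` / `Provider44D`) from ONE remaining statement `NodeSupply Dcl`.**

Everything that is on main is plugged in:
* (S-a) `KummerUnit`      : helper70 `GF/ETate/Plug.kummerUnit_of_semistable`;
* SHAPE `LineData`        : helper61 `GF/Top/LineDataP.exists_lineData_of_ordAt`;
* (S-b) `TameDatum`       : `TameSigma.exists_tameDatum_sigma_of_lineData` (`[T.g] = −w₀`, `lc_q = 1`,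
  the exact `I_A`-lift relation);
* (S-c) `T.WData` + `hvK` : helper3 `KCover/Field/WDataOf.wData / hvK`, integrality `hint_i` =
  helper56 `KCover/Int/Modular.exists_zpow_valuation_of_fixed₁/₂`;
* `θ = etaUnit`, `hθ1 hθ2 hθn` : helper96 `EtaUnit / EtaUnitW`;  `Us`, `hϖU hUf hθU` : `UsInst`;
* `n s j := nodeOrd (R1 (j + as s)) …`, `hn_mul hn_const hn` : helper42 `KCover/Node/OrdRedExt`;
* (L-e) `NRAsmSub.f2_of_nodes_sub` (body of `F2Hyp`), EIS : helper77 `GF/Eis/EisFrame.eis_of_frame`;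
* `trop_zero` from `F2Hyp` + `EisHyp` (the content of helper34's `TropZero.trop_zero_of_hyps`,
  inlined: `tropZero_of_f2_eis`).

REMAINING = `NodeSupply Dcl` (KCOVER-INST: the two `p`-th roots `γ_i` of `g₀` in the completions
[GF-ASFORM deep representatives → `WDataOf.exists_root`], the sheet reductions `R1`, the offsets
`as bs`, and the node lemma NL on `UsInst.Us T`) and the clause (f) `p ∤ ord_{P s} red₁ (etaQ)`
(helper77 `GF/Eis/NodesOrd`), asked as a consequence `hDf` of the frame clause `Dcl`.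
-/
import Fermat.Agent.GF.F2Asm.NRAsmSub
import Fermat.Agent.GF.F2Asm.UsInst
import Fermat.Agent.GF.F2Asm.EtaUnitW
import Fermat.Agent.GF.F2Asm.TameSigma
import Fermat.Agent.GF.Top.Provider44D
import Fermat.Agent.GF.Top.LineDataP
import Fermat.Agent.GF.ETate.Plug
import Fermat.Agent.GF.Eis.EisFrame
import Fermat.Agent.GF.KCover.Int.Modular
import Fermat.Agent.GF.KCover.Node.NodeRelSub

set_option autoImplicit false
set_option linter.unusedSectionVars false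

noncomputable section

namespace Fermat.Agent.GF.F2Asm.F2Plug

open AlgebraicCurve IntermediateField Module IsLocalRing ModularCurve
open Fermat.Agent.Common_helper32
open Fermat.Agent.S24 Fermat.Agent.S24_helper62 Fermat.Agent.RRh45 Fermat.Agent.RR
open Fermat.Agent.GJ.J1 Fermat.Agent.GJ.J1.Val Fermat.Agent.GJ.J1.InstGen
open Fermat.Agent.GK.MultiVal Fermat.Agent.GK.BallTwo Fermat.Agent.GK.NodalGraded
open Fermat.Agent.GS.Nodal.LSR2 Fermat.Agent.GS.Nodal.Inst Fermat.Agent.GS.Nodal.ROfSurj2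
open Fermat.Agent.GJ Fermat.Agent.GJ.KumGroup Fermat.Agent.GJ.Kum.KumType
open Fermat.Agent.GJ.CycChar Fermat.Agent.GB.A.A6.ECDet
open Fermat.Agent.GK.UQ Fermat.Agent.GK.New Fermat.Agent.GK.AL Fermat.Agent.GK.UqKronecker
open Fermat.Agent.GK.SS
open Fermat.Agent.GL.Eta Fermat.Agent.GK.CuspSep
open Fermat.Agent.GB.A.A6.EigQ
open Fermat.Agent.GF.Setup.Plane Fermat.Agent.GF.Setup.S0 Fermat.Agent.GF.Shape.Sub
open Fermat.Agent.GF.Shape.Plug Fermat.Agent.GF.Trop Fermat.Agent.GF.Peu Fermat.Agent.GF.ETate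
open Fermat.Agent.GF.Top.S44TopOrd
open Fermat.Agent.GF.Top.Provider44T Fermat.Agent.GF.Top.Provider44D
open Fermat.Agent.GF.KCover Fermat.Agent.GF.F2Asm.Inst Fermat.Agent.GF.F2Asm.NRAsm
open Fermat.Agent.GF.F2Asm.OmegaProj
open Fermat.Agent.GF.F2Asm.UsInst Fermat.Agent.GF.F2Asm.EtaUnit Fermat.Agent.GF.F2Asm.EtaUnitW
open Fermat.Agent.GF.KCover.Field Fermat.Agent.GF.KCover.Field.Disc
open Fermat.Agent.GF.KCover.Field.WDataOf Fermat.Agent.GF.KCover.Node.OrdRedExt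

attribute [local instance] finiteResidues_FN hasPrincipalDivisors_FN nonempty_place_FN
  isAlgClosed_res finiteResidues_Fres hasPrincipalDivisors_Fres nonempty_place_Fres

/-! ### `trop_zero` from (F2) and (EIS), abstractly -/

/-- **`F2Hyp` + `EisHyp` ⟹ `trop = 0` on `Y₀`** (abstract form). -/
theorem tropZero_of_f2_eis {ι V : Type*} {p : ℕ} [Fact p.Prime] (Y₀ : Set V)
    (trop : V → ι → ZMod p) (η : ι → ZMod p)
    (hF2 : ∃ (E : ι → ZMod p) (κ₀ : ZMod p), κ₀ ≠ 0 ∧ (∀ s, E s * η s = κ₀) ∧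
      ∀ y ∈ Y₀, Fermat.Agent.GF.Top.Skeleton.EConst E (trop y))
    (hEis : ∀ x ∈ Y₀, (∃ c : ZMod p, ∀ s, trop x s = c * η s) → ∀ s, trop x s = 0) :
    ∀ x ∈ Y₀, ∀ s, trop x s = 0 := by
  obtain ⟨E, κ₀, hκ, hE, hY⟩ := hF2
  intro x hx
  obtain ⟨c, hc⟩ := hY x hx
  refine hEis x hx ⟨c * κ₀⁻¹, fun s => ?_⟩
  have hE0 : E s ≠ 0 := by
    intro h0
    apply hκ
    rw [← hE s, h0, zero_mul]
  have h1 : trop x s = (E s)⁻¹ * c := by
    rw [← hc s, ← mul_assoc, inv_mul_cancel₀ hE0, one_mul]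
  have h2 : η s = (E s)⁻¹ * κ₀ := by
    rw [← hE s, ← mul_assoc, inv_mul_cancel₀ hE0, one_mul]
  rw [h1, h2]
  field_simp

/-! ### the remaining statement -/

/-- **the ONE remaining statement of (F2)** (KCOVER-INST): on the tame Kummer cover `T.Fp` of
`F_{M' p}` given by a normalised `I'`-fixed representative `T.g₀` of `−w₀`, `w₀ ∈ Y₀ ∩ M⁰`, with its
exact `I_A`-lift relation: the `p`-th roots `γ₁ γ₂` of `g₀` in the completions at the two Gauss
valuations, the reduction data `R1 i` of the `p` sheets above the first component (extending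
`redDataBar`), the offsets `as bs`, and THE NODE LEMMA on `Us T`:
`w₁_{j + as s} y = 0 → w₂_{j + bs s} y = 0 → p ∣ ord_{P s} (red_{j + as s} y)`. -/
def NodeSupply (Dcl : FrameClause) : Prop :=
  ∀ (W : WeierstrassCurve ℤ) (_ : W.Δ ≠ 0) (p : ℕ) [Fact p.Prime] (_ : 5 ≤ p)
    (_ : W.IsSemistableModel) (_ : (p : ℤ) ∣ W.Δ)
    (_ : (W.map (Int.castRingHom ℚ)).IsPeuRamifieeAt p p)
    (_ : W.ModRepIsIrreducible p)
    (_ : OrdAt W p)
    (M' : ℕ) [NeZero M'] (hpM' : ¬ p ∣ M')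
    (C : Copy W p (M' * p))
    (A : ValuationSubring Kbar) (hA : A.LiesOverPrime p) (_ : A = padicPlace p)
    (ι : Type) [Fintype ι]
    (P Q : ι → Place (ResidueField A) (FresBar (M' * p) A)) (c : ℤ) (n₀ : ℕ)
    (_ : FrameFacts (M' * p) A (exactDvd hpM') P Q)
    (_ : NodalHyp (redCompatFN (M' * p) A (exactDvd hpM')) P Q (CS (M' * p) (exactDvd hpM'))
      (Dτ (M' * p) A p) (Dτ (M' * p) A p) (genusRR Kbar (FN (M' * p))) c n₀)
    (_ : Dcl p M' hpM' A ι P Q)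
    (ζ : Kb) (_ : KummerUnit W p A ζ)
    (D : LineData (gal (M' * p) p) (A.inertiaSubgroupIn ℚ) C.Y0
      (M0Kum (M' * p) A (exactDvd hpM') p) (fun σ => ((cyc p σ : (ZMod p)ˣ) : ZMod p)))
    (T : TameDatum (M' * p) p A ζ)
    (_ : (Additive.ofMul (Kum.mk T.g) : Additive (Kum Kb (FK (M' * p)) p)) =
      (-1 : ZMod p) • D.w₀)
    (_ : (qEmb (M' * p) T.g₀).leadingCoeff = 1)
    (_ : ∀ σ ∈ A.inertiaSubgroupIn ℚ, ∃ h : FK (M' * p), h ≠ 0 ∧
        (∀ τ ∈ A.inertiaSubgroupIn ℚ, cyc p τ = 1 →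
          arithmeticRingAut (modularFunctionFieldFull (M' * p)) τ h = h) ∧
        arithmeticRingAut (modularFunctionFieldFull (M' * p)) σ T.g₀ =
          T.g₀ ^ rep (cyc p σ) * h ^ p)
    (hD₁ : IsDisc (valF₁ T (galVal1 (M' * p) A)) (ϖ₁ T))
    (hD₂ : IsDisc (valF₁ T (galVal2 (M' * p) A (exactDvd hpM'))) (ϖ₁ T)),
    ∃ (γ₁ : Pack.Lc hD₁) (γ₂ : Pack.Lc hD₂) (hγ₁ : γ₁ ^ p = Pack.jc hD₁ (g₁ T))
      (hγ₂ : γ₂ ^ p = Pack.jc hD₂ (g₁ T)) (as bs : ι → ZMod p)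
      (R1 : ZMod p → RedData Kb T.Fp (ResidueField A) (FresBar (M' * p) A))
      (hun1 : ∀ i, Unram (R1 i)) (_ : ∀ i, RedExt (redDataBar (M' * p) A) (R1 i)),
      ∀ (s : ι) (j : ZMod p), ∀ y ∈ Us T,
        (wData T hA hD₁ hD₂ hγ₁ hγ₂).w₁ (j + as s) y = 0 →
        (wData T hA hD₁ hD₂ hγ₁ hγ₂).w₂ (j + bs s) y = 0 →
        (p : ℤ) ∣ nodeOrd (R1 (j + as s)) (hun1 (j + as s)) (P s)
          (fixedUnits (tameGroup A ζ) T.Fp) y

/-! ### the plug -/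

/-- `12 (p − 1) ≠ 0` in `𝔽_p` for `p ≥ 5`. -/
theorem twelve_ne_zero {p : ℕ} [hp : Fact p.Prime] (hp5 : 5 ≤ p) :
    (((12 * ((p : ℤ) - 1) : ℤ)) : ZMod p) ≠ 0 := by
  push_cast
  rw [ZMod.natCast_self, zero_sub, mul_neg, mul_one, neg_ne_zero]
  have h12 : ((12 : ℕ) : ZMod p) ≠ 0 := by
    rw [Ne, ZMod.natCast_eq_zero_iff]
    intro hdvd
    have h1 : p ∣ 2 * 2 * 3 := by simpa using hdvd
    rcases (Nat.Prime.dvd_mul hp.out).mp h1 with h2 | h3
    · rcases (Nat.Prime.dvd_mul hp.out).mp h2 with h4 | h4 <;>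
        · have := Nat.le_of_dvd (by norm_num) h4
          omega
    · have := Nat.le_of_dvd (by norm_num) h3
      omega
  exact_mod_cast h12

/-- **`TropZeroT Dcl` from `NodeSupply Dcl`**, for any frame clause `Dcl` implying (d) of
`Provider44D.clauseD` and (f) `p ∤ ord_{P s} red₁ (etaQ)`. -/
theorem tropZeroT_of_nodeSupply (Dcl : FrameClause)
    (hDd : ∀ (p : ℕ) [Fact p.Prime] (M' : ℕ) [NeZero M'] (hpM' : ¬ p ∣ M')
      (A : ValuationSubring Kbar) (ι : Type) [Fintype ι]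
      (P Q : ι → Place (ResidueField A) (FresBar (M' * p) A)),
      Dcl p M' hpM' A ι P Q →
      ∀ Q' : Place (ResidueField A) (FresBar (M' * p) A), 0 ≤ Q'.ord (tauF (M' * p) A) →
        (∀ s, Q' ≠ P s) →
        Q'.ord ((redDataBar (M' * p) A).red
          ⟨etaQ (M' * p) p (exactDvd hpM').dvd,
            etaQ_mem_Rw1 (M' * p) A p (exactDvd hpM').dvd⟩) = 0)
    (hDf : ∀ (p : ℕ) [Fact p.Prime] (_ : 5 ≤ p) (M' : ℕ) [NeZero M'] (hpM' : ¬ p ∣ M')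
      (A : ValuationSubring Kbar) (_ : A.LiesOverPrime p) (ι : Type) [Fintype ι]
      (P Q : ι → Place (ResidueField A) (FresBar (M' * p) A)) (c : ℤ) (n₀ : ℕ)
      (_ : FrameFacts (M' * p) A (exactDvd hpM') P Q)
      (_ : NodalHyp (redCompatFN (M' * p) A (exactDvd hpM')) P Q (CS (M' * p) (exactDvd hpM'))
        (Dτ (M' * p) A p) (Dτ (M' * p) A p) (genusRR Kbar (FN (M' * p))) c n₀),
      Dcl p M' hpM' A ι P Q →
      ∀ s, ¬ (p : ℤ) ∣ (P s).ord ((redDataBar (M' * p) A).red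
          ⟨etaQ (M' * p) p (exactDvd hpM').dvd,
            etaQ_mem_Rw1 (M' * p) A p (exactDvd hpM').dvd⟩))
    (H : NodeSupply Dcl) : TropZeroT Dcl := by
  intro W hΔ p _ hp5 hss hmult hpeu hirr hord M' _ hpM' hmod hnot C hC ℓ₀ hℓ₀ hℓ₀S hne A hA hAp
    ι _ P Q c n₀ FF NH hd
  have hpP : p.Prime := Fact.out
  have : NeZero p := ⟨hpP.ne_zero⟩
  have hp2 : p ≠ 2 := by omega
  obtain ⟨ζ, hζ⟩ := exists_primitiveRoot p
  have hKU : KummerUnit W p A ζ :=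
    Fermat.Agent.GF.ETate.Plug.kummerUnit_of_semistable W hΔ p hp5 hss hmult hpeu hAp hζ
  obtain ⟨D⟩ := Fermat.Agent.GF.Top.LineDataP.exists_lineData_of_ordAt W hΔ p hp5 hirr hord M'
    hpM' C A hA
  obtain ⟨T, hneg, hg, hlc, hσ⟩ :=
    Fermat.Agent.GF.F2Asm.TameSigma.exists_tameDatum_sigma_of_lineData (ζ := ζ) hA hζ D
  have hD₁ : IsDisc (valF₁ T (galVal1 (M' * p) A)) (ϖ₁ T) :=
    isDisc T hA (galVal1 (M' * p) A) (fun u hu hfix =>
      Fermat.Agent.GF.KCover.Int.exists_zpow_valuation_of_fixed₁ (M' * p) A hA T.prim u hu hfix)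
  have hD₂ : IsDisc (valF₁ T (galVal2 (M' * p) A (exactDvd hpM'))) (ϖ₁ T) :=
    isDisc T hA (galVal2 (M' * p) A (exactDvd hpM')) (fun u hu hfix =>
      Fermat.Agent.GF.KCover.Int.exists_zpow_valuation_of_fixed₂ (M' * p) A (exactDvd hpM') hA T.prim u hu
        hfix)
  obtain ⟨γ₁, γ₂, hγ₁, hγ₂, as, bs, R1, hun1, hext, NL⟩ :=
    H W hΔ p hp5 hss hmult hpeu hirr hord M' hpM' C A hA hAp ι P Q c n₀ FF NH hd ζ hKU D T hg hlc
      hσ hD₁ hD₂
  -- the downstairs node orders of `θ = etaQ`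
  have hun := Fermat.Agent.GS.F.unram_redDataBar (M' * p) A
  have hUeta : IsU (redDataBar (M' * p) A) (etaQ (M' * p) p (exactDvd hpM').dvd) :=
    ⟨etaQ_ne_zero p (exactDvd hpM').dvd, etaQ_mem_Rw1 (M' * p) A p (exactDvd hpM').dvd, etaQ_inv_mem_Rw1 (M' * p) A p (exactDvd hpM').dvd⟩
  have hN0 : ∀ s, (((ordRed (redDataBar (M' * p) A) hun (P s) (etaQ (M' * p) p (exactDvd hpM').dvd) : ℤ)) : ZMod p) ≠ 0 := by
    intro s
    rw [ordRed_of_isU hun (P s) hUeta, Ne, ZMod.intCast_zmod_eq_zero_iff_dvd]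
    exact hDf p hp5 M' hpM' A hA ι P Q c n₀ FF NH hd s
  -- (F2)
  have hF2 := Fermat.Agent.GF.F2Asm.NRAsmSub.f2_of_nodes_sub T (wData T hA hD₁ hD₂ hγ₁ hγ₂) C hA
    hKU D (-1) hneg hg hlc (hvK T hA hD₁ hD₂ hγ₁ hγ₂) as bs (fun _ _ => Us T)
    (fun _ _ => piUnit_mem_Us T) (fun u _ f hf _ _ => mem_Us_of_kummer T u f hf)
    (fun s j => nodeOrd (R1 (j + as s)) (hun1 (j + as s)) (P s)
      (fixedUnits (tameGroup A ζ) T.Fp))
    (fun s j y z => nodeOrd_mul (R1 (j + as s)) (hun1 (j + as s)) (P s) _ y z)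
    (fun s j c hc => by
      obtain ⟨c₀, hc₀⟩ := T.mem_C.mp hc
      exact nodeOrd_const (R1 (j + as s)) (hun1 (j + as s)) (P s) _ c hc₀)
    (etaUnit T (exactDvd hpM').dvd) (fun _ _ => mem_Us_of_etaQ T p (exactDvd hpM').dvd _ (coe_etaUnit T (exactDvd hpM').dvd))
    (12 * ((p : ℤ) - 1)) (fun s => ordRed (redDataBar (M' * p) A) hun (P s) (etaQ (M' * p) p (exactDvd hpM').dvd))
    (fun s j => w₁_etaUnit_wData T (exactDvd hpM') hA hD₁ hD₂ hγ₁ hγ₂ (j + as s))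
    (fun s j => w₂_etaUnit_wData T (exactDvd hpM') hA hD₁ hD₂ hγ₁ hγ₂ (j + bs s))
    (fun s j => nodeOrd_etaUnit T (redDataBar (M' * p) A) hun (R1 (j + as s)) (hun1 (j + as s))
      (hext (j + as s)) (P s) (exactDvd hpM').dvd)
    hN0 (twelve_ne_zero hp5) NL (fun x => trop1FN (q := p) (M' * p) A P x)
    (fun u _ f hf s j => by
      obtain ⟨h, hh, hf⟩ := hf
      show ((ordRed (R1 (j + as s)) (hun1 (j + as s)) (P s) (((f : T.Fpˣ) : T.Fp)) : ℤ) :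
        ZMod p) = ((ordRed (redDataBar (M' * p) A) hun (P s)
          (((u : (FK (M' * p))ˣ) : FK (M' * p))) : ℤ) : ZMod p)
      exact ordRed_kummer_rep_one (hext (j + as s)) hun (hun1 (j + as s)) (P s) p
        (u : (FK (M' * p))ˣ).ne_zero hh hf)
    (fun s => (((ordRed (redDataBar (M' * p) A) hun (P s) (etaQ (M' * p) p (exactDvd hpM').dvd) : ℤ)) : ZMod p))
    (fun _ => rfl)
  -- (EIS) + conclusion
  intro x hx
  funext s
  show trop1FN (q := p) (M' * p) A P x s = 0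
  refine tropZero_of_f2_eis (C.Y0 : Set _) (fun x => trop1FN (q := p) (M' * p) A P x) _ hF2
    (fun y hy hprop => ?_) x hx s
  have hℓ₀M : ¬ ℓ₀ ∣ (M' * p) := (good_of_notMem hΔ hℓ₀ hℓ₀S).2.1
  exact Fermat.Agent.GF.Eis.EisFrame.eis_of_frame M' A (exactDvd hpM') FF NH hpM' hp2
    (fun h3 => by omega) hA (hDd p M' hpM' A ι P Q hd) hℓ₀ hℓ₀M y _
    (C.kumTl_eq hC hy hℓ₀ hℓ₀S hℓ₀M) hne hprop

end Fermat.Agent.GF.F2Asm.F2Plug
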