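/-
GATE-F (S44) / node GF-DEEPREP-PLUG, file 2 (helper62): **`NodeSupply` with the two binders of
`TropZeroT` that (N1) needs** — `hnot : ¬ W.IsResiduallyModularOfLevel p M'` and
`hC : C.Y0 ≤ eigQ …` (the class of `T.g` must lie in the `p`-new part `Knew`: `aLow = bLow = 0` are
binders of the `U`-iteration behind the deep representatives, and their only source is
`Setup/S0.knew W hpM' hnot (hC hY)`).

`NodeSupplyK`, `DeepSupplyK`, `NLSupplyK` are helper31's `F2Plug.NodeSupply`,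
`NodeSupplyAsm.DeepSupply`, `NodeSupplyAsm.NLSupply` VERBATIM with `hnot` inserted after `hpM'` and
`hC` after `C`; `tropZeroT_of_nodeSupplyK`, `nodeSupplyK_of_parts` are his proofs with the two
binders threaded through.

* **`deepSupplyK Dcl : DeepSupplyK Dcl`** — (N1) CLOSED (`DeepRepPlug.deepRep_of_lineData`);
* **`tropZeroT_of_partsK`** : `TropZeroT Dcl` from `NLSupplyK Dcl` ALONE (+ the two clause
  consequences `hDd hDf`).
-/
import Fermat.Agent.GF.F2Asm.NodeSupplyAsm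
import Fermat.Agent.GF.KCover.ASRep.DeepRepPlug

set_option autoImplicit false
set_option linter.unusedSectionVars false
set_option linter.unusedVariables false

noncomputable section

namespace Fermat.Agent.GF.F2Asm.F2PlugK

open AlgebraicCurve IntermediateField Module IsLocalRing ModularCurve
open Fermat.Agent.Common_helper32
open Fermat.Agent.S24 Fermat.Agent.S24_helper62 Fermat.Agent.RRh45 Fermat.Agent.RR
open Fermat.Agent.GJ.J1 Fermat.Agent.GJ.J1.Val Fermat.Agent.GJ.J1.InstGen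
open Fermat.Agent.GK.MultiVal Fermat.Agent.GK.BallTwo Fermat.Agent.GK.NodalGraded
open Fermat.Agent.GS.Nodal.LSR2 Fermat.Agent.GS.Nodal.Inst Fermat.Agent.GS.Nodal.ROfSurj2
open Fermat.Agent.GJ Fermat.Agent.GJ.KumGroup Fermat.Agent.GJ.Kum.KumType
open Fermat.Agent.GJ.CycChar Fermat.Agent.GB.A.A6.ECDet
open Fermat.Agent.GK.UQ Fermat.Agent.GK.New Fermat.Agent.GK.AL Fermat.Agent.GK.UqKronecker
open Fermat.Agent.GK.SS
open Fermat.Agent.GL.Eta Fermat.Agent.GK.CuspSep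
open Fermat.Agent.GB.A.A6.EigQ
open Fermat.Agent.GF.Setup.Plane Fermat.Agent.GF.Setup.S0 Fermat.Agent.GF.Shape.Sub
open Fermat.Agent.GF.Shape.Plug Fermat.Agent.GF.Trop Fermat.Agent.GF.Peu Fermat.Agent.GF.ETate
open Fermat.Agent.GF.Top.S44TopOrd
open Fermat.Agent.GF.Top.Provider44T Fermat.Agent.GF.Top.Provider44D
open Fermat.Agent.GF.KCover Fermat.Agent.GF.F2Asm.Inst Fermat.Agent.GF.F2Asm.NRAsm
open Fermat.Agent.GF.F2Asm.OmegaProj
open Fermat.Agent.GF.F2Asm.UsInst Fermat.Agent.GF.F2Asm.EtaUnit Fermat.Agent.GF.F2Asm.EtaUnitW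
open Fermat.Agent.GF.KCover.Field Fermat.Agent.GF.KCover.Field.Disc
open Fermat.Agent.GF.KCover.Field.WDataOf Fermat.Agent.GF.KCover.Node.OrdRedExt
open Fermat.Agent.GF.KCover.Field.WDataFinal Fermat.Agent.GF.F2Asm.F2Plug

attribute [local instance] finiteResidues_FN hasPrincipalDivisors_FN nonempty_place_FN
  isAlgClosed_res finiteResidues_Fres hasPrincipalDivisors_Fres nonempty_place_Fres

/-- **`NodeSupply` with `hnot` and `hC`.** -/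
def NodeSupplyK (Dcl : FrameClause) : Prop :=
  ∀ (W : WeierstrassCurve ℤ) (_ : W.Δ ≠ 0) (p : ℕ) [Fact p.Prime] (_ : 5 ≤ p)
    (_ : W.IsSemistableModel) (_ : (p : ℤ) ∣ W.Δ)
    (_ : (W.map (Int.castRingHom ℚ)).IsPeuRamifieeAt p p)
    (_ : W.ModRepIsIrreducible p)
    (_ : OrdAt W p)
    (M' : ℕ) [NeZero M'] (hpM' : ¬ p ∣ M')
    (_ : ¬ W.IsResiduallyModularOfLevel p M')
    (C : Copy W p (M' * p))
    (_ : C.Y0 ≤ eigQ (M' * p) p (Sset W (M' * p) p) (hMS W (M' * p) p) (aW W))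
    (A : ValuationSubring Kbar) (hA : A.LiesOverPrime p) (_ : A = padicPlace p)
    (ι : Type) [Fintype ι]
    (P Q : ι → Place (ResidueField A) (FresBar (M' * p) A)) (c : ℤ) (n₀ : ℕ)
    (_ : FrameFacts (M' * p) A (exactDvd hpM') P Q)
    (_ : NodalHyp (redCompatFN (M' * p) A (exactDvd hpM')) P Q (CS (M' * p) (exactDvd hpM'))
      (Dτ (M' * p) A p) (Dτ (M' * p) A p) (genusRR Kbar (FN (M' * p))) c n₀)
    (_ : Dcl p M' hpM' A ι P Q)
    (ζ : Kb) (_ : KummerUnit W p A ζ)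
    (D : LineData (gal (M' * p) p) (A.inertiaSubgroupIn ℚ) C.Y0
      (M0Kum (M' * p) A (exactDvd hpM') p) (fun σ => ((cyc p σ : (ZMod p)ˣ) : ZMod p)))
    (T : TameDatum (M' * p) p A ζ)
    (_ : (Additive.ofMul (Kum.mk T.g) : Additive (Kum Kb (FK (M' * p)) p)) =
      (-1 : ZMod p) • D.w₀)
    (_ : (qEmb (M' * p) T.g₀).leadingCoeff = 1)
    (_ : ∀ σ ∈ A.inertiaSubgroupIn ℚ, ∃ h : FK (M' * p), h ≠ 0 ∧
        (∀ τ ∈ A.inertiaSubgroupIn ℚ, cyc p τ = 1 →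
          arithmeticRingAut (modularFunctionFieldFull (M' * p)) τ h = h) ∧
        arithmeticRingAut (modularFunctionFieldFull (M' * p)) σ T.g₀ =
          T.g₀ ^ rep (cyc p σ) * h ^ p)
    (hD₁ : IsDisc (valF₁ T (galVal1 (M' * p) A)) (ϖ₁ T))
    (hD₂ : IsDisc (valF₁ T (galVal2 (M' * p) A (exactDvd hpM'))) (ϖ₁ T)),
    ∃ (γ₁ : Pack.Lc hD₁) (γ₂ : Pack.Lc hD₂) (hγ₁ : γ₁ ^ p = Pack.jc hD₁ (g₁ T))
      (hγ₂ : γ₂ ^ p = Pack.jc hD₂ (g₁ T)) (as bs : ι → ZMod p)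
      (R1 : ZMod p → RedData Kb T.Fp (ResidueField A) (FresBar (M' * p) A))
      (hun1 : ∀ i, Unram (R1 i)) (_ : ∀ i, RedExt (redDataBar (M' * p) A) (R1 i)),
      ∀ (s : ι) (j : ZMod p), ∀ y ∈ Us T,
        (wData T hA hD₁ hD₂ hγ₁ hγ₂).w₁ (j + as s) y = 0 →
        (wData T hA hD₁ hD₂ hγ₁ hγ₂).w₂ (j + bs s) y = 0 →
        (p : ℤ) ∣ nodeOrd (R1 (j + as s)) (hun1 (j + as s)) (P s)
          (fixedUnits (tameGroup A ζ) T.Fp) y

/-- **`TropZeroT Dcl` from `NodeSupplyK Dcl`.** -/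
theorem tropZeroT_of_nodeSupplyK (Dcl : FrameClause)
    (hDd : ∀ (p : ℕ) [Fact p.Prime] (M' : ℕ) [NeZero M'] (hpM' : ¬ p ∣ M')
      (A : ValuationSubring Kbar) (ι : Type) [Fintype ι]
      (P Q : ι → Place (ResidueField A) (FresBar (M' * p) A)),
      Dcl p M' hpM' A ι P Q →
      ∀ Q' : Place (ResidueField A) (FresBar (M' * p) A), 0 ≤ Q'.ord (tauF (M' * p) A) →
        (∀ s, Q' ≠ P s) →
        Q'.ord ((redDataBar (M' * p) A).red
          ⟨etaQ (M' * p) p (exactDvd hpM').dvd,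
            etaQ_mem_Rw1 (M' * p) A p (exactDvd hpM').dvd⟩) = 0)
    (hDf : ∀ (p : ℕ) [Fact p.Prime] (_ : 5 ≤ p) (M' : ℕ) [NeZero M'] (hpM' : ¬ p ∣ M')
      (A : ValuationSubring Kbar) (_ : A.LiesOverPrime p) (ι : Type) [Fintype ι]
      (P Q : ι → Place (ResidueField A) (FresBar (M' * p) A)) (c : ℤ) (n₀ : ℕ)
      (_ : FrameFacts (M' * p) A (exactDvd hpM') P Q)
      (_ : NodalHyp (redCompatFN (M' * p) A (exactDvd hpM')) P Q (CS (M' * p) (exactDvd hpM'))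
        (Dτ (M' * p) A p) (Dτ (M' * p) A p) (genusRR Kbar (FN (M' * p))) c n₀),
      Dcl p M' hpM' A ι P Q →
      ∀ s, ¬ (p : ℤ) ∣ (P s).ord ((redDataBar (M' * p) A).red
          ⟨etaQ (M' * p) p (exactDvd hpM').dvd,
            etaQ_mem_Rw1 (M' * p) A p (exactDvd hpM').dvd⟩))
    (H : NodeSupplyK Dcl) : TropZeroT Dcl := by
  intro W hΔ p _ hp5 hss hmult hpeu hirr hord M' _ hpM' hmod hnot C hC ℓ₀ hℓ₀ hℓ₀S hne A hA hAp
    ι _ P Q c n₀ FF NH hd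
  have hpP : p.Prime := Fact.out
  have : NeZero p := ⟨hpP.ne_zero⟩
  have hp2 : p ≠ 2 := by omega
  obtain ⟨ζ, hζ⟩ := exists_primitiveRoot p
  have hKU : KummerUnit W p A ζ :=
    Fermat.Agent.GF.ETate.Plug.kummerUnit_of_semistable W hΔ p hp5 hss hmult hpeu hAp hζ
  obtain ⟨D⟩ := Fermat.Agent.GF.Top.LineDataP.exists_lineData_of_ordAt W hΔ p hp5 hirr hord M'
    hpM' C A hA
  obtain ⟨T, hneg, hg, hlc, hσ⟩ :=
    Fermat.Agent.GF.F2Asm.TameSigma.exists_tameDatum_sigma_of_lineData (ζ := ζ) hA hζ D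
  have hD₁ : IsDisc (valF₁ T (galVal1 (M' * p) A)) (ϖ₁ T) :=
    isDisc T hA (galVal1 (M' * p) A) (fun u hu hfix =>
      Fermat.Agent.GF.KCover.Int.exists_zpow_valuation_of_fixed₁ (M' * p) A hA T.prim u hu hfix)
  have hD₂ : IsDisc (valF₁ T (galVal2 (M' * p) A (exactDvd hpM'))) (ϖ₁ T) :=
    isDisc T hA (galVal2 (M' * p) A (exactDvd hpM')) (fun u hu hfix =>
      Fermat.Agent.GF.KCover.Int.exists_zpow_valuation_of_fixed₂ (M' * p) A (exactDvd hpM') hA T.prim u hu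
        hfix)
  obtain ⟨γ₁, γ₂, hγ₁, hγ₂, as, bs, R1, hun1, hext, NL⟩ :=
    H W hΔ p hp5 hss hmult hpeu hirr hord M' hpM' hnot C hC A hA hAp ι P Q c n₀ FF NH hd ζ hKU D T
      hg hlc hσ hD₁ hD₂
  -- the downstairs node orders of `θ = etaQ`
  have hun := Fermat.Agent.GS.F.unram_redDataBar (M' * p) A
  have hUeta : IsU (redDataBar (M' * p) A) (etaQ (M' * p) p (exactDvd hpM').dvd) :=
    ⟨etaQ_ne_zero p (exactDvd hpM').dvd, etaQ_mem_Rw1 (M' * p) A p (exactDvd hpM').dvd, etaQ_inv_mem_Rw1 (M' * p) A p (exactDvd hpM').dvd⟩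
  have hN0 : ∀ s, (((ordRed (redDataBar (M' * p) A) hun (P s) (etaQ (M' * p) p (exactDvd hpM').dvd) : ℤ)) : ZMod p) ≠ 0 := by
    intro s
    rw [ordRed_of_isU hun (P s) hUeta, Ne, ZMod.intCast_zmod_eq_zero_iff_dvd]
    exact hDf p hp5 M' hpM' A hA ι P Q c n₀ FF NH hd s
  -- (F2)
  have hF2 := Fermat.Agent.GF.F2Asm.NRAsmSub.f2_of_nodes_sub T (wData T hA hD₁ hD₂ hγ₁ hγ₂) C hA
    hKU D (-1) hneg hg hlc (hvK T hA hD₁ hD₂ hγ₁ hγ₂) as bs (fun _ _ => Us T)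
    (fun _ _ => piUnit_mem_Us T) (fun u _ f hf _ _ => mem_Us_of_kummer T u f hf)
    (fun s j => nodeOrd (R1 (j + as s)) (hun1 (j + as s)) (P s)
      (fixedUnits (tameGroup A ζ) T.Fp))
    (fun s j y z => nodeOrd_mul (R1 (j + as s)) (hun1 (j + as s)) (P s) _ y z)
    (fun s j c hc => by
      obtain ⟨c₀, hc₀⟩ := T.mem_C.mp hc
      exact nodeOrd_const (R1 (j + as s)) (hun1 (j + as s)) (P s) _ c hc₀)
    (etaUnit T (exactDvd hpM').dvd) (fun _ _ => mem_Us_of_etaQ T p (exactDvd hpM').dvd _ (coe_etaUnit T (exactDvd hpM').dvd))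
    (12 * ((p : ℤ) - 1)) (fun s => ordRed (redDataBar (M' * p) A) hun (P s) (etaQ (M' * p) p (exactDvd hpM').dvd))
    (fun s j => w₁_etaUnit_wData T (exactDvd hpM') hA hD₁ hD₂ hγ₁ hγ₂ (j + as s))
    (fun s j => w₂_etaUnit_wData T (exactDvd hpM') hA hD₁ hD₂ hγ₁ hγ₂ (j + bs s))
    (fun s j => nodeOrd_etaUnit T (redDataBar (M' * p) A) hun (R1 (j + as s)) (hun1 (j + as s))
      (hext (j + as s)) (P s) (exactDvd hpM').dvd)
    hN0 (Fermat.Agent.GF.F2Asm.F2Plug.twelve_ne_zero hp5) NL (fun x => trop1FN (q := p) (M' * p) A P x)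
    (fun u _ f hf s j => by
      obtain ⟨h, hh, hf⟩ := hf
      show ((ordRed (R1 (j + as s)) (hun1 (j + as s)) (P s) (((f : T.Fpˣ) : T.Fp)) : ℤ) :
        ZMod p) = ((ordRed (redDataBar (M' * p) A) hun (P s)
          (((u : (FK (M' * p))ˣ) : FK (M' * p))) : ℤ) : ZMod p)
      exact ordRed_kummer_rep_one (hext (j + as s)) hun (hun1 (j + as s)) (P s) p
        (u : (FK (M' * p))ˣ).ne_zero hh hf)
    (fun s => (((ordRed (redDataBar (M' * p) A) hun (P s) (etaQ (M' * p) p (exactDvd hpM').dvd) : ℤ)) : ZMod p))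
    (fun _ => rfl)
  -- (EIS) + conclusion
  intro x hx
  funext s
  show trop1FN (q := p) (M' * p) A P x s = 0
  refine Fermat.Agent.GF.F2Asm.F2Plug.tropZero_of_f2_eis (C.Y0 : Set _) (fun x => trop1FN (q := p) (M' * p) A P x) _ hF2
    (fun y hy hprop => ?_) x hx s
  have hℓ₀M : ¬ ℓ₀ ∣ (M' * p) := (good_of_notMem hΔ hℓ₀ hℓ₀S).2.1
  exact Fermat.Agent.GF.Eis.EisFrame.eis_of_frame M' A (exactDvd hpM') FF NH hpM' hp2
    (fun h3 => by omega) hA (hDd p M' hpM' A ι P Q hd) hℓ₀ hℓ₀M y _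
    (C.kumTl_eq hC hy hℓ₀ hℓ₀S hℓ₀M) hne hprop

/-- **(N1)** with `hnot` and `hC`. -/
def DeepSupplyK (Dcl : FrameClause) : Prop :=
  ∀ (W : WeierstrassCurve ℤ) (_ : W.Δ ≠ 0) (p : ℕ) [Fact p.Prime] (_ : 5 ≤ p)
    (_ : W.IsSemistableModel) (_ : (p : ℤ) ∣ W.Δ)
    (_ : (W.map (Int.castRingHom ℚ)).IsPeuRamifieeAt p p)
    (_ : W.ModRepIsIrreducible p)
    (_ : OrdAt W p)
    (M' : ℕ) [NeZero M'] (hpM' : ¬ p ∣ M')
    (_ : ¬ W.IsResiduallyModularOfLevel p M')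
    (C : Copy W p (M' * p))
    (_ : C.Y0 ≤ eigQ (M' * p) p (Sset W (M' * p) p) (hMS W (M' * p) p) (aW W))
    (A : ValuationSubring Kbar) (hA : A.LiesOverPrime p) (_ : A = padicPlace p)
    (ι : Type) [Fintype ι]
    (P Q : ι → Place (ResidueField A) (FresBar (M' * p) A)) (c : ℤ) (n₀ : ℕ)
    (_ : FrameFacts (M' * p) A (exactDvd hpM') P Q)
    (_ : NodalHyp (redCompatFN (M' * p) A (exactDvd hpM')) P Q (CS (M' * p) (exactDvd hpM'))
      (Dτ (M' * p) A p) (Dτ (M' * p) A p) (genusRR Kbar (FN (M' * p))) c n₀)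
    (_ : Dcl p M' hpM' A ι P Q)
    (ζ : Kb) (_ : KummerUnit W p A ζ)
    (D : LineData (gal (M' * p) p) (A.inertiaSubgroupIn ℚ) C.Y0
      (M0Kum (M' * p) A (exactDvd hpM') p) (fun σ => ((cyc p σ : (ZMod p)ˣ) : ZMod p)))
    (T : TameDatum (M' * p) p A ζ)
    (_ : (Additive.ofMul (Kum.mk T.g) : Additive (Kum Kb (FK (M' * p)) p)) =
      (-1 : ZMod p) • D.w₀)
    (_ : (qEmb (M' * p) T.g₀).leadingCoeff = 1)
    (_ : ∀ σ ∈ A.inertiaSubgroupIn ℚ, ∃ h : FK (M' * p), h ≠ 0 ∧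
        (∀ τ ∈ A.inertiaSubgroupIn ℚ, cyc p τ = 1 →
          arithmeticRingAut (modularFunctionFieldFull (M' * p)) τ h = h) ∧
        arithmeticRingAut (modularFunctionFieldFull (M' * p)) σ T.g₀ =
          T.g₀ ^ rep (cyc p σ) * h ^ p),
    DeepRep T (galVal1 (M' * p) A) ∧ DeepRep T (galVal2 (M' * p) A (exactDvd hpM'))

/-- **(N3) + (N4)** with `hnot` and `hC`. -/
def NLSupplyK (Dcl : FrameClause) : Prop :=
  ∀ (W : WeierstrassCurve ℤ) (_ : W.Δ ≠ 0) (p : ℕ) [Fact p.Prime] (_ : 5 ≤ p)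
    (_ : W.IsSemistableModel) (_ : (p : ℤ) ∣ W.Δ)
    (_ : (W.map (Int.castRingHom ℚ)).IsPeuRamifieeAt p p)
    (_ : W.ModRepIsIrreducible p)
    (_ : OrdAt W p)
    (M' : ℕ) [NeZero M'] (hpM' : ¬ p ∣ M')
    (_ : ¬ W.IsResiduallyModularOfLevel p M')
    (C : Copy W p (M' * p))
    (_ : C.Y0 ≤ eigQ (M' * p) p (Sset W (M' * p) p) (hMS W (M' * p) p) (aW W))
    (A : ValuationSubring Kbar) (hA : A.LiesOverPrime p) (_ : A = padicPlace p)
    (ι : Type) [Fintype ι]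
    (P Q : ι → Place (ResidueField A) (FresBar (M' * p) A)) (c : ℤ) (n₀ : ℕ)
    (_ : FrameFacts (M' * p) A (exactDvd hpM') P Q)
    (_ : NodalHyp (redCompatFN (M' * p) A (exactDvd hpM')) P Q (CS (M' * p) (exactDvd hpM'))
      (Dτ (M' * p) A p) (Dτ (M' * p) A p) (genusRR Kbar (FN (M' * p))) c n₀)
    (_ : Dcl p M' hpM' A ι P Q)
    (ζ : Kb) (_ : KummerUnit W p A ζ)
    (D : LineData (gal (M' * p) p) (A.inertiaSubgroupIn ℚ) C.Y0
      (M0Kum (M' * p) A (exactDvd hpM') p) (fun σ => ((cyc p σ : (ZMod p)ˣ) : ZMod p)))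
    (T : TameDatum (M' * p) p A ζ)
    (_ : (Additive.ofMul (Kum.mk T.g) : Additive (Kum Kb (FK (M' * p)) p)) =
      (-1 : ZMod p) • D.w₀)
    (_ : (qEmb (M' * p) T.g₀).leadingCoeff = 1)
    (_ : ∀ σ ∈ A.inertiaSubgroupIn ℚ, ∃ h : FK (M' * p), h ≠ 0 ∧
        (∀ τ ∈ A.inertiaSubgroupIn ℚ, cyc p τ = 1 →
          arithmeticRingAut (modularFunctionFieldFull (M' * p)) τ h = h) ∧
        arithmeticRingAut (modularFunctionFieldFull (M' * p)) σ T.g₀ =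
          T.g₀ ^ rep (cyc p σ) * h ^ p)
    (hD₁ : IsDisc (valF₁ T (galVal1 (M' * p) A)) (ϖ₁ T))
    (hD₂ : IsDisc (valF₁ T (galVal2 (M' * p) A (exactDvd hpM'))) (ϖ₁ T))
    (γ₁ : Pack.Lc hD₁) (γ₂ : Pack.Lc hD₂) (hγ₁ : γ₁ ^ p = Pack.jc hD₁ (g₁ T))
    (hγ₂ : γ₂ ^ p = Pack.jc hD₂ (g₁ T)),
    ∃ (R1 : ZMod p → RedData Kb T.Fp (ResidueField A) (FresBar (M' * p) A))
      (hun1 : ∀ i, Unram (R1 i)) (_ : ∀ i, RedExt (redDataBar (M' * p) A) (R1 i)),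
      ∀ s : ι, ∃ a b : ZMod p, ∀ (j : ZMod p), ∀ y ∈ Us T,
        (wData T hA hD₁ hD₂ hγ₁ hγ₂).w₁ (j + a) y = 0 →
        (wData T hA hD₁ hD₂ hγ₁ hγ₂).w₂ (j + b) y = 0 →
        (p : ℤ) ∣ nodeOrd (R1 (j + a)) (hun1 (j + a)) (P s)
          (fixedUnits (tameGroup A ζ) T.Fp) y

/-- **(N1) CLOSED**: the two deep `K'`-rational representatives of `T.g₀`. -/
theorem deepSupplyK (Dcl : FrameClause) : DeepSupplyK Dcl := by
  intro W hΔ p _ hp5 hss hmult hpeu hirr hord M' _ hpM' hnot C hC A hA hAp ι _ P Q c n₀ FF NH hd ζ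
    hKU D T hg hlc hσ
  have hp2 : p ≠ 2 := by omega
  exact Fermat.Agent.GF.KCover.ASRep.DeepRepPlug.deepRep_of_lineData W hpM' hA hp2 hnot C hC FF NH
    T hlc le_rfl D (-1) hg

/-- **`NodeSupplyK` from its two suppliers.** -/
theorem nodeSupplyK_of_parts (Dcl : FrameClause) (h1 : DeepSupplyK Dcl) (h2 : NLSupplyK Dcl) :
    NodeSupplyK Dcl := by
  intro W hΔ p _ hp5 hss hmult hpeu hirr hord M' _ hpM' hnot C hC A hA hAp ι _ P Q c n₀ FF NH hd ζ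
    hKU D T hg hlc hσ hD₁ hD₂
  obtain ⟨⟨d₁, z₁, hd₁, hz₁, hg₁, hdeep₁⟩, ⟨d₂, z₂, hd₂, hz₂, hg₂, hdeep₂⟩⟩ :=
    h1 W hΔ p hp5 hss hmult hpeu hirr hord M' hpM' hnot C hC A hA hAp ι P Q c n₀ FF NH hd ζ hKU D T
      hg hlc hσ
  obtain ⟨γ₁, hγ₁⟩ := exists_root T hA hD₁ hd₁ hz₁ hg₁ hdeep₁
  obtain ⟨γ₂, hγ₂⟩ := exists_root T hA hD₂ hd₂ hz₂ hg₂ hdeep₂
  obtain ⟨R1, hun1, hext, hNL⟩ :=
    h2 W hΔ p hp5 hss hmult hpeu hirr hord M' hpM' hnot C hC A hA hAp ι P Q c n₀ FF NH hd ζ hKU D T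
      hg hlc hσ hD₁ hD₂ γ₁ γ₂ hγ₁ hγ₂
  choose as bs hab using hNL
  exact ⟨γ₁, γ₂, hγ₁, hγ₂, as, bs, R1, hun1, hext, fun s j y hy h1 h2 => hab s j y hy h1 h2⟩

/-- **the gate target from the ONE remaining supplier `NLSupplyK`.** -/
theorem tropZeroT_of_partsK (Dcl : FrameClause)
    (hDd : ∀ (p : ℕ) [Fact p.Prime] (M' : ℕ) [NeZero M'] (hpM' : ¬ p ∣ M')
      (A : ValuationSubring Kbar) (ι : Type) [Fintype ι]
      (P Q : ι → Place (ResidueField A) (FresBar (M' * p) A)),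
      Dcl p M' hpM' A ι P Q →
      ∀ Q' : Place (ResidueField A) (FresBar (M' * p) A), 0 ≤ Q'.ord (tauF (M' * p) A) →
        (∀ s, Q' ≠ P s) →
        Q'.ord ((redDataBar (M' * p) A).red
          ⟨etaQ (M' * p) p (exactDvd hpM').dvd,
            etaQ_mem_Rw1 (M' * p) A p (exactDvd hpM').dvd⟩) = 0)
    (hDf : ∀ (p : ℕ) [Fact p.Prime] (_ : 5 ≤ p) (M' : ℕ) [NeZero M'] (hpM' : ¬ p ∣ M')
      (A : ValuationSubring Kbar) (_ : A.LiesOverPrime p) (ι : Type) [Fintype ι]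
      (P Q : ι → Place (ResidueField A) (FresBar (M' * p) A)) (c : ℤ) (n₀ : ℕ)
      (_ : FrameFacts (M' * p) A (exactDvd hpM') P Q)
      (_ : NodalHyp (redCompatFN (M' * p) A (exactDvd hpM')) P Q (CS (M' * p) (exactDvd hpM'))
        (Dτ (M' * p) A p) (Dτ (M' * p) A p) (genusRR Kbar (FN (M' * p))) c n₀),
      Dcl p M' hpM' A ι P Q →
      ∀ s, ¬ (p : ℤ) ∣ (P s).ord ((redDataBar (M' * p) A).red
          ⟨etaQ (M' * p) p (exactDvd hpM').dvd,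
            etaQ_mem_Rw1 (M' * p) A p (exactDvd hpM').dvd⟩))
    (h2 : NLSupplyK Dcl) : TropZeroT Dcl :=
  tropZeroT_of_nodeSupplyK Dcl hDd hDf (nodeSupplyK_of_parts Dcl (deepSupplyK Dcl) h2)

end Fermat.Agent.GF.F2Asm.F2PlugK
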