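/-
GATE-F (S44) / node GF-F2-ASM, second seat (helper2): **the concrete `g₀` feeds `KummerExt`.**

For the `g₀` of `G0Inst.exists_g0` (class `−w₀`, `w₀ ≠ 0`):

* `not_pow_of_class` : `g₀` is not a `p`-th power in `F_N`, hence `X ^ p − g₀` is irreducible
  (`irreducible_kpoly_of_class`) and `KExt p g₀` is a field;
* `Iprime p A = I_A ⊓ ker (cyc p)` and `stabHom` : `I' →* Stab g₀ ζ` (`ζ` the image in `F_N` of a
  primitive `p`-th root of unity of `ℚ̄`), through `arithmeticGalois` — compose with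
  `KummerExt.lift` to get the semilinear action of `I'` on `F' = KExt p g₀`;
* `exists_g0_cover` : everything in one statement.
-/
import Fermat.Agent.GF.F2Asm.G0Inst
import Fermat.Agent.GF.F2Asm.KummerExt

set_option autoImplicit false
set_option linter.unusedSectionVars false
set_option linter.style.haveILetI false

noncomputable section

namespace Fermat.Agent.GF.F2Asm.G0Cover

open AlgebraicCurve ModularCurve
open Fermat.Agent.GJ.KumGroup Fermat.Agent.GJ.Kum.KumType Fermat.Agent.GJ.CycChar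
open Fermat.Agent.GF.F2Asm.OmegaProj Fermat.Agent.GF.F2Asm.G0Inst Fermat.Agent.GF.F2Asm.KummerExt

local notation "GQ" => (AlgebraicClosure ℚ ≃ₐ[ℚ] AlgebraicClosure ℚ)

variable (N : ℕ) [NeZero N] (p : ℕ) [Fact p.Prime]

/-- a `p`-divisible unit whose class is not trivial is not a `p`-th power. -/
theorem not_pow_of_class {K F : Type*} [Field K] [Field F] [Algebra K F] {p : ℕ}
    (g : pDivUnits K F p) (hg : (Additive.ofMul (Kum.mk g) : Additive (Kum K F p)) ≠ 0) :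
    ∀ b : F, b ^ p ≠ ((g : Fˣ) : F) := by
  intro b hb
  apply hg
  by_cases hp : p = 0
  · subst hp
    rw [pow_zero] at hb
    have h1 : (g : Fˣ) = 1 := Units.ext hb.symm
    have h2 : g = 1 := Subtype.ext h1
    rw [h2, map_one]
    rfl
  have hb0 : b ≠ 0 := by
    rintro rfl
    rw [zero_pow hp] at hb
    exact absurd hb.symm (g : Fˣ).ne_zero
  have h3 : (Kum.mk (1 : pDivUnits K F p) : Kum K F p) = Kum.mk g :=
    Kum.mk_eq_mk_iff.mpr ⟨Units.mk0 b hb0, by
      apply Units.ext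
      rw [Units.val_mul, Units.val_pow_eq_pow_val, Units.val_mk0, OneMemClass.coe_one,
        Units.val_one, one_mul, hb]⟩
  rw [← h3, map_one]
  rfl

/-- `X ^ p − g₀` is irreducible when the class of `g₀` is not trivial. -/
theorem irreducible_kpoly_of_class {K F : Type*} [Field K] [Field F] [Algebra K F] {p : ℕ}
    (hp : p.Prime) (g : pDivUnits K F p)
    (hg : (Additive.ofMul (Kum.mk g) : Additive (Kum K F p)) ≠ 0) :
    Irreducible (kpoly p (((g : Fˣ) : F))) :=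
  irreducible_kpoly hp (not_pow_of_class g hg)

/-- `I' = I_A ∩ ker ω`. -/
def Iprime (A : ValuationSubring Kb) : Subgroup GQ := A.inertiaSubgroupIn ℚ ⊓ (cyc p).ker

theorem mem_Iprime {A : ValuationSubring Kb} {σ : GQ} :
    σ ∈ Iprime p A ↔ σ ∈ A.inertiaSubgroupIn ℚ ∧ cyc p σ = 1 := by
  unfold Iprime
  rw [Subgroup.mem_inf, MonoidHom.mem_ker]

/-- `σ • y` for `σ = arithmeticGalois … σ` is the coefficientwise action. -/
theorem arithmeticGalois_smul (σ : GQ) (y : FK N) :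
    arithmeticGalois (modularFunctionFieldFull N) σ • y =
      arithmeticRingAut (modularFunctionFieldFull N) σ y := rfl

/-- the image of `I'` lies in the stabiliser of `g₀` and `ζ`. -/
theorem arithmeticGalois_mem_Stab (A : ValuationSubring Kb) {ζ₀ : Kb} (hζ₀ : IsPrimitiveRoot ζ₀ p)
    (g₀ : FK N)
    (hfix : ∀ σ ∈ A.inertiaSubgroupIn ℚ, cyc p σ = 1 →
      arithmeticRingAut (modularFunctionFieldFull N) σ g₀ = g₀)
    {σ : GQ} (hσ : σ ∈ Iprime p A) :
    arithmeticGalois (modularFunctionFieldFull N) σ ∈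
      Stab (K := Kb) g₀ (algebraMap Kb (FK N) ζ₀) := by
  obtain ⟨hσI, hσ1⟩ := (mem_Iprime p).mp hσ
  refine mem_Stab.mpr ⟨?_, ?_⟩
  · rw [arithmeticGalois_smul]
    exact hfix σ hσI hσ1
  · rw [SemilinearAut.smul_algebraMap]
    congr 1
    exact (cyc_eq_one_iff hζ₀ σ).mp hσ1

/-- **`I' →* Stab g₀ ζ`.** -/
def stabHom (A : ValuationSubring Kb) {ζ₀ : Kb} (hζ₀ : IsPrimitiveRoot ζ₀ p) (g₀ : FK N)
    (hfix : ∀ σ ∈ A.inertiaSubgroupIn ℚ, cyc p σ = 1 →
      arithmeticRingAut (modularFunctionFieldFull N) σ g₀ = g₀) :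
    Iprime p A →* Stab (K := Kb) g₀ (algebraMap Kb (FK N) ζ₀) :=
  ((arithmeticGalois (modularFunctionFieldFull N)).comp (Iprime p A).subtype).codRestrict _
    (fun σ => arithmeticGalois_mem_Stab N p A hζ₀ g₀ hfix σ.2)

theorem coe_stabHom (A : ValuationSubring Kb) {ζ₀ : Kb} (hζ₀ : IsPrimitiveRoot ζ₀ p) (g₀ : FK N)
    (hfix : ∀ σ ∈ A.inertiaSubgroupIn ℚ, cyc p σ = 1 →
      arithmeticRingAut (modularFunctionFieldFull N) σ g₀ = g₀) (σ : Iprime p A) :
    ((stabHom N p A hζ₀ g₀ hfix σ : Stab (K := Kb) g₀ (algebraMap Kb (FK N) ζ₀)) :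
      SemilinearAut Kb (FK N)) = arithmeticGalois (modularFunctionFieldFull N) (σ : GQ) := rfl

/-- **the concrete `g₀`, ready for `KummerExt`**: class `−w₀`, NOT a `p`-th power, `I'`-fixed
(so `stabHom` applies), and the exact `ω`-relation on `I_A`. -/
theorem exists_g0_cover (A : ValuationSubring Kb) (hA : (p : Kb) ∈ A.nonunits)
    (w₀ : Additive (Kum Kb (FK N) p)) (hw₀ : w₀ ≠ 0)
    (hact : ∀ σ ∈ A.inertiaSubgroupIn ℚ,
      gal N p σ w₀ = ((cyc p σ : (ZMod p)ˣ) : ZMod p) • w₀) :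
    ∃ g₀ : pDivUnits Kb (FK N) p,
      Additive.ofMul (Kum.mk g₀) = -w₀ ∧
      (∀ b : FK N, b ^ p ≠ ((g₀ : (FK N)ˣ) : FK N)) ∧
      Irreducible (kpoly p (((g₀ : (FK N)ˣ) : FK N))) ∧
      (∀ σ ∈ A.inertiaSubgroupIn ℚ, cyc p σ = 1 →
        arithmeticRingAut (modularFunctionFieldFull N) σ ((g₀ : (FK N)ˣ) : FK N) =
          ((g₀ : (FK N)ˣ) : FK N)) ∧
      ∀ σ ∈ A.inertiaSubgroupIn ℚ, ∃ h : FK N, h ≠ 0 ∧
        (∀ τ ∈ A.inertiaSubgroupIn ℚ, cyc p τ = 1 →
          arithmeticRingAut (modularFunctionFieldFull N) τ h = h) ∧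
        arithmeticRingAut (modularFunctionFieldFull N) σ ((g₀ : (FK N)ˣ) : FK N) =
          ((g₀ : (FK N)ˣ) : FK N) ^ rep (cyc p σ) * h ^ p := by
  obtain ⟨g₀, hcl, hfix, hrel⟩ := exists_g0_field N p A hA w₀ hact
  have hne : (Additive.ofMul (Kum.mk g₀) : Additive (Kum Kb (FK N) p)) ≠ 0 := by
    rw [hcl]
    exact neg_ne_zero.mpr hw₀
  exact ⟨g₀, hcl, not_pow_of_class g₀ hne,
    irreducible_kpoly_of_class (Fact.out : p.Prime) g₀ hne, hfix, hrel⟩

end Fermat.Agent.GF.F2Asm.G0Cover
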