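/-
GATE-F (S44) / node GF-F2-ASM, file 19 (helper31; RULING-6 of helper13, board 6782: INTEGRATION of
`nodeSupply`): **`F2Plug.NodeSupply Dcl` from its two suppliers, in hypothesis form.**

* `DeepSupply Dcl` = (N1): in the `NodeSupply` context (tame datum `T` with `[T.g] = −w₀`,
  `lc_q T.g₀ = 1`, the exact `I_A`-lift relation), helper3's `WDataFinal.DeepRep T V` at both Gauss
  valuations (GF-DEEPREP-PLUG: `ASFormChart.exists_deepRep_chart` + `RepUnique.rep_unique`);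
* `NLSupply Dcl` = (N3) + (N4): for ANY `p`-th roots `γ₁ γ₂` (over ANY `IsDisc` records): the sheet
  reductions `R1` (helper19 `Bridge.sheetK` / SheetKMod) and, **node by node**,
  `∃ a b : ZMod p, ∀ j, NL_{s,j}` (helper42 `NlNode` at level `4N` + helper47 `nl_descent_Us`;
  `a b` from `SheetMeet.exists_shift_hmeet`);
* `nodeSupply_of_parts : DeepSupply Dcl → NLSupply Dcl → F2Plug.NodeSupply Dcl`
  (`WDataOf.exists_root` + choice of `as bs`);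
* `tropZeroT_of_parts` : the gate target `Provider44T.TropZeroT Dcl` from the two suppliers.
-/
import Fermat.Agent.GF.F2Asm.F2Plug
import Fermat.Agent.GF.KCover.Field.WDataFinal

set_option autoImplicit false
set_option linter.unusedSectionVars false
set_option linter.unusedVariables false

noncomputable section

namespace Fermat.Agent.GF.F2Asm.NodeSupplyAsm

open AlgebraicCurve IntermediateField Module IsLocalRing ModularCurve
open Fermat.Agent.Common_helper32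
open Fermat.Agent.S24 Fermat.Agent.S24_helper62 Fermat.Agent.RRh45 Fermat.Agent.RR
open Fermat.Agent.GJ.J1 Fermat.Agent.GJ.J1.Val Fermat.Agent.GJ.J1.InstGen
open Fermat.Agent.GK.MultiVal Fermat.Agent.GK.BallTwo Fermat.Agent.GK.NodalGraded
open Fermat.Agent.GS.Nodal.LSR2 Fermat.Agent.GS.Nodal.Inst Fermat.Agent.GS.Nodal.ROfSurj2
open Fermat.Agent.GJ Fermat.Agent.GJ.KumGroup Fermat.Agent.GJ.Kum.KumType
open Fermat.Agent.GJ.CycChar Fermat.Agent.GB.A.A6.ECDet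
open Fermat.Agent.GK.UQ Fermat.Agent.GK.New Fermat.Agent.GK.AL Fermat.Agent.GK.UqKronecker
open Fermat.Agent.GK.SS
open Fermat.Agent.GL.Eta Fermat.Agent.GK.CuspSep
open Fermat.Agent.GB.A.A6.EigQ
open Fermat.Agent.GF.Setup.Plane Fermat.Agent.GF.Setup.S0 Fermat.Agent.GF.Shape.Sub
open Fermat.Agent.GF.Shape.Plug Fermat.Agent.GF.Trop Fermat.Agent.GF.Peu Fermat.Agent.GF.ETate
open Fermat.Agent.GF.Top.S44TopOrd
open Fermat.Agent.GF.Top.Provider44T Fermat.Agent.GF.Top.Provider44D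
open Fermat.Agent.GF.KCover Fermat.Agent.GF.F2Asm.Inst Fermat.Agent.GF.F2Asm.NRAsm
open Fermat.Agent.GF.F2Asm.OmegaProj
open Fermat.Agent.GF.F2Asm.UsInst Fermat.Agent.GF.F2Asm.EtaUnit Fermat.Agent.GF.F2Asm.EtaUnitW
open Fermat.Agent.GF.KCover.Field Fermat.Agent.GF.KCover.Field.Disc
open Fermat.Agent.GF.KCover.Field.WDataOf Fermat.Agent.GF.KCover.Node.OrdRedExt
open Fermat.Agent.GF.KCover.Field.WDataFinal Fermat.Agent.GF.F2Asm.F2Plug

attribute [local instance] finiteResidues_FN hasPrincipalDivisors_FN nonempty_place_FN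
  isAlgClosed_res finiteResidues_Fres hasPrincipalDivisors_Fres nonempty_place_Fres

/-- **(N1)**: the two deep `K'`-rational representatives of `T.g₀`, in the `NodeSupply` context. -/
def DeepSupply (Dcl : FrameClause) : Prop :=
  ∀ (W : WeierstrassCurve ℤ) (_ : W.Δ ≠ 0) (p : ℕ) [Fact p.Prime] (_ : 5 ≤ p)
    (_ : W.IsSemistableModel) (_ : (p : ℤ) ∣ W.Δ)
    (_ : (W.map (Int.castRingHom ℚ)).IsPeuRamifieeAt p p)
    (_ : W.ModRepIsIrreducible p)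
    (_ : OrdAt W p)
    (M' : ℕ) [NeZero M'] (hpM' : ¬ p ∣ M')
    (C : Copy W p (M' * p))
    (A : ValuationSubring Kbar) (hA : A.LiesOverPrime p) (_ : A = padicPlace p)
    (ι : Type) [Fintype ι]
    (P Q : ι → Place (ResidueField A) (FresBar (M' * p) A)) (c : ℤ) (n₀ : ℕ)
    (_ : FrameFacts (M' * p) A (exactDvd hpM') P Q)
    (_ : NodalHyp (redCompatFN (M' * p) A (exactDvd hpM')) P Q (CS (M' * p) (exactDvd hpM'))
      (Dτ (M' * p) A p) (Dτ (M' * p) A p) (genusRR Kbar (FN (M' * p))) c n₀)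
    (_ : Dcl p M' hpM' A ι P Q)
    (ζ : Kb) (_ : KummerUnit W p A ζ)
    (D : LineData (gal (M' * p) p) (A.inertiaSubgroupIn ℚ) C.Y0
      (M0Kum (M' * p) A (exactDvd hpM') p) (fun σ => ((cyc p σ : (ZMod p)ˣ) : ZMod p)))
    (T : TameDatum (M' * p) p A ζ)
    (_ : (Additive.ofMul (Kum.mk T.g) : Additive (Kum Kb (FK (M' * p)) p)) =
      (-1 : ZMod p) • D.w₀)
    (_ : (qEmb (M' * p) T.g₀).leadingCoeff = 1)
    (_ : ∀ σ ∈ A.inertiaSubgroupIn ℚ, ∃ h : FK (M' * p), h ≠ 0 ∧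
        (∀ τ ∈ A.inertiaSubgroupIn ℚ, cyc p τ = 1 →
          arithmeticRingAut (modularFunctionFieldFull (M' * p)) τ h = h) ∧
        arithmeticRingAut (modularFunctionFieldFull (M' * p)) σ T.g₀ =
          T.g₀ ^ rep (cyc p σ) * h ^ p),
    DeepRep T (galVal1 (M' * p) A) ∧ DeepRep T (galVal2 (M' * p) A (exactDvd hpM'))

/-- **(N3) + (N4)**: the sheet reductions and, node by node, the offsets and the node lemma on
`Us T` — for ANY `p`-th roots `γ₁ γ₂` of `g₀` in the two completions. -/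
def NLSupply (Dcl : FrameClause) : Prop :=
  ∀ (W : WeierstrassCurve ℤ) (_ : W.Δ ≠ 0) (p : ℕ) [Fact p.Prime] (_ : 5 ≤ p)
    (_ : W.IsSemistableModel) (_ : (p : ℤ) ∣ W.Δ)
    (_ : (W.map (Int.castRingHom ℚ)).IsPeuRamifieeAt p p)
    (_ : W.ModRepIsIrreducible p)
    (_ : OrdAt W p)
    (M' : ℕ) [NeZero M'] (hpM' : ¬ p ∣ M')
    (C : Copy W p (M' * p))
    (A : ValuationSubring Kbar) (hA : A.LiesOverPrime p) (_ : A = padicPlace p)
    (ι : Type) [Fintype ι]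
    (P Q : ι → Place (ResidueField A) (FresBar (M' * p) A)) (c : ℤ) (n₀ : ℕ)
    (_ : FrameFacts (M' * p) A (exactDvd hpM') P Q)
    (_ : NodalHyp (redCompatFN (M' * p) A (exactDvd hpM')) P Q (CS (M' * p) (exactDvd hpM'))
      (Dτ (M' * p) A p) (Dτ (M' * p) A p) (genusRR Kbar (FN (M' * p))) c n₀)
    (_ : Dcl p M' hpM' A ι P Q)
    (ζ : Kb) (_ : KummerUnit W p A ζ)
    (D : LineData (gal (M' * p) p) (A.inertiaSubgroupIn ℚ) C.Y0
      (M0Kum (M' * p) A (exactDvd hpM') p) (fun σ => ((cyc p σ : (ZMod p)ˣ) : ZMod p)))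
    (T : TameDatum (M' * p) p A ζ)
    (_ : (Additive.ofMul (Kum.mk T.g) : Additive (Kum Kb (FK (M' * p)) p)) =
      (-1 : ZMod p) • D.w₀)
    (_ : (qEmb (M' * p) T.g₀).leadingCoeff = 1)
    (_ : ∀ σ ∈ A.inertiaSubgroupIn ℚ, ∃ h : FK (M' * p), h ≠ 0 ∧
        (∀ τ ∈ A.inertiaSubgroupIn ℚ, cyc p τ = 1 →
          arithmeticRingAut (modularFunctionFieldFull (M' * p)) τ h = h) ∧
        arithmeticRingAut (modularFunctionFieldFull (M' * p)) σ T.g₀ =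
          T.g₀ ^ rep (cyc p σ) * h ^ p)
    (hD₁ : IsDisc (valF₁ T (galVal1 (M' * p) A)) (ϖ₁ T))
    (hD₂ : IsDisc (valF₁ T (galVal2 (M' * p) A (exactDvd hpM'))) (ϖ₁ T))
    (γ₁ : Pack.Lc hD₁) (γ₂ : Pack.Lc hD₂) (hγ₁ : γ₁ ^ p = Pack.jc hD₁ (g₁ T))
    (hγ₂ : γ₂ ^ p = Pack.jc hD₂ (g₁ T)),
    ∃ (R1 : ZMod p → RedData Kb T.Fp (ResidueField A) (FresBar (M' * p) A))
      (hun1 : ∀ i, Unram (R1 i)) (_ : ∀ i, RedExt (redDataBar (M' * p) A) (R1 i)),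
      ∀ s : ι, ∃ a b : ZMod p, ∀ (j : ZMod p), ∀ y ∈ Us T,
        (wData T hA hD₁ hD₂ hγ₁ hγ₂).w₁ (j + a) y = 0 →
        (wData T hA hD₁ hD₂ hγ₁ hγ₂).w₂ (j + b) y = 0 →
        (p : ℤ) ∣ nodeOrd (R1 (j + a)) (hun1 (j + a)) (P s)
          (fixedUnits (tameGroup A ζ) T.Fp) y

/-- **`NodeSupply` from its two suppliers.** -/
theorem nodeSupply_of_parts (Dcl : FrameClause) (h1 : DeepSupply Dcl) (h2 : NLSupply Dcl) :
    NodeSupply Dcl := by
  intro W hΔ p _ hp5 hss hmult hpeu hirr hord M' _ hpM' C A hA hAp ι _ P Q c n₀ FF NH hd ζ hKU D T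
    hg hlc hσ hD₁ hD₂
  obtain ⟨⟨d₁, z₁, hd₁, hz₁, hg₁, hdeep₁⟩, ⟨d₂, z₂, hd₂, hz₂, hg₂, hdeep₂⟩⟩ :=
    h1 W hΔ p hp5 hss hmult hpeu hirr hord M' hpM' C A hA hAp ι P Q c n₀ FF NH hd ζ hKU D T
      hg hlc hσ
  obtain ⟨γ₁, hγ₁⟩ := exists_root T hA hD₁ hd₁ hz₁ hg₁ hdeep₁
  obtain ⟨γ₂, hγ₂⟩ := exists_root T hA hD₂ hd₂ hz₂ hg₂ hdeep₂
  obtain ⟨R1, hun1, hext, hNL⟩ :=
    h2 W hΔ p hp5 hss hmult hpeu hirr hord M' hpM' C A hA hAp ι P Q c n₀ FF NH hd ζ hKU D T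
      hg hlc hσ hD₁ hD₂ γ₁ γ₂ hγ₁ hγ₂
  choose as bs hab using hNL
  exact ⟨γ₁, γ₂, hγ₁, hγ₂, as, bs, R1, hun1, hext, fun s j y hy h1 h2 => hab s j y hy h1 h2⟩

/-- **the gate target from the two suppliers.** -/
theorem tropZeroT_of_parts (Dcl : FrameClause)
    (hDd : ∀ (p : ℕ) [Fact p.Prime] (M' : ℕ) [NeZero M'] (hpM' : ¬ p ∣ M')
      (A : ValuationSubring Kbar) (ι : Type) [Fintype ι]
      (P Q : ι → Place (ResidueField A) (FresBar (M' * p) A)),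
      Dcl p M' hpM' A ι P Q →
      ∀ Q' : Place (ResidueField A) (FresBar (M' * p) A), 0 ≤ Q'.ord (tauF (M' * p) A) →
        (∀ s, Q' ≠ P s) →
        Q'.ord ((redDataBar (M' * p) A).red
          ⟨etaQ (M' * p) p (exactDvd hpM').dvd,
            etaQ_mem_Rw1 (M' * p) A p (exactDvd hpM').dvd⟩) = 0)
    (hDf : ∀ (p : ℕ) [Fact p.Prime] (_ : 5 ≤ p) (M' : ℕ) [NeZero M'] (hpM' : ¬ p ∣ M')
      (A : ValuationSubring Kbar) (_ : A.LiesOverPrime p) (ι : Type) [Fintype ι]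
      (P Q : ι → Place (ResidueField A) (FresBar (M' * p) A)) (c : ℤ) (n₀ : ℕ)
      (_ : FrameFacts (M' * p) A (exactDvd hpM') P Q)
      (_ : NodalHyp (redCompatFN (M' * p) A (exactDvd hpM')) P Q (CS (M' * p) (exactDvd hpM'))
        (Dτ (M' * p) A p) (Dτ (M' * p) A p) (genusRR Kbar (FN (M' * p))) c n₀),
      Dcl p M' hpM' A ι P Q →
      ∀ s, ¬ (p : ℤ) ∣ (P s).ord ((redDataBar (M' * p) A).red
          ⟨etaQ (M' * p) p (exactDvd hpM').dvd,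
            etaQ_mem_Rw1 (M' * p) A p (exactDvd hpM').dvd⟩))
    (h1 : DeepSupply Dcl) (h2 : NLSupply Dcl) : TropZeroT Dcl :=
  tropZeroT_of_nodeSupply Dcl hDd hDf (nodeSupply_of_parts Dcl h1 h2)

end Fermat.Agent.GF.F2Asm.NodeSupplyAsm
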