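/-
GATE-F (S44) / node GF-F2-ASM, file 21 (helper31, assembler of `nodeSupply`; RULING-8 of helper13):
**`F2PlugK.NLSupplyK Dcl` (= frozen S44) from the PER-NODE node lemma on the concrete sheets.**

(N3) is plugged: `R1 i := SheetT.R1T T hA hD₁ hγ₁ i` (helper19 `Bridge.sheetK` in helper47's
`ModUp.TameUpData.sheetT` spelling, `harch` discharged), `hun1 := unram_R1T`, `hext := redExt_R1T`.

* `NLNodeK Dcl` : in the `NLSupplyK` context (for ANY `IsDisc` records and ANY roots `γ₁ γ₂`), for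
  every node `s` there is a shift `c : ZMod p` with, for every sheet `k`,
  `∀ y ∈ Us T, wOf₁ k y = 0 → wOf₂ (k + c) y = 0 → p ∣ nodeOrd (R1T k) (P s) y`
  — the conclusion of helper47's `ModUp.TameUpData.nl_of_up` VERBATIM with `(k, k') = (k, k + c)`;
* `nlSupplyK_of_nlNodeK : NLNodeK Dcl → NLSupplyK Dcl` (`a := 0`, `b := c`);
* `tropZeroT_of_nlNodeK` : the gate target from `NLNodeK Dcl` alone.
-/
import Fermat.Agent.GF.F2Asm.F2PlugK
import Fermat.Agent.GF.F2Asm.SheetT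

set_option autoImplicit false
set_option linter.unusedSectionVars false
set_option linter.unusedVariables false

noncomputable section

namespace Fermat.Agent.GF.F2Asm.NodeSupplyAsmK

open AlgebraicCurve IntermediateField Module IsLocalRing ModularCurve
open Fermat.Agent.Common_helper32
open Fermat.Agent.S24 Fermat.Agent.S24_helper62 Fermat.Agent.RRh45 Fermat.Agent.RR
open Fermat.Agent.GJ.J1 Fermat.Agent.GJ.J1.Val Fermat.Agent.GJ.J1.InstGen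
open Fermat.Agent.GK.MultiVal Fermat.Agent.GK.BallTwo Fermat.Agent.GK.NodalGraded
open Fermat.Agent.GS.Nodal.LSR2 Fermat.Agent.GS.Nodal.Inst Fermat.Agent.GS.Nodal.ROfSurj2
open Fermat.Agent.GJ Fermat.Agent.GJ.KumGroup Fermat.Agent.GJ.Kum.KumType
open Fermat.Agent.GJ.CycChar Fermat.Agent.GB.A.A6.ECDet
open Fermat.Agent.GK.UQ Fermat.Agent.GK.New Fermat.Agent.GK.AL Fermat.Agent.GK.UqKronecker
open Fermat.Agent.GK.SS
open Fermat.Agent.GL.Eta Fermat.Agent.GK.CuspSep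
open Fermat.Agent.GB.A.A6.EigQ
open Fermat.Agent.GF.Setup.Plane Fermat.Agent.GF.Setup.S0 Fermat.Agent.GF.Shape.Sub
open Fermat.Agent.GF.Shape.Plug Fermat.Agent.GF.Trop Fermat.Agent.GF.Peu Fermat.Agent.GF.ETate
open Fermat.Agent.GF.Top.S44TopOrd
open Fermat.Agent.GF.Top.Provider44T Fermat.Agent.GF.Top.Provider44D
open Fermat.Agent.GF.KCover Fermat.Agent.GF.F2Asm.Inst Fermat.Agent.GF.F2Asm.NRAsm
open Fermat.Agent.GF.F2Asm.OmegaProj
open Fermat.Agent.GF.F2Asm.UsInst Fermat.Agent.GF.F2Asm.EtaUnit Fermat.Agent.GF.F2Asm.EtaUnitW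
open Fermat.Agent.GF.KCover.Field Fermat.Agent.GF.KCover.Field.Disc
open Fermat.Agent.GF.KCover.Field.WDataOf Fermat.Agent.GF.KCover.Node.OrdRedExt
open Fermat.Agent.GF.KCover.Field.WDataFinal Fermat.Agent.GF.F2Asm.F2Plug
open Fermat.Agent.GF.F2Asm.F2PlugK Fermat.Agent.GF.F2Asm.SheetT

attribute [local instance] finiteResidues_FN hasPrincipalDivisors_FN nonempty_place_FN
  isAlgClosed_res finiteResidues_Fres hasPrincipalDivisors_Fres nonempty_place_Fres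

/-- **the per-node node lemma on the concrete sheets** (the ONE remaining statement of S44). -/
def NLNodeK (Dcl : FrameClause) : Prop :=
  ∀ (W : WeierstrassCurve ℤ) (_ : W.Δ ≠ 0) (p : ℕ) [Fact p.Prime] (_ : 5 ≤ p)
    (_ : W.IsSemistableModel) (_ : (p : ℤ) ∣ W.Δ)
    (_ : (W.map (Int.castRingHom ℚ)).IsPeuRamifieeAt p p)
    (_ : W.ModRepIsIrreducible p)
    (_ : OrdAt W p)
    (M' : ℕ) [NeZero M'] (hpM' : ¬ p ∣ M')
    (_ : ¬ W.IsResiduallyModularOfLevel p M')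
    (C : Copy W p (M' * p))
    (_ : C.Y0 ≤ eigQ (M' * p) p (Sset W (M' * p) p) (hMS W (M' * p) p) (aW W))
    (A : ValuationSubring Kbar) (hA : A.LiesOverPrime p) (_ : A = padicPlace p)
    (ι : Type) [Fintype ι]
    (P Q : ι → Place (ResidueField A) (FresBar (M' * p) A)) (c : ℤ) (n₀ : ℕ)
    (_ : FrameFacts (M' * p) A (exactDvd hpM') P Q)
    (_ : NodalHyp (redCompatFN (M' * p) A (exactDvd hpM')) P Q (CS (M' * p) (exactDvd hpM'))
      (Dτ (M' * p) A p) (Dτ (M' * p) A p) (genusRR Kbar (FN (M' * p))) c n₀)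
    (_ : Dcl p M' hpM' A ι P Q)
    (ζ : Kb) (_ : KummerUnit W p A ζ)
    (D : LineData (gal (M' * p) p) (A.inertiaSubgroupIn ℚ) C.Y0
      (M0Kum (M' * p) A (exactDvd hpM') p) (fun σ => ((cyc p σ : (ZMod p)ˣ) : ZMod p)))
    (T : TameDatum (M' * p) p A ζ)
    (_ : (Additive.ofMul (Kum.mk T.g) : Additive (Kum Kb (FK (M' * p)) p)) =
      (-1 : ZMod p) • D.w₀)
    (_ : (qEmb (M' * p) T.g₀).leadingCoeff = 1)
    (_ : ∀ σ ∈ A.inertiaSubgroupIn ℚ, ∃ h : FK (M' * p), h ≠ 0 ∧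
        (∀ τ ∈ A.inertiaSubgroupIn ℚ, cyc p τ = 1 →
          arithmeticRingAut (modularFunctionFieldFull (M' * p)) τ h = h) ∧
        arithmeticRingAut (modularFunctionFieldFull (M' * p)) σ T.g₀ =
          T.g₀ ^ rep (cyc p σ) * h ^ p)
    (hD₁ : IsDisc (valF₁ T (galVal1 (M' * p) A)) (ϖ₁ T))
    (hD₂ : IsDisc (valF₁ T (galVal2 (M' * p) A (exactDvd hpM'))) (ϖ₁ T))
    (γ₁ : Pack.Lc hD₁) (γ₂ : Pack.Lc hD₂) (hγ₁ : γ₁ ^ p = Pack.jc hD₁ (g₁ T))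
    (hγ₂ : γ₂ ^ p = Pack.jc hD₂ (g₁ T)),
    ∀ s : ι, ∃ c : ZMod p, ∀ (k : ZMod p), ∀ y ∈ Us T,
      wOf T hD₁ hγ₁ k y = 0 → wOf T hD₂ hγ₂ (k + c) y = 0 →
      (p : ℤ) ∣ nodeOrd (R1T T hA hD₁ hγ₁ k) (unram_R1T T hA hD₁ hγ₁ k) (P s)
        (fixedUnits (tameGroup A ζ) T.Fp) y

/-- **`NLSupplyK` from the per-node node lemma.** -/
theorem nlSupplyK_of_nlNodeK (Dcl : FrameClause) (H : NLNodeK Dcl) : NLSupplyK Dcl := by
  intro W hΔ p _ hp5 hss hmult hpeu hirr hord M' _ hpM' hnot C hC A hA hAp ι _ P Q c n₀ FF NH hd ζ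
    hKU D T hg hlc hσ hD₁ hD₂ γ₁ γ₂ hγ₁ hγ₂
  refine ⟨R1T T hA hD₁ hγ₁, unram_R1T T hA hD₁ hγ₁, redExt_R1T T hA hD₁ hγ₁, fun s => ?_⟩
  obtain ⟨c', hc'⟩ := H W hΔ p hp5 hss hmult hpeu hirr hord M' hpM' hnot C hC A hA hAp ι P Q c n₀
    FF NH hd ζ hKU D T hg hlc hσ hD₁ hD₂ γ₁ γ₂ hγ₁ hγ₂ s
  refine ⟨0, c', fun j y hy h1 h2 => ?_⟩
  have key : ∀ k : ZMod p, k = j + 0 →
      (p : ℤ) ∣ nodeOrd (R1T T hA hD₁ hγ₁ k) (unram_R1T T hA hD₁ hγ₁ k) (P s)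
        (fixedUnits (tameGroup A ζ) T.Fp) y := by
    intro k hk
    have hk' : k = j := by rw [hk, add_zero]
    subst hk'
    refine hc' k y hy ?_ h2
    have h1' : wOf T hD₁ hγ₁ (k + 0) y = 0 := h1
    rwa [add_zero] at h1'
  exact key (j + 0) rfl

/-- **the gate target from the per-node node lemma.** -/
theorem tropZeroT_of_nlNodeK (Dcl : FrameClause)
    (hDd : ∀ (p : ℕ) [Fact p.Prime] (M' : ℕ) [NeZero M'] (hpM' : ¬ p ∣ M')
      (A : ValuationSubring Kbar) (ι : Type) [Fintype ι]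
      (P Q : ι → Place (ResidueField A) (FresBar (M' * p) A)),
      Dcl p M' hpM' A ι P Q →
      ∀ Q' : Place (ResidueField A) (FresBar (M' * p) A), 0 ≤ Q'.ord (tauF (M' * p) A) →
        (∀ s, Q' ≠ P s) →
        Q'.ord ((redDataBar (M' * p) A).red
          ⟨etaQ (M' * p) p (exactDvd hpM').dvd,
            etaQ_mem_Rw1 (M' * p) A p (exactDvd hpM').dvd⟩) = 0)
    (hDf : ∀ (p : ℕ) [Fact p.Prime] (_ : 5 ≤ p) (M' : ℕ) [NeZero M'] (hpM' : ¬ p ∣ M')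
      (A : ValuationSubring Kbar) (_ : A.LiesOverPrime p) (ι : Type) [Fintype ι]
      (P Q : ι → Place (ResidueField A) (FresBar (M' * p) A)) (c : ℤ) (n₀ : ℕ)
      (_ : FrameFacts (M' * p) A (exactDvd hpM') P Q)
      (_ : NodalHyp (redCompatFN (M' * p) A (exactDvd hpM')) P Q (CS (M' * p) (exactDvd hpM'))
        (Dτ (M' * p) A p) (Dτ (M' * p) A p) (genusRR Kbar (FN (M' * p))) c n₀),
      Dcl p M' hpM' A ι P Q →
      ∀ s, ¬ (p : ℤ) ∣ (P s).ord ((redDataBar (M' * p) A).red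
          ⟨etaQ (M' * p) p (exactDvd hpM').dvd,
            etaQ_mem_Rw1 (M' * p) A p (exactDvd hpM').dvd⟩))
    (H : NLNodeK Dcl) : TropZeroT Dcl :=
  tropZeroT_of_partsK Dcl hDd hDf (nlSupplyK_of_nlNodeK Dcl H)

end Fermat.Agent.GF.F2Asm.NodeSupplyAsmK
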