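/-
GATE-F (S44) / node GF-F2-ASM, file 22 (helper31, assembler of `nodeSupply`): **the per-node target
in helper19's `SheetsMod.sheet₁` spelling** (his file crossed with `F2Asm/SheetT`; the two sheets are
DEFINITIONALLY equal: `R1T_eq_sheet₁ : R1T T hA hD₁ hγ₁ i = sheet₁ T hA hD₁ hγ₁ i := rfl`).

* `R1T_eq_sheet₁`, `R2T_eq_sheet₂` (`rfl`);
* `NLNodeS Dcl` := `NodeSupplyAsmK.NLNodeK Dcl` with `nodeOrd (sheet₁ …) (unram_sheet₁ …)` — the
  conclusion of helper18's `FourDown.exists_four_descent` VERBATIM at `(k, k') = (k, k + c)`;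
* `nlNodeK_of_nlNodeS`, `tropZeroT_of_nlNodeS`.
-/
import Fermat.Agent.GF.F2Asm.NodeSupplyAsmK
import Fermat.Agent.GF.KCover.Compl.SheetsMod

set_option autoImplicit false
set_option linter.unusedSectionVars false
set_option linter.unusedVariables false

noncomputable section

namespace Fermat.Agent.GF.F2Asm.NodeSupplyAsmS

open AlgebraicCurve IntermediateField Module IsLocalRing ModularCurve
open Fermat.Agent.Common_helper32
open Fermat.Agent.S24 Fermat.Agent.S24_helper62 Fermat.Agent.RRh45 Fermat.Agent.RR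
open Fermat.Agent.GJ.J1 Fermat.Agent.GJ.J1.Val Fermat.Agent.GJ.J1.InstGen
open Fermat.Agent.GK.MultiVal Fermat.Agent.GK.BallTwo Fermat.Agent.GK.NodalGraded
open Fermat.Agent.GS.Nodal.LSR2 Fermat.Agent.GS.Nodal.Inst Fermat.Agent.GS.Nodal.ROfSurj2
open Fermat.Agent.GJ Fermat.Agent.GJ.KumGroup Fermat.Agent.GJ.Kum.KumType
open Fermat.Agent.GJ.CycChar Fermat.Agent.GB.A.A6.ECDet
open Fermat.Agent.GK.UQ Fermat.Agent.GK.New Fermat.Agent.GK.AL Fermat.Agent.GK.UqKronecker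
open Fermat.Agent.GK.SS
open Fermat.Agent.GL.Eta Fermat.Agent.GK.CuspSep
open Fermat.Agent.GB.A.A6.EigQ
open Fermat.Agent.GF.Setup.Plane Fermat.Agent.GF.Setup.S0 Fermat.Agent.GF.Shape.Sub
open Fermat.Agent.GF.Shape.Plug Fermat.Agent.GF.Trop Fermat.Agent.GF.Peu Fermat.Agent.GF.ETate
open Fermat.Agent.GF.Top.S44TopOrd
open Fermat.Agent.GF.Top.Provider44T Fermat.Agent.GF.Top.Provider44D
open Fermat.Agent.GF.KCover Fermat.Agent.GF.F2Asm.Inst Fermat.Agent.GF.F2Asm.NRAsm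
open Fermat.Agent.GF.F2Asm.OmegaProj
open Fermat.Agent.GF.F2Asm.UsInst Fermat.Agent.GF.F2Asm.EtaUnit Fermat.Agent.GF.F2Asm.EtaUnitW
open Fermat.Agent.GF.KCover.Field Fermat.Agent.GF.KCover.Field.Disc
open Fermat.Agent.GF.KCover.Field.WDataOf Fermat.Agent.GF.KCover.Node.OrdRedExt
open Fermat.Agent.GF.KCover.Field.WDataFinal Fermat.Agent.GF.F2Asm.F2Plug
open Fermat.Agent.GF.F2Asm.F2PlugK Fermat.Agent.GF.F2Asm.SheetT
open Fermat.Agent.GF.F2Asm.NodeSupplyAsmK Fermat.Agent.GF.KCover.Compl.SheetsMod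

attribute [local instance] finiteResidues_FN hasPrincipalDivisors_FN nonempty_place_FN
  isAlgClosed_res finiteResidues_Fres hasPrincipalDivisors_Fres nonempty_place_Fres

section Twin

variable {N : ℕ} [NeZero N] {p : ℕ} [hpF : Fact p.Prime] {A : ValuationSubring Kb} {ζ : Kb}
  (T : TameDatum N p A ζ) (hA : (p : Kb) ∈ A.nonunits)

/-- the two spellings of the `i`-th sheet above the first component agree definitionally. -/
theorem R1T_eq_sheet₁ (hD₁ : IsDisc (valF₁ T (galVal1 N A)) (ϖ₁ T)) {γ₁ : Pack.Lc hD₁}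
    (hγ₁ : γ₁ ^ p = Pack.jc hD₁ (g₁ T)) (i : ZMod p) :
    R1T T hA hD₁ hγ₁ i = sheet₁ T hA hD₁ hγ₁ i := rfl

/-- the two spellings of the `i`-th sheet above the second component agree definitionally. -/
theorem R2T_eq_sheet₂ {q : ℕ} (h : ExactDvd q N)
    (hD₂ : IsDisc (valF₁ T (galVal2 N A h)) (ϖ₁ T)) {γ₂ : Pack.Lc hD₂}
    (hγ₂ : γ₂ ^ p = Pack.jc hD₂ (g₁ T)) (i : ZMod p) :
    R2T T hA h hD₂ hγ₂ i = sheet₂ T h hA hD₂ hγ₂ i := rfl

end Twin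

/-- **the per-node node lemma on helper19's sheets `sheet₁`.** -/
def NLNodeS (Dcl : FrameClause) : Prop :=
  ∀ (W : WeierstrassCurve ℤ) (_ : W.Δ ≠ 0) (p : ℕ) [Fact p.Prime] (_ : 5 ≤ p)
    (_ : W.IsSemistableModel) (_ : (p : ℤ) ∣ W.Δ)
    (_ : (W.map (Int.castRingHom ℚ)).IsPeuRamifieeAt p p)
    (_ : W.ModRepIsIrreducible p)
    (_ : OrdAt W p)
    (M' : ℕ) [NeZero M'] (hpM' : ¬ p ∣ M')
    (_ : ¬ W.IsResiduallyModularOfLevel p M')
    (C : Copy W p (M' * p))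
    (_ : C.Y0 ≤ eigQ (M' * p) p (Sset W (M' * p) p) (hMS W (M' * p) p) (aW W))
    (A : ValuationSubring Kbar) (hA : A.LiesOverPrime p) (_ : A = padicPlace p)
    (ι : Type) [Fintype ι]
    (P Q : ι → Place (ResidueField A) (FresBar (M' * p) A)) (c : ℤ) (n₀ : ℕ)
    (_ : FrameFacts (M' * p) A (exactDvd hpM') P Q)
    (_ : NodalHyp (redCompatFN (M' * p) A (exactDvd hpM')) P Q (CS (M' * p) (exactDvd hpM'))
      (Dτ (M' * p) A p) (Dτ (M' * p) A p) (genusRR Kbar (FN (M' * p))) c n₀)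
    (_ : Dcl p M' hpM' A ι P Q)
    (ζ : Kb) (_ : KummerUnit W p A ζ)
    (D : LineData (gal (M' * p) p) (A.inertiaSubgroupIn ℚ) C.Y0
      (M0Kum (M' * p) A (exactDvd hpM') p) (fun σ => ((cyc p σ : (ZMod p)ˣ) : ZMod p)))
    (T : TameDatum (M' * p) p A ζ)
    (_ : (Additive.ofMul (Kum.mk T.g) : Additive (Kum Kb (FK (M' * p)) p)) =
      (-1 : ZMod p) • D.w₀)
    (_ : (qEmb (M' * p) T.g₀).leadingCoeff = 1)
    (_ : ∀ σ ∈ A.inertiaSubgroupIn ℚ, ∃ h : FK (M' * p), h ≠ 0 ∧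
        (∀ τ ∈ A.inertiaSubgroupIn ℚ, cyc p τ = 1 →
          arithmeticRingAut (modularFunctionFieldFull (M' * p)) τ h = h) ∧
        arithmeticRingAut (modularFunctionFieldFull (M' * p)) σ T.g₀ =
          T.g₀ ^ rep (cyc p σ) * h ^ p)
    (hD₁ : IsDisc (valF₁ T (galVal1 (M' * p) A)) (ϖ₁ T))
    (hD₂ : IsDisc (valF₁ T (galVal2 (M' * p) A (exactDvd hpM'))) (ϖ₁ T))
    (γ₁ : Pack.Lc hD₁) (γ₂ : Pack.Lc hD₂) (hγ₁ : γ₁ ^ p = Pack.jc hD₁ (g₁ T))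
    (hγ₂ : γ₂ ^ p = Pack.jc hD₂ (g₁ T)),
    ∀ s : ι, ∃ c : ZMod p, ∀ (k : ZMod p), ∀ y ∈ Us T,
      wOf T hD₁ hγ₁ k y = 0 → wOf T hD₂ hγ₂ (k + c) y = 0 →
      (p : ℤ) ∣ nodeOrd (sheet₁ T hA hD₁ hγ₁ k) (unram_sheet₁ T hA hD₁ hγ₁ k) (P s)
        (fixedUnits (tameGroup A ζ) T.Fp) y

theorem nlNodeK_of_nlNodeS (Dcl : FrameClause) (H : NLNodeS Dcl) : NLNodeK Dcl := by
  intro W hΔ p _ hp5 hss hmult hpeu hirr hord M' _ hpM' hnot C hC A hA hAp ι _ P Q c n₀ FF NH hd ζ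
    hKU D T hg hlc hσ hD₁ hD₂ γ₁ γ₂ hγ₁ hγ₂ s
  obtain ⟨c', hc'⟩ := H W hΔ p hp5 hss hmult hpeu hirr hord M' hpM' hnot C hC A hA hAp ι P Q c n₀
    FF NH hd ζ hKU D T hg hlc hσ hD₁ hD₂ γ₁ γ₂ hγ₁ hγ₂ s
  exact ⟨c', fun k y hy h1 h2 => hc' k y hy h1 h2⟩

/-- **the gate target from the per-node node lemma on `sheet₁`.** -/
theorem tropZeroT_of_nlNodeS (Dcl : FrameClause)
    (hDd : ∀ (p : ℕ) [Fact p.Prime] (M' : ℕ) [NeZero M'] (hpM' : ¬ p ∣ M')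
      (A : ValuationSubring Kbar) (ι : Type) [Fintype ι]
      (P Q : ι → Place (ResidueField A) (FresBar (M' * p) A)),
      Dcl p M' hpM' A ι P Q →
      ∀ Q' : Place (ResidueField A) (FresBar (M' * p) A), 0 ≤ Q'.ord (tauF (M' * p) A) →
        (∀ s, Q' ≠ P s) →
        Q'.ord ((redDataBar (M' * p) A).red
          ⟨etaQ (M' * p) p (exactDvd hpM').dvd,
            etaQ_mem_Rw1 (M' * p) A p (exactDvd hpM').dvd⟩) = 0)
    (hDf : ∀ (p : ℕ) [Fact p.Prime] (_ : 5 ≤ p) (M' : ℕ) [NeZero M'] (hpM' : ¬ p ∣ M')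
      (A : ValuationSubring Kbar) (_ : A.LiesOverPrime p) (ι : Type) [Fintype ι]
      (P Q : ι → Place (ResidueField A) (FresBar (M' * p) A)) (c : ℤ) (n₀ : ℕ)
      (_ : FrameFacts (M' * p) A (exactDvd hpM') P Q)
      (_ : NodalHyp (redCompatFN (M' * p) A (exactDvd hpM')) P Q (CS (M' * p) (exactDvd hpM'))
        (Dτ (M' * p) A p) (Dτ (M' * p) A p) (genusRR Kbar (FN (M' * p))) c n₀),
      Dcl p M' hpM' A ι P Q →
      ∀ s, ¬ (p : ℤ) ∣ (P s).ord ((redDataBar (M' * p) A).red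
          ⟨etaQ (M' * p) p (exactDvd hpM').dvd,
            etaQ_mem_Rw1 (M' * p) A p (exactDvd hpM').dvd⟩))
    (H : NLNodeS Dcl) : TropZeroT Dcl :=
  tropZeroT_of_nlNodeK Dcl hDd hDf (nlNodeK_of_nlNodeS Dcl H)

end Fermat.Agent.GF.F2Asm.NodeSupplyAsmS
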