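/-
GATE-F (S44) / seam E-PEU → F2-ASM (helper69; assignment of helper13, board 6354 §3):
**the binder `hQ` of `GF/F2Asm/InstDatum` (`TameDatum.isCoverDatum` / `TameDatum.econst`),
VERBATIM, from helper70's pin `GF/ETate/Pin.KummerUnit W p A ζ`** through helper61's
`GF/Setup/PeuY0K.peu_valuation_Y0'` and helper31's `PeuBridge.dvd_of_valuation_eq_pow`.

Setting: `C : Copy W p M` (`Y₀ = C.Y0 ⊆ Kum_p(F_M)`), `A ∣ p`, `ζ` a primitive `p`-th root of
unity, `I' = tameGroup A ζ`, `D : LineData …` the S1 shape on `Y₀`, `y ∈ Y₀` any class, `w ≠ 0`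
ANY nonzero class (for the consumer: `w = [T.g] = ∓ D.w₀`, but NO relation between `w` and
`D.w₀` is used), `κz : I' → ZMod p` with `ρ y − y = κz ρ • w` for `ρ ∈ I'`
(= the binder `hshape` of `isCoverDatum`).

* `hQ_of_kummerUnit` : `hQ` for `(y, w, κz)`;
* `TameDatum.class_ne_zero` : `[T.g] ≠ 0` (from `T.irr`);
* `TameDatum.hQ_of_kummerUnit` : `hQ` with the binder `hshape` of `TameDatum.isCoverDatum`
  VERBATIM (`y = [u]`, `w = [T.g]`), so the Y₀-level wrapper passes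
  `(T.hQ_of_kummerUnit hA h D u hu κz hshape)` for the argument `hQ`;
* `nonunits_of_liesOverPrime` : `hA : (p : ℚ̄) ∈ A.nonunits` from `A.LiesOverPrime p`.
-/
import Fermat.Agent.GF.F2Asm.InstDatum
import Fermat.Agent.GF.F2Asm.PeuBridge
import Fermat.Agent.GF.Setup.PeuY0K
import Fermat.Agent.S05.Inertia

set_option autoImplicit false
set_option linter.unusedSectionVars false

noncomputable section

namespace Fermat.Agent.GF.F2Asm.PeuQ

open AlgebraicCurve ModularCurve Polynomial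
open Fermat.Agent.Common_helper32
open Fermat.Agent.GJ Fermat.Agent.GJ.KumGroup Fermat.Agent.GJ.Kum.KumType
open Fermat.Agent.GJ.CycChar Fermat.Agent.GB.A.A6.ECDet
open Fermat.Agent.GH.Closure Fermat.Agent.GF.Peu Fermat.Agent.GF.ETate
open Fermat.Agent.GF.Setup.Plane Fermat.Agent.GF.Shape.Sub
open Fermat.Agent.GF.F2Asm.KummerExt Fermat.Agent.GF.F2Asm.Inst

local notation "GQ" => (AlgebraicClosure ℚ ≃ₐ[ℚ] AlgebraicClosure ℚ)

variable {W : WeierstrassCurve ℤ} {p : ℕ} [hpF : Fact p.Prime] {M : ℕ} [NeZero M]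
  {C : Copy W p M} {A : ValuationSubring Kb} {ζ : Kb}

/-- `A ∣ p` ⟹ `p` is a nonunit of `A`. -/
theorem nonunits_of_liesOverPrime (hA : A.LiesOverPrime p) : (p : Kb) ∈ A.nonunits :=
  (Fermat.Agent.S05.natCast_mem_nonunits_iff hpF.out hA p).2 dvd_rfl

/-- **E-PEU in `ℚ̄`-form (`hQ`) from the Kummer unit of the E-side**, for a class `y ∈ Y₀` whose
`I'`-cocycle is `κz` with respect to ANY nonzero class `w`. -/
theorem hQ_of_kummerUnit (hA : (p : Kb) ∈ A.nonunits) (hζ : IsPrimitiveRoot ζ p)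
    (h : KummerUnit W p A ζ)
    {M₀ : AddSubgroup (Additive (Kum Kb (FK M) p))}
    (D : LineData (gal M p) (A.inertiaSubgroupIn ℚ) C.Y0 M₀
      (fun σ => ((cyc p σ : (ZMod p)ˣ) : ZMod p)))
    {y : Additive (Kum Kb (FK M) p)} (hy : y ∈ C.Y0)
    {w : Additive (Kum Kb (FK M) p)} (hw : w ≠ 0)
    (κz : tameGroup A ζ → ZMod p)
    (hshape : ∀ ρ : tameGroup A ζ, gal M p ρ.1 y - y = κz ρ • w) :
    ∀ t : Kb, t ≠ 0 → (∀ ρ : tameGroup A ζ, ρ.1 (t ^ p) = t ^ p) →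
      (∀ ρ : tameGroup A ζ, ρ.1 t * ζ ^ (κz ρ).val = t) →
      ∀ n : ℤ, A.valuation (t ^ p) = A.valuation (1 - ζ) ^ n → (p : ℤ) ∣ n := by
  intro t ht0 htp ht n hn
  -- `ρ y = y ⟹ κz ρ = 0 ⟹ ρ t = t`
  have hγL : ∀ ρ : GQ, IsTameFix A ζ ρ → gal M p ρ y = y → ρ t = t := by
    intro ρ hρ hfix
    have h1 := hshape ⟨ρ, hρ⟩
    rw [hfix, sub_self] at h1
    have h2 : κz ⟨ρ, hρ⟩ = 0 := by
      rcases smul_eq_zero.mp h1.symm with h3 | h3
      · exact h3
      · exact absurd h3 hw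
    have h4 := ht ⟨ρ, hρ⟩
    rwa [h2, ZMod.val_zero, pow_zero, mul_one] at h4
  obtain ⟨β, hβ0, hβ, hval⟩ := Fermat.Agent.GF.Setup.PeuY0K.peu_valuation_Y0' hζ h D hy ht0
    (fun ρ hρ => htp ⟨ρ, hρ⟩) hγL
  exact Fermat.Agent.GF.F2Asm.PeuBridge.dvd_of_valuation_eq_pow hA hζ hβ0 hβ hval hn

namespace TameDatum

variable {N : ℕ} [NeZero N]

/-- the class of the Kummer function of a tame datum is nonzero. -/
theorem class_ne_zero (T : TameDatum N p A ζ) :
    (Additive.ofMul (Kum.mk T.g) : Additive (Kum Kb (FK N) p)) ≠ 0 := by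
  intro h0
  have h1 : Kum.mk (1 : pDivUnits Kb (FK N) p) = Kum.mk T.g := by
    rw [map_one]
    exact (Additive.ofMul.injective h0).symm
  obtain ⟨b, hb⟩ := Kum.mk_eq_mk_iff.mp h1
  rw [OneMemClass.coe_one, one_mul] at hb
  -- `g = b ^ p`, so `b` is a root of the irreducible `X ^ p - C g` of degree `p ≥ 2`
  have hg : ((T.g : (FK N)ˣ) : FK N) = (b : FK N) ^ p := by
    rw [hb, Units.val_pow_eq_pow_val]
  have hroot : (kpoly p (((T.g : (FK N)ˣ) : FK N))).IsRoot (b : FK N) := by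
    unfold kpoly
    rw [Polynomial.IsRoot.def, Polynomial.eval_sub, Polynomial.eval_pow, Polynomial.eval_X,
      Polynomial.eval_C, hg, sub_self]
  have hdeg := Polynomial.degree_eq_one_of_irreducible_of_root T.irr hroot
  have hdeg' : (kpoly p (((T.g : (FK N)ˣ) : FK N))).degree = (p : WithBot ℕ) := by
    unfold kpoly
    exact Polynomial.degree_X_pow_sub_C hpF.out.pos _
  rw [hdeg'] at hdeg
  have : p = 1 := by exact_mod_cast hdeg
  exact hpF.out.one_lt.ne' this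

/-- **the binder `hQ` of `TameDatum.isCoverDatum` / `TameDatum.econst`, VERBATIM**, from the
Kummer unit of the E-side: `[u] ∈ Y₀`, `hshape` the binder `hshape` of `isCoverDatum`. -/
theorem hQ_of_kummerUnit (T : TameDatum N p A ζ) {C : Copy W p N}
    (hA : (p : Kb) ∈ A.nonunits) (h : KummerUnit W p A ζ)
    {M₀ : AddSubgroup (Additive (Kum Kb (FK N) p))}
    (D : LineData (gal N p) (A.inertiaSubgroupIn ℚ) C.Y0 M₀
      (fun σ => ((cyc p σ : (ZMod p)ˣ) : ZMod p)))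
    (u : pDivUnits Kb (FK N) p)
    (hu : (Additive.ofMul (Kum.mk u) : Additive (Kum Kb (FK N) p)) ∈ C.Y0)
    (κz : tameGroup A ζ → ZMod p)
    (hshape : ∀ ρ : tameGroup A ζ,
      gal N p ρ.1 (Additive.ofMul (Kum.mk u)) - Additive.ofMul (Kum.mk u) =
        κz ρ • (Additive.ofMul (Kum.mk T.g) : Additive (Kum Kb (FK N) p))) :
    ∀ t : Kb, t ≠ 0 → (∀ ρ : tameGroup A ζ, ρ.1 (t ^ p) = t ^ p) →
      (∀ ρ : tameGroup A ζ, ρ.1 t * ζ ^ (κz ρ).val = t) →
      ∀ n : ℤ, A.valuation (t ^ p) = A.valuation (1 - ζ) ^ n → (p : ℤ) ∣ n :=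
  PeuQ.hQ_of_kummerUnit hA T.prim h D hu (class_ne_zero T) κz hshape

end TameDatum

end Fermat.Agent.GF.F2Asm.PeuQ
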