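/-
GATE-F (S44) / node GF-F2-ASM, file 20 (helper31, assembler of `nodeSupply`): **(N3) the sheets of
the concrete cover, with NO binder left** — helper19's `Bridge.sheetK` in helper47's modular
spelling `ModUp.TameUpData.sheetT`, with the archimedean binder `harch` discharged
(`Compl/Harch.harch_of_unram_comap` + `v(1 − ζ)^(p−1) = v(p)`).

* `harch_const`  : `∀ c ≠ 0, ∃ n, (1 − ζ) ^ n * c⁻¹ ∈ A`   (`A | p` in `ℚ̄`);
* `harchOf`      : the binder `harch` of `sheetK / sheetT` for ANY Gauss reduction datum `R` of `F_N`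
  with `R.A = A`, unramified, in the `valF₁`-type spelling;
* `harch₁`, `harch₂` : for `redDataBar N A`, `redData2 N A h`;
* `R1T T hA hD₁ hγ₁ i`, `R2T T h hA hD₂ hγ₂ i` : the sheets; `unram_R1T`, `redExt_R1T` (= the
  `R1 hun1 hext` of `F2Plug.NodeSupply`), `unram_R2T`, `redExt_R2T`.
-/
import Fermat.Agent.GF.KCover.AuxLevel.ModUp
import Fermat.Agent.GF.KCover.Compl.Harch
import Fermat.Agent.GS.F.KerBridge

set_option autoImplicit false
set_option linter.unusedSectionVars false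
set_option linter.unusedVariables false

noncomputable section

namespace Fermat.Agent.GF.F2Asm.SheetT

open AlgebraicCurve ModularCurve Polynomial
open Fermat.Agent.GJ.J1 Fermat.Agent.GJ.J1.Val Fermat.Agent.S24 Fermat.Agent.GF.Trop
open Fermat.Agent.GJ.KumGroup Fermat.Agent.GJ.Kum.KumType Fermat.Agent.GK.SS Fermat.Agent.GK.AL
open Fermat.Agent.GF.KCover Fermat.Agent.GF.KCover.Compl
open Fermat.Agent.GF.KCover.Compl.RedCompl Fermat.Agent.GF.KCover.Compl.Bridge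
open Fermat.Agent.GF.KCover.Node.OrdRedExt
open Fermat.Agent.GF.KCover.Field Fermat.Agent.GF.KCover.Field.Disc
open Fermat.Agent.GF.KCover.Field.WDataOf Fermat.Agent.GF.KCover.AuxLevel
open Fermat.Agent.GF.F2Asm Fermat.Agent.GF.F2Asm.KummerExt Fermat.Agent.GF.F2Asm.Inst

attribute [local instance] Fermat.Agent.GF.KCover.Field.WDataOf.actFK
attribute [local instance] Fermat.Agent.GF.KCover.Field.WDataOf.algE'

variable {N : ℕ} [NeZero N] {p : ℕ} [hpF : Fact p.Prime] {A : ValuationSubring Kb} {ζ : Kb}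

/-- `ℚ̄` is archimedean at `A | p` with respect to `1 − ζ`. -/
theorem harch_const (hA : (p : Kb) ∈ A.nonunits) (hζ : IsPrimitiveRoot ζ p) (c : Kb)
    (hc : c ≠ 0) : ∃ n : ℕ, (1 - ζ) ^ n * c⁻¹ ∈ A := by
  have hp := hpF.out
  refine Fermat.Agent.GF.KCover.Compl.Harch.exists_unif_pow_mul_inv_mem_Qbar A hp hA
    (m := p - 1) ?_ hc
  rw [← A.valuation_le_one_iff, map_mul, map_pow, map_inv₀,
    Fermat.Agent.GL.Local.InertiaField.valuation_one_sub_zeta_pow A hp hζ]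
  have h0 : A.valuation (p : Kb) ≠ 0 :=
    (Valuation.ne_zero_iff _).mpr (Nat.cast_ne_zero.mpr hp.ne_zero)
  rw [mul_inv_cancel₀ h0]

variable (T : TameDatum N p A ζ)

/-- **the binder `harch` of `sheetK` / `sheetT`** at a Gauss reduction datum of `F_N` over `A`. -/
theorem harchOf (hA : (p : Kb) ∈ A.nonunits) {k Ft : Type*} [Field k] [Field Ft] [Algebra k Ft]
    (R : RedData Kb (FK N) k Ft) (hRA : R.A = A) (hun : Unram R)
    {v : Valuation (F₁ N A ζ) (ValuationSubring.ValueGroup R.Rw)}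
    (hv : ∀ x : F₁ N A ζ, R.Rw.valuation ((F₁ N A ζ).subtype x) = v x)
    (γ : ValuationSubring.ValueGroup R.Rw) (hγ : γ ≠ 0) : ∃ n : ℕ, v (ϖ₁ T) ^ n < γ := by
  have hp := hpF.out
  have hπ : (1 - ζ : Kb) ∈ A.nonunits :=
    Fermat.Agent.GL.Local.InertiaField.one_sub_zeta_mem_nonunits A hp hA T.prim
  have hπ0 : (1 - ζ : Kb) ≠ 0 :=
    Fermat.Agent.GL.Local.InertiaField.one_sub_zeta_ne_zero hp T.prim
  refine Fermat.Agent.GF.KCover.Compl.Harch.harch_of_unram_comap R hun (ϖ₀ := 1 - ζ) ?_ ?_ ?_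
    (F₁ N A ζ).subtype hv (ϖ := ϖ₁ T) rfl γ hγ
  · rw [hRA]
    exact A.nonunits_subset hπ
  · rw [hRA]
    intro hinv
    have h1 : A.valuation (1 - ζ) < 1 := (A.mem_nonunits_iff.mp hπ)
    have h2 : A.valuation ((1 - ζ)⁻¹) ≤ 1 := (A.valuation_le_one_iff _).mpr hinv
    rw [map_inv₀] at h2
    have h0 : A.valuation (1 - ζ) ≠ 0 := (Valuation.ne_zero_iff _).mpr hπ0
    have h3 : 1 ≤ A.valuation (1 - ζ) := (inv_le_one₀ (zero_lt_iff.2 h0)).1 h2
    exact absurd h1 (not_lt.mpr h3)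
  · intro c hc
    rw [hRA]
    exact harch_const hA T.prim c hc

/-- `harch` at the first Gauss valuation. -/
theorem harch₁ (hA : (p : Kb) ∈ A.nonunits)
    (γ : ValuationSubring.ValueGroup (redDataBar N A).Rw) (hγ : γ ≠ 0) :
    ∃ n : ℕ, valF₁ T (galVal1 N A) (ϖ₁ T) ^ n < γ :=
  harchOf T hA (redDataBar N A) rfl (Fermat.Agent.GS.F.unram_redDataBar N A) (fun _ => rfl) γ hγ

/-- `harch` at the second Gauss valuation. -/
theorem harch₂ {q : ℕ} (h : ExactDvd q N) (hA : (p : Kb) ∈ A.nonunits)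
    (γ : ValuationSubring.ValueGroup (redData2 N A h).Rw) (hγ : γ ≠ 0) :
    ∃ n : ℕ, valF₁ T (galVal2 N A h) (ϖ₁ T) ^ n < γ :=
  harchOf T hA (redData2 N A h) rfl (Fermat.Agent.GS.F.unram_redData2 N A h) (fun _ => rfl) γ hγ

section Sheets

variable (hA : (p : Kb) ∈ A.nonunits)
  (hD₁ : IsDisc (valF₁ T (galVal1 N A)) (ϖ₁ T)) {γ₁ : Pack.Lc hD₁}
  (hγ₁ : γ₁ ^ p = Pack.jc hD₁ (g₁ T))

/-- **the `i`-th sheet of the cover above the first component.** -/
def R1T (i : ZMod p) : RedData Kb T.Fp (IsLocalRing.ResidueField A) (FresBar N A) :=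
  TameUpData.sheetT T (redDataBar N A) (fun _ => rfl) hD₁ (harch₁ T hA) hγ₁ i

theorem unram_R1T (i : ZMod p) : Unram (R1T T hA hD₁ hγ₁ i) :=
  unram_sheetK (redDataBar N A) (F₁ N A ζ).subtype (fun _ => rfl) hD₁ (harch₁ T hA) (ζ₁_prim T)
    hγ₁ (isAdj T) (Fermat.Agent.GS.F.unram_redDataBar N A) i

theorem redExt_R1T (i : ZMod p) : RedExt (redDataBar N A) (R1T T hA hD₁ hγ₁ i) :=
  redExt_sheetK (redDataBar N A) (F₁ N A ζ).subtype (fun _ => rfl) hD₁ (harch₁ T hA) (ζ₁_prim T)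
    hγ₁ (isAdj T) i

variable {q : ℕ} (h : ExactDvd q N)
  (hD₂ : IsDisc (valF₁ T (galVal2 N A h)) (ϖ₁ T)) {γ₂ : Pack.Lc hD₂}
  (hγ₂ : γ₂ ^ p = Pack.jc hD₂ (g₁ T))

/-- **the `i`-th sheet of the cover above the second component.** -/
def R2T (i : ZMod p) : RedData Kb T.Fp (IsLocalRing.ResidueField A) (FresBar N A) :=
  TameUpData.sheetT T (redData2 N A h) (fun _ => rfl) hD₂ (harch₂ T h hA) hγ₂ i

theorem unram_R2T (i : ZMod p) : Unram (R2T T hA h hD₂ hγ₂ i) :=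
  unram_sheetK (redData2 N A h) (F₁ N A ζ).subtype (fun _ => rfl) hD₂ (harch₂ T h hA)
    (ζ₁_prim T) hγ₂ (isAdj T) (Fermat.Agent.GS.F.unram_redData2 N A h) i

theorem redExt_R2T (i : ZMod p) : RedExt (redData2 N A h) (R2T T hA h hD₂ hγ₂ i) :=
  redExt_sheetK (redData2 N A h) (F₁ N A ζ).subtype (fun _ => rfl) hD₂ (harch₂ T h hA)
    (ζ₁_prim T) hγ₂ (isAdj T) i

end Sheets

end Fermat.Agent.GF.F2Asm.SheetT
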