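/-
GATE-F (S44/S40) / node GF-F2-ASM, file 13 (helper31): **the tame Kummer datum of a GIVEN `I'`-fixed
representative**, normalised by its leading `q`-coefficient (helper13's ruling "CONSTANTS":
`T.g := g / lc_q(g)`).

`exists_tameDatum_of_rep` : `g` a `p`-divisible unit, `[g] ≠ 0`, fixed by `I' = tameGroup A ζ`
⟹ `∃ T : TameDatum N p A ζ, T.g₀ = nrm N g ∧ [T.g] = [g] ∧ lc_q (T.g₀) = 1`
(`nrm N g = g / lc_q(g)`, `TameSigma.nrm`).  With `TameSigma.smul_nrm_rel` an `I_A`-lift relation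
`σ g = g ^ k * h ^ p` for `g` gives `σ T.g₀ = T.g₀ ^ k * (nrm N h) ^ p`.
So GF-ASFORM / `G0Inst.exists_g0_of_rep` can feed THEIR representative (chart rep, normalised, then
`ω`-projected) and every `∀ T` statement of F2-ASM applies to it.
-/
import Fermat.Agent.GF.F2Asm.TameSigma

set_option autoImplicit false
set_option linter.unusedSectionVars false

noncomputable section

namespace Fermat.Agent.GF.F2Asm.TameOfRep

open AlgebraicCurve ModularCurve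
open Fermat.Agent.GJ Fermat.Agent.GJ.KumGroup Fermat.Agent.GJ.Kum.KumType Fermat.Agent.S24
open Fermat.Agent.GF.Peu Fermat.Agent.GF.F2Asm.Inst Fermat.Agent.GF.KumDesc
open Fermat.Agent.GF.F2Asm.TameSigma

local notation "GQ" => (AlgebraicClosure ℚ ≃ₐ[ℚ] AlgebraicClosure ℚ)

variable {N : ℕ} [NeZero N] {p : ℕ} [hpF : Fact p.Prime] {A : ValuationSubring Kb} {ζ : Kb}

/-- the normalisation `g / lc_q(g)` of a `p`-divisible unit is a `p`-divisible unit with the same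
Kummer class. -/
theorem exists_nrm (g : pDivUnits Kb (FK N) p) :
    ∃ g₁ : pDivUnits Kb (FK N) p, (Kum.mk g₁ : Kum Kb (FK N) p) = Kum.mk g ∧
      (((g₁ : (FK N)ˣ) : FK N)) = nrm N (((g : (FK N)ˣ) : FK N)) := by
  have hp := hpF.out
  obtain ⟨d, hd⟩ := IsAlgClosed.exists_pow_nat_eq
    (Laurent.lcHom (qEmb N) (((g : (FK N)ˣ) : FK N))) hp.pos
  have hc0 : Laurent.lcHom (qEmb N) (((g : (FK N)ˣ) : FK N)) ≠ 0 := by
    rw [Laurent.lcHom_apply]
    exact HahnSeries.leadingCoeff_ne_zero.2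
      ((map_ne_zero_iff _ (qEmb N).toRingHom.injective).mpr (g : (FK N)ˣ).ne_zero)
  have hd0 : d ≠ 0 := by
    rintro rfl
    rw [zero_pow hp.ne_zero] at hd
    exact hc0 hd.symm
  have hdF : algebraMap Kb (FK N) d ≠ 0 :=
    (map_ne_zero_iff _ (algebraMap Kb (FK N)).injective).mpr hd0
  refine ⟨g * ⟨(Units.mk0 _ hdF)⁻¹ ^ p, pow_mem_pDivUnits Kb (FK N) p _⟩,
    (Kum.mk_eq_mk_iff.mpr ⟨(Units.mk0 _ hdF)⁻¹, rfl⟩).symm, ?_⟩
  rw [nrm_apply, Subgroup.coe_mul, Units.val_mul, Subgroup.coe_mk, Units.val_pow_eq_pow_val,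
    Units.val_inv_eq_inv_val, Units.val_mk0, inv_pow, ← map_pow, hd]

/-- **the tame Kummer datum of a given `I'`-fixed representative.** -/
theorem exists_tameDatum_of_rep (hζ : IsPrimitiveRoot ζ p) (g : pDivUnits Kb (FK N) p)
    (hne : (Additive.ofMul (Kum.mk g) : Additive (Kum Kb (FK N) p)) ≠ 0)
    (hfix : ∀ ρ : GQ, IsTameFix A ζ ρ →
      arithmeticGalois (modularFunctionFieldFull N) ρ • (((g : (FK N)ˣ) : FK N)) =
        ((g : (FK N)ˣ) : FK N)) :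
    ∃ T : TameDatum N p A ζ, T.g₀ = nrm N (((g : (FK N)ˣ) : FK N)) ∧
      (Kum.mk T.g : Kum Kb (FK N) p) = Kum.mk g ∧ (qEmb N T.g₀).leadingCoeff = 1 := by
  obtain ⟨g₁, hg₁, hcoe⟩ := exists_nrm g
  have hne₁ : (Additive.ofMul (Kum.mk g₁) : Additive (Kum Kb (FK N) p)) ≠ 0 := by
    rw [hg₁]
    exact hne
  have hfix₁ : ∀ ρ : GQ, IsTameFix A ζ ρ →
      arithmeticGalois (modularFunctionFieldFull N) ρ • (((g₁ : (FK N)ˣ) : FK N)) =
        ((g₁ : (FK N)ˣ) : FK N) := by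
    intro ρ hρ
    rw [hcoe]
    exact smul_nrm_of_fixed (hfix ρ hρ)
  refine ⟨TameDatum.ofClassNeZero g₁ hζ hfix₁ hne₁, hcoe, hg₁, ?_⟩
  show (qEmb N (((g₁ : (FK N)ˣ) : FK N))).leadingCoeff = 1
  rw [hcoe]
  exact lc_nrm (g : (FK N)ˣ).ne_zero

end Fermat.Agent.GF.F2Asm.TameOfRep
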