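/-
GATE-F (S44) / node GF-TROPZERO-ASM (helper34): **the field `trop_zero` of `FieldsAtZ`
(`GF/Top/Provider44Z.lean`) in HYPOTHESIS form** — the seam between (F2) (helper31 F2-ASM:
`EConst E (trop x)` on `Y₀`, with `E s · ord_{P s}(red₁ etaQ) = 12 (p − 1)` from the node congruence
at `θ = etaQ`) and (EIS) (helper77 `eis1`: a `T_ℓ`-eigenclass with non-Eisenstein eigenvalue whose
tropical vector is proportional to the tropical vector of `etaQ = Δ(z)/Δ(pz)` has tropical vector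
`0`).

* `exists_prop_of_econst` (Mathlib only): `E s * o s = t ≠ 0`, `E s * m s = c` for all `s`
  `⟹ ∃ c', ∀ s, m s = c' * o s`;
* `trop_zero_abs` : the abstract assembly (`V`, `Y₀`, `trop`, `T`, `a`);
* `etaTrop N A P h : ι → ZMod p`, the tropical vector of `etaQ N p`; `etaTrop_eq_ord`;
* `natCast_twelve_mul_pred_ne_zero` : `5 ≤ p ⟹ ((12 (p−1) : ℕ) : ZMod p) ≠ 0`;
* `F2Hyp`, `EisHyp` : the two hypotheses in concrete vocabulary; `f2Hyp_of_twelve`;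
* **`trop_zero_of_frame`** : binder list of `Provider44Z.FieldsZ` VERBATIM + `F2Hyp` + `EisHyp`
  `⟹ ∀ x ∈ C.Y0, trop1FN (M' p) A P x = 0`.
-/
import Mathlib
import Fermat.Agent.GF.Top.Provider44Z
import Fermat.Agent.GL.Eta.Gauss

set_option autoImplicit false
set_option linter.unusedSectionVars false
set_option linter.unusedVariables false

noncomputable section

namespace Fermat.Agent.GF.F2Asm.TropZero

/-! ### the abstract seam -/

section Abs

variable {p : ℕ} [Fact p.Prime] {ι : Type*}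

/-- **(F2) ⟹ the hypothesis of (EIS)**: if `E s * o s = t ≠ 0` and `E s * m s = c` for all `s`, then
`m` is proportional to `o`. -/
theorem exists_prop_of_econst (E m o : ι → ZMod p) {t : ZMod p} (ht : t ≠ 0)
    (hEo : ∀ s, E s * o s = t) (hc : ∃ c : ZMod p, ∀ s, E s * m s = c) :
    ∃ c' : ZMod p, ∀ s, m s = c' * o s := by
  obtain ⟨c, hc⟩ := hc
  refine ⟨c * t⁻¹, fun s => ?_⟩
  have h1 : m s * t = c * o s := by
    rw [← hEo s, ← hc s]
    ring
  calc m s = m s * t * t⁻¹ := by rw [mul_assoc, mul_inv_cancel₀ ht, mul_one]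
    _ = c * t⁻¹ * o s := by rw [h1]; ring

/-- **the abstract assembly of `trop_zero`.** -/
theorem trop_zero_abs {V : Type*} [AddCommGroup V] [Module (ZMod p) V]
    (Y₀ : Submodule (ZMod p) V) (trop : V →+ (ι → ZMod p)) (E o : ι → ZMod p) {t : ZMod p}
    (ht : t ≠ 0) (hEo : ∀ s, E s * o s = t)
    (econst : ∀ x ∈ Y₀, ∃ c : ZMod p, ∀ s, E s * trop x s = c)
    (T : Module.End (ZMod p) V) (a : ZMod p) (eig : ∀ x ∈ Y₀, T x = a • x)
    (eis : ∀ x : V, T x = a • x → (∃ c : ZMod p, ∀ s, trop x s = c * o s) →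
      ∀ s, trop x s = 0) :
    ∀ x ∈ Y₀, trop x = 0 := by
  intro x hx
  funext s
  exact eis x (eig x hx) (exists_prop_of_econst E (trop x) o ht hEo (econst x hx)) s

/-- `12 (p − 1) ≠ 0` in `ZMod p` for `p ≥ 5`. -/
theorem natCast_twelve_mul_pred_ne_zero (hp5 : 5 ≤ p) : ((12 * (p - 1) : ℕ) : ZMod p) ≠ 0 := by
  have hp : p.Prime := Fact.out
  rw [Ne, ZMod.natCast_eq_zero_iff]
  intro h
  rcases (Nat.Prime.dvd_mul hp).mp h with h12 | h1
  · have h2 : p ∣ 2 ^ 2 * 3 := by norm_num; exact h12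
    rcases (Nat.Prime.dvd_mul hp).mp h2 with h3 | h3
    · have := (Nat.prime_dvd_prime_iff_eq hp Nat.prime_two).mp (hp.dvd_of_dvd_pow h3)
      omega
    · have := (Nat.prime_dvd_prime_iff_eq hp Nat.prime_three).mp h3
      omega
  · have : p ≤ p - 1 := Nat.le_of_dvd (by omega) h1
    omega

end Abs

/-! ### the concrete seam on the modular nodal frame -/

open AlgebraicCurve IntermediateField Module IsLocalRing ModularCurve
open Fermat.Agent.S24 Fermat.Agent.S24_helper62 Fermat.Agent.RRh45 Fermat.Agent.RR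
open Fermat.Agent.GJ.J1 Fermat.Agent.GJ.J1.Val Fermat.Agent.GJ.J1.InstGen
open Fermat.Agent.GK.MultiVal Fermat.Agent.GK.BallTwo Fermat.Agent.GK.NodalGraded
open Fermat.Agent.GS.Nodal.LSR2 Fermat.Agent.GS.Nodal.Inst Fermat.Agent.GS.Nodal.ROfSurj2
open Fermat.Agent.GJ Fermat.Agent.GJ.KumGroup Fermat.Agent.GJ.Kum.KumType
open Fermat.Agent.GK.UQ Fermat.Agent.GK.New Fermat.Agent.GK.AL Fermat.Agent.GK.UqKronecker
open Fermat.Agent.GB.A.A6.ECDet Fermat.Agent.GB.A.A6.EigQ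
open Fermat.Agent.GF.Setup.Plane Fermat.Agent.GF.Setup.S0
open Fermat.Agent.GF.Shape.Plug Fermat.Agent.GF.Trop
open Fermat.Agent.GF.Top.Skeleton Fermat.Agent.GF.Top.S44Top
open Fermat.Agent.GL.Eta

attribute [local instance] finiteResidues_FN hasPrincipalDivisors_FN nonempty_place_FN
  isAlgClosed_res finiteResidues_Fres hasPrincipalDivisors_Fres nonempty_place_Fres

section Conc

variable {p : ℕ} [Fact p.Prime] (N : ℕ) [NeZero N] (A : ValuationSubring Kbar)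
  {ι : Type} [Fintype ι] (P : ι → Place (ResidueField A) (FresBar N A))

/-- **the tropical vector of `etaQ N p = Δ(z)/Δ(pz)`** (first component). -/
def etaTrop (h : ExactDvd p N) : ι → ZMod p := fun s =>
  ((ordRed (redDataBar N A) (Fermat.Agent.GS.F.unram_redDataBar N A) (P s)
    (etaQ N p h.dvd) : ℤ) : ZMod p)

/-- `etaQ` is a unit of the first Gauss valuation. -/
theorem isU_etaQ (h : ExactDvd p N) : IsU (redDataBar N A) (etaQ N p h.dvd) :=
  ⟨etaQ_ne_zero N p h.dvd, etaQ_mem_Rw1 N A p h.dvd, etaQ_inv_mem_Rw1 N A p h.dvd⟩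

/-- `etaTrop s = ord_{P s} (red₁ etaQ) mod p`. -/
theorem etaTrop_eq_ord (h : ExactDvd p N) (s : ι) :
    etaTrop N A P h s =
      (((P s).ord ((redDataBar N A).red ⟨etaQ N p h.dvd, etaQ_mem_Rw1 N A p h.dvd⟩) : ℤ) :
        ZMod p) := by
  unfold etaTrop
  rw [ordRed_of_isU (Fermat.Agent.GS.F.unram_redDataBar N A) (P s) (isU_etaQ N A h)]

/-- **(F2) in concrete vocabulary** (output of helper31 F2-ASM + helper84 node congruence at
`θ = etaQ` + helper23 (L-d)): thickness weights `E` with `E s · ord_{P s}(red₁ etaQ) = 12 (p−1)` and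
`E s · m_s(x) = const` for every class `x` of `Y₀`. -/
def F2Hyp (h : ExactDvd p N) (Y₀ : Submodule (ZMod p) (Additive (Kum Kb (FK N) p))) : Prop :=
  ∃ (E : ι → ZMod p) (κ₀ : ZMod p), κ₀ ≠ 0 ∧
    (∀ s, E s * etaTrop N A P h s = κ₀) ∧
    ∀ x ∈ Y₀, EConst E (trop1FN (q := p) N A P x)

/-- `F2Hyp` with the expected constant `κ₀ = 12 (p − 1)`, `p ≥ 5`. -/
theorem f2Hyp_of_twelve (hp5 : 5 ≤ p) (h : ExactDvd p N)
    (Y₀ : Submodule (ZMod p) (Additive (Kum Kb (FK N) p))) (E : ι → ZMod p)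
    (hEo : ∀ s, E s * etaTrop N A P h s = ((12 * (p - 1) : ℕ) : ZMod p))
    (hE : ∀ x ∈ Y₀, EConst E (trop1FN (q := p) N A P x)) : F2Hyp N A P h Y₀ :=
  ⟨E, _, natCast_twelve_mul_pred_ne_zero hp5, hEo, hE⟩

/-- **(EIS) in concrete vocabulary** (helper77 `eis1` at the prime `ℓ`). -/
def EisHyp (h : ExactDvd p N) {ℓ : ℕ} (hℓ : ℓ.Prime) (hℓN : ¬ ℓ ∣ N) : Prop :=
  ∀ (x : Additive (Kum Kb (FK N) p)) (a : ZMod p), kumTl N p hℓ hℓN x = a • x →
    a ≠ ((ℓ : ℕ) : ZMod p) + 1 →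
    (∃ c : ZMod p, ∀ s, trop1FN (q := p) N A P x s = c * etaTrop N A P h s) →
    ∀ s, trop1FN (q := p) N A P x s = 0

/-- **`trop_zero` from (F2) + (EIS) + the eigen-relation on `Y₀`.** -/
theorem trop_zero_of_hyps (h : ExactDvd p N)
    (Y₀ : Submodule (ZMod p) (Additive (Kum Kb (FK N) p))) {ℓ : ℕ} (hℓ : ℓ.Prime)
    (hℓN : ¬ ℓ ∣ N) (a : ZMod p) (eig : ∀ x ∈ Y₀, kumTl N p hℓ hℓN x = a • x)
    (ne : a ≠ ((ℓ : ℕ) : ZMod p) + 1)
    (hF2 : F2Hyp N A P h Y₀) (hEis : EisHyp N A P h hℓ hℓN) :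
    ∀ x ∈ Y₀, trop1FN (q := p) N A P x = 0 := by
  obtain ⟨E, κ₀, hκ₀, hEo, hE⟩ := hF2
  exact trop_zero_abs Y₀ (trop1FN (q := p) N A P) E (etaTrop N A P h)
    hκ₀ hEo hE (kumTl N p hℓ hℓN) a eig
    (fun x hx hc => hEis x a hx ne hc)

end Conc

/-! ### the field `trop_zero` with the binder list of `FieldsZ` -/

/-- **`FieldsAtZ.trop_zero`** with the binder list of `Provider44Z.FieldsZ` VERBATIM, from the two
open inputs (F2) and (EIS) in hypothesis form. -/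
theorem trop_zero_of_frame
    (W : WeierstrassCurve ℤ) (hΔ : W.Δ ≠ 0) (p : ℕ) [Fact p.Prime] (hp5 : 5 ≤ p)
    (hss : W.IsSemistableModel) (hmult : (p : ℤ) ∣ W.Δ)
    (hpeu : (W.map (Int.castRingHom ℚ)).IsPeuRamifieeAt p p)
    (hirr : W.ModRepIsIrreducible p)
    (M' : ℕ) [NeZero M'] (hpM' : ¬ p ∣ M')
    (hmod : W.IsResiduallyModularOfLevel p (M' * p))
    (hnot : ¬ W.IsResiduallyModularOfLevel p M')
    (C : Copy W p (M' * p))
    (hC : C.Y0 ≤ eigQ (M' * p) p (Sset W (M' * p) p) (hMS W (M' * p) p) (aW W))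
    (ℓ₀ : ℕ) (hℓ₀ : ℓ₀.Prime) (hℓ₀S : ℓ₀ ∉ Sset W (M' * p) p)
    (hne : ((aW W ℓ₀ : ℤ) : ZMod p) ≠ ((ℓ₀ : ℕ) : ZMod p) + 1)
    (A : ValuationSubring Kbar) (hA : A.LiesOverPrime p) (ι : Type) [Fintype ι]
    (P Q : ι → Place (ResidueField A) (FresBar (M' * p) A)) (c : ℤ) (n₀ : ℕ)
    (FF : FrameFacts (M' * p) A (exactDvd hpM') P Q)
    (NH : NodalHyp (redCompatFN (M' * p) A (exactDvd hpM')) P Q (CS (M' * p) (exactDvd hpM'))
      (Dτ (M' * p) A p) (Dτ (M' * p) A p) (genusRR Kbar (FN (M' * p))) c n₀)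
    (hF2 : F2Hyp (M' * p) A P (exactDvd hpM') C.Y0)
    (hEis : EisHyp (M' * p) A P (exactDvd hpM') hℓ₀ (good_of_notMem hΔ hℓ₀ hℓ₀S).2.1) :
    ∀ x ∈ C.Y0, trop1FN (q := p) (M' * p) A P x = 0 :=
  trop_zero_of_hyps (M' * p) A P (exactDvd hpM') C.Y0 hℓ₀
    (good_of_notMem hΔ hℓ₀ hℓ₀S).2.1 ((aW W ℓ₀ : ℤ) : ZMod p)
    (fun x hx => C.kumTl_eq hC hx hℓ₀ hℓ₀S _) hne hF2 hEis

end Fermat.Agent.GF.F2Asm.TropZero
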